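import Mathlib

/-!
# S31 route C, leaf (C-e): base change of a free lattice reflects divisibility by `p ^ m` (helper1)

Mathlib only.  `Λ` a free `ℤ`-module, `ι₀ : Λ →ₗ[ℤ] M` a base change to `ℤ_[p]`.  If
`ι₀ y ∈ p ^ m M` then `y ∈ p ^ m Λ`.
-/

namespace Fermat.Agent.ES.ALG31.BaseChangeDiv1

variable {p : ℕ} [hp : Fact p.Prime]

/-- Coordinatewise form: a base change `ι₀ : Λ → M` of a free `ℤ`-module to `ℤ_[p]` reflects
divisibility by `p ^ m`. -/
theorem exists_of_isBaseChange {Lam : Type*} [AddCommGroup Lam] [Module.Free ℤ Lam]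
    {M : Type*} [AddCommGroup M] [Module ℤ_[p] M]
    (iota0 : Lam →ₗ[ℤ] M) (h : IsBaseChange ℤ_[p] iota0) (m : ℕ) (y : Lam) (z : M)
    (hyz : iota0 y = (p : ℤ_[p]) ^ m • z) : ∃ y' : Lam, y = (p : ℤ) ^ m • y' := by
  classical
  let b := Module.Free.chooseBasis ℤ Lam
  have hdvd : ∀ i, ((p : ℤ) ^ m) ∣ b.repr y i := by
    intro i
    rw [← PadicInt.pow_p_dvd_int_iff]
    have h1 := h.basis_repr_comp_apply b y i
    rw [hyz, map_smul, Finsupp.smul_apply, smul_eq_mul] at h1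
    exact ⟨_, h1.symm⟩
  choose k hk using hdvd
  refine ⟨b.repr.symm ((b.repr y).mapRange (fun a => a / (p : ℤ) ^ m) (by simp)), ?_⟩
  apply b.repr.injective
  rw [map_smul, LinearEquiv.apply_symm_apply]
  ext i
  rw [Finsupp.smul_apply, Finsupp.mapRange_apply, smul_eq_mul]
  have hp0 : ((p : ℤ) ^ m) ≠ 0 := pow_ne_zero _ (by exact_mod_cast hp.out.ne_zero)
  rw [hk i, Int.mul_ediv_cancel_left _ hp0]

/-- Natural-number form of the conclusion. -/
theorem exists_of_isBaseChange' {Lam : Type*} [AddCommGroup Lam] [Module.Free ℤ Lam]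
    {M : Type*} [AddCommGroup M] [Module ℤ_[p] M]
    (iota0 : Lam →ₗ[ℤ] M) (h : IsBaseChange ℤ_[p] iota0) (m : ℕ) (y : Lam) (z : M)
    (hyz : iota0 y = (p : ℤ_[p]) ^ m • z) : ∃ y' : Lam, y = (p ^ m : ℕ) • y' := by
  obtain ⟨y', hy'⟩ := exists_of_isBaseChange iota0 h m y z hyz
  refine ⟨y', ?_⟩
  rw [hy', ← natCast_zsmul]
  push_cast
  rfl

/-- Converse (trivial direction), for completeness. -/
theorem map_pow_smul {Lam : Type*} [AddCommGroup Lam]
    {M : Type*} [AddCommGroup M] [Module ℤ_[p] M]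
    (iota0 : Lam →ₗ[ℤ] M) (m : ℕ) (y' : Lam) :
    iota0 ((p : ℤ) ^ m • y') = (p : ℤ_[p]) ^ m • iota0 y' := by
  rw [map_smul, ← Int.cast_smul_eq_zsmul ℤ_[p]]
  push_cast
  rfl

end Fermat.Agent.ES.ALG31.BaseChangeDiv1
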