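/-
Program S31 (plan `S31_PLAN27.md`), leaf (L1) LUCAS (helper15).

For a `2 × 2` matrix `A` over a commutative ring, `tr (A ^ j) = P_j (tr A, det A)` where
`P_0 = 2`, `P_1 = t`, `P_{j+2} = t P_{j+1} - d P_j` (the Lucas sequence `V_j(t, d)`).  We give the
value form `lucasV t d j`, the polynomial form `lucasP j : MvPolynomial (Fin 2) ℤ`, naturality under
ring homomorphisms, and the forms for endomorphisms of a free module of rank two (trace/det form and
characteristic polynomial form).

Mathlib only.
-/
import Mathlib

set_option autoImplicit false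

noncomputable section

namespace Fermat.Agent.ES.ALG31.Lucas15

open Polynomial

/-! ### The Lucas sequence -/

/-- the Lucas sequence `V_j(t, d)`: `V_0 = 2`, `V_1 = t`, `V_{j+2} = t V_{j+1} - d V_j`. -/
def lucasV {R : Type*} [CommRing R] (t d : R) : ℕ → R
  | 0 => 2
  | 1 => t
  | (j + 2) => t * lucasV t d (j + 1) - d * lucasV t d j

@[simp] theorem lucasV_zero {R : Type*} [CommRing R] (t d : R) : lucasV t d 0 = 2 := rfl

@[simp] theorem lucasV_one {R : Type*} [CommRing R] (t d : R) : lucasV t d 1 = t := rfl

theorem lucasV_add_two {R : Type*} [CommRing R] (t d : R) (j : ℕ) :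
    lucasV t d (j + 2) = t * lucasV t d (j + 1) - d * lucasV t d j := rfl

/-- naturality of the Lucas sequence. -/
theorem map_lucasV {R R' : Type*} [CommRing R] [CommRing R'] (φ : R →+* R') (t d : R) (j : ℕ) :
    φ (lucasV t d j) = lucasV (φ t) (φ d) j := by
  induction j using Nat.twoStepInduction with
  | zero => rw [lucasV_zero, lucasV_zero, map_ofNat]
  | one => simp
  | more j h0 h1 => rw [lucasV_add_two, lucasV_add_two, map_sub, map_mul, map_mul, h0, h1]

/-- the Lucas polynomials `P_j ∈ ℤ[X₀, X₁]`. -/
def lucasP (j : ℕ) : MvPolynomial (Fin 2) ℤ :=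
  lucasV (MvPolynomial.X 0) (MvPolynomial.X 1) j

theorem aeval_lucasP {R : Type*} [CommRing R] (t d : R) (j : ℕ) :
    MvPolynomial.aeval ![t, d] (lucasP j) = lucasV t d j := by
  have h := map_lucasV ((MvPolynomial.aeval ![t, d] : MvPolynomial (Fin 2) ℤ →ₐ[ℤ] R) :
    MvPolynomial (Fin 2) ℤ →+* R) (MvPolynomial.X 0) (MvPolynomial.X 1) j
  simpa [lucasP] using h

/-- naturality of the polynomial form. -/
theorem map_aeval_lucasP {R R' : Type*} [CommRing R] [CommRing R'] (φ : R →+* R') (t d : R)
    (j : ℕ) :
    φ (MvPolynomial.aeval ![t, d] (lucasP j)) = MvPolynomial.aeval ![φ t, φ d] (lucasP j) := by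
  rw [aeval_lucasP, aeval_lucasP, map_lucasV]

/-! ### Matrices -/

section Matrix

variable {R : Type*} [CommRing R]

/-- Cayley–Hamilton for `2 × 2` matrices. -/
theorem matrix_sq (A : Matrix (Fin 2) (Fin 2) R) : A ^ 2 = A.trace • A - A.det • 1 := by
  ext i j
  fin_cases i <;> fin_cases j <;>
    simp [pow_two, Matrix.mul_apply, Fin.sum_univ_two, Matrix.trace_fin_two, Matrix.det_fin_two] <;>
    ring

theorem matrix_pow_add_two (A : Matrix (Fin 2) (Fin 2) R) (j : ℕ) :
    A ^ (j + 2) = A.trace • A ^ (j + 1) - A.det • A ^ j := by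
  rw [pow_add, matrix_sq, mul_sub, Matrix.mul_smul, Matrix.mul_smul, mul_one, pow_succ]

/-- **Lucas**: `tr (A ^ j) = V_j (tr A, det A)`. -/
theorem trace_pow (A : Matrix (Fin 2) (Fin 2) R) (j : ℕ) :
    (A ^ j).trace = lucasV A.trace A.det j := by
  induction j using Nat.twoStepInduction with
  | zero => simp [Matrix.trace_fin_two]
  | one => simp
  | more j h0 h1 =>
    rw [matrix_pow_add_two, Matrix.trace_sub, Matrix.trace_smul, Matrix.trace_smul, h0, h1,
      lucasV_add_two, smul_eq_mul, smul_eq_mul]

theorem trace_pow_aeval (A : Matrix (Fin 2) (Fin 2) R) (j : ℕ) :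
    (A ^ j).trace = MvPolynomial.aeval ![A.trace, A.det] (lucasP j) := by
  rw [aeval_lucasP, trace_pow]

end Matrix

/-! ### Endomorphisms of a free module of rank two -/

section End

variable {R : Type*} [CommRing R] {V : Type*} [AddCommGroup V] [Module R V]

/-- **Lucas** for endomorphisms, basis form. -/
theorem trace_pow_of_basis (b : Module.Basis (Fin 2) R V) (f : Module.End R V) (j : ℕ) :
    LinearMap.trace R V (f ^ j) = lucasV (LinearMap.trace R V f) (LinearMap.det f) j := by
  have h1 : LinearMap.toMatrix b b (f ^ j) = (LinearMap.toMatrix b b f) ^ j := by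
    have := map_pow (LinearMap.toMatrixAlgEquiv b) f j
    simpa [LinearMap.toMatrixAlgEquiv] using this
  rw [LinearMap.trace_eq_matrix_trace R b, LinearMap.trace_eq_matrix_trace R b, h1, trace_pow,
    LinearMap.det_toMatrix b]

variable [Module.Free R V] [Module.Finite R V]

/-- **Lucas** for endomorphisms of a finite free module of rank two. -/
theorem trace_pow_end [Nontrivial R] (h2 : Module.finrank R V = 2) (f : Module.End R V) (j : ℕ) :
    LinearMap.trace R V (f ^ j) = lucasV (LinearMap.trace R V f) (LinearMap.det f) j :=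
  trace_pow_of_basis (Module.finBasisOfFinrankEq R V h2) f j

/-- the characteristic polynomial determines trace and determinant in rank two. -/
theorem trace_det_of_charpoly [Nontrivial R] (h2 : Module.finrank R V = 2) (f : Module.End R V)
    {t d : R} (hf : f.charpoly = X ^ 2 - C t * X + C d) :
    LinearMap.trace R V f = t ∧ LinearMap.det f = d := by
  set b := Module.finBasisOfFinrankEq R V h2 with hb
  have h1 : (LinearMap.toMatrix b b f).charpoly = f.charpoly := LinearMap.charpoly_toMatrix f b
  rw [Matrix.charpoly_fin_two, hf, ← LinearMap.trace_eq_matrix_trace R b,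
    LinearMap.det_toMatrix b] at h1
  constructor
  · have := congrArg (fun p => Polynomial.coeff p 1) h1
    simp [Polynomial.coeff_X_pow, Polynomial.coeff_C] at this
    exact this
  · have := congrArg (fun p => Polynomial.coeff p 0) h1
    simp [Polynomial.coeff_X_pow, Polynomial.coeff_C] at this
    exact this

/-- **Lucas**, characteristic polynomial form: if `charpoly f = X² - tX + d` then
`tr (f ^ j) = V_j (t, d)`. -/
theorem trace_pow_of_charpoly [Nontrivial R] (h2 : Module.finrank R V = 2) (f : Module.End R V)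
    {t d : R} (hf : f.charpoly = X ^ 2 - C t * X + C d) (j : ℕ) :
    LinearMap.trace R V (f ^ j) = lucasV t d j := by
  obtain ⟨h1, h3⟩ := trace_det_of_charpoly h2 f hf
  rw [trace_pow_end h2, h1, h3]

theorem trace_pow_of_charpoly_aeval [Nontrivial R] (h2 : Module.finrank R V = 2)
    (f : Module.End R V) {t d : R} (hf : f.charpoly = X ^ 2 - C t * X + C d) (j : ℕ) :
    LinearMap.trace R V (f ^ j) = MvPolynomial.aeval ![t, d] (lucasP j) := by
  rw [aeval_lucasP, trace_pow_of_charpoly h2 f hf]

end End

end Fermat.Agent.ES.ALG31.Lucas15
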