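/-
Program K (S31), leaf K-B (pure algebra) — helper9.

**The pseudo-character with values in a faithful Hecke algebra.**

`A₀` a Noetherian ring, `I₀ ≤ Jac(A₀)` (think `A₀ = ℤ_p`, `I₀ = (p)`), `B` a finite commutative
`A₀`-algebra (think `ℤ_p ⊗ 𝕋_S`) acting FAITHFULLY (`ev` injective) on a finite free `A₀`-module
`M` (think `T_p J_0(N)`), `ρM : G →* End_{A₀} M`, `d : G →* A₀ˣ`.  Let `T` be a commutative
`A₀`-algebra with an `A₀`-algebra map `π : B → T`, a `T`-module `V` with `ρV : G →* End_T V`, and a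
separated filtration `J n ⊇ I₀ⁿ T` of `T` (think `J n = 𝔪_Tⁿ`).  Let `Φ ⊆ G` ("Frobenius lifts") satisfy
the two quadratic (Eichler–Shimura / Cayley–Hamilton) relations with the SAME `tΦ φ ∈ B`

  `ρM φ² - ev (tΦ φ) ρM φ + d φ = 0`,      `ρV φ² - π (tΦ φ) ρV φ + d φ = 0`,

and assume powers of elements of `Φ` are simultaneously dense for `ρM`, `ρV`, `d`.  Then there is
`t : G → B` with

  `ρM g + d g • ρM g⁻¹ = ev (t g)`   and   `ρV g + d g • ρV g⁻¹ = π (t g) • 1`     for ALL `g`.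

Ingredients: non-commutative Lucas sequences, Krull's intersection theorem (the image of `ev` is
closed) and the Artin–Rees lemma (`ev` is "quantitatively" injective).  No reducedness of `B` is
needed: this replaces the Petersson-product input in the classical argument.

Consequences proved here: `t` is unique; if `ρM σ = 1`, `d σ = 1` then `t (σ g) = t g`, hence
`ρV (σ g) + d(σ g) ρV (σ g)⁻¹ = ρV g + d g ρV g⁻¹` (`pseudoChar_invariant`).
-/
import Mathlib
import Fermat.Agent.ES.ALG.RelDense9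

set_option autoImplicit false
set_option linter.unusedSectionVars false

namespace Fermat.Agent.ES.ALG31.PseudoChar9

open Module Fermat.Agent.ES.ALG.RelDense9

/-! ### Lucas sequences -/

section Lucas

/-- The Lucas sequence `L₀ = 2`, `L₁ = a`, `L_{j+2} = a L_{j+1} - δ L_j` in an arbitrary ring. -/
def lucasSeq {R : Type*} [Ring R] (a δ : R) : ℕ → R
  | 0 => 2
  | 1 => a
  | (j + 2) => a * lucasSeq a δ (j + 1) - δ * lucasSeq a δ j

@[simp] theorem lucasSeq_zero {R : Type*} [Ring R] (a δ : R) : lucasSeq a δ 0 = 2 := by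
  rw [lucasSeq]

@[simp] theorem lucasSeq_one {R : Type*} [Ring R] (a δ : R) : lucasSeq a δ 1 = a := by
  rw [lucasSeq]

theorem lucasSeq_succ_succ {R : Type*} [Ring R] (a δ : R) (j : ℕ) :
    lucasSeq a δ (j + 2) = a * lucasSeq a δ (j + 1) - δ * lucasSeq a δ j := by
  rw [lucasSeq]

theorem map_lucasSeq {R R' : Type*} [Ring R] [Ring R'] (f : R →+* R') (a δ : R) (j : ℕ) :
    f (lucasSeq a δ j) = lucasSeq (f a) (f δ) j := by
  induction j using Nat.twoStepInduction with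
  | zero => rw [lucasSeq_zero, lucasSeq_zero, map_ofNat]
  | one => rw [lucasSeq_one, lucasSeq_one]
  | more j ih0 ih1 => simp only [lucasSeq_succ_succ, map_sub, map_mul, ih0, ih1]

/-- Non-commutative Lucas: if `F F' = F' F = 1` and `F + δ F' = z` (with `δ` a central scalar) then
`F^j + δ^j F'^j = L_j(z, δ)`. -/
theorem pow_add_smul_pow {A₀ E : Type*} [CommRing A₀] [Ring E] [Algebra A₀ E] {F F' z : E}
    (hFF' : F * F' = 1) (hF'F : F' * F = 1) {δ : A₀} (h : F + δ • F' = z) (j : ℕ) :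
    F ^ j + δ ^ j • F' ^ j = lucasSeq z (algebraMap A₀ E δ) j := by
  induction j using Nat.twoStepInduction with
  | zero => simp [one_add_one_eq_two]
  | one => simpa using h
  | more j ih0 ih1 =>
    rw [lucasSeq_succ_succ, ← ih0, ← ih1, ← h, ← Algebra.smul_def]
    have e1 : F * F' ^ (j + 1) = F' ^ j := by rw [pow_succ', ← mul_assoc, hFF', one_mul]
    have e2 : F' * F ^ (j + 1) = F ^ j := by rw [pow_succ', ← mul_assoc, hF'F, one_mul]
    have e3 : F * F ^ (j + 1) = F ^ (j + 2) := (pow_succ' F (j + 1)).symm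
    have e4 : F' * F' ^ (j + 1) = F' ^ (j + 2) := (pow_succ' F' (j + 1)).symm
    have e5 : δ ^ (j + 1) * δ = δ ^ (j + 2) := (pow_succ δ (j + 1)).symm
    have e6 : δ * δ ^ j = δ ^ (j + 1) := (pow_succ' δ j).symm
    simp only [add_mul, mul_add, smul_mul_assoc, mul_smul_comm, smul_add, smul_smul, e1, e2, e3,
      e4, e5, e6]
    abel

/-- From the quadratic relation to the `F + δ F⁻¹` form (no commutativity needed). -/
theorem rel_of_quadratic_nc {A₀ E : Type*} [CommRing A₀] [Ring E] [Algebra A₀ E] {F F' z : E}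
    (hFF' : F * F' = 1) {δ : A₀} (h : F * F - z * F + δ • (1 : E) = 0) : F + δ • F' = z := by
  have := congrArg (fun x => x * F') h
  simp only [add_mul, sub_mul, smul_mul_assoc, mul_assoc, hFF', mul_one, one_mul, zero_mul] at this
  have e : F + δ • F' = (F - z + δ • F') + z := by abel
  rw [e, this, zero_add]

end Lucas

/-! ### Congruences of endomorphisms versus `I • ⊤` in the endomorphism module -/

section Basis

variable {A₀ : Type*} [CommRing A₀] {M : Type*} [AddCommGroup M] [Module A₀ M]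

theorem endCongr_of_sub_mem_smul_top (I : Ideal A₀) {X Y : End A₀ M}
    (h : X - Y ∈ I • (⊤ : Submodule A₀ (End A₀ M))) : EndCongr I X Y := by
  intro v
  have : X v - Y v = (X - Y) v := rfl
  rw [this]
  refine Submodule.smul_induction_on (p := fun Z => Z v ∈ I • (⊤ : Submodule A₀ M)) h
    (fun r hr Z _ => ?_) (fun Z Z' hZ hZ' => ?_)
  · rw [LinearMap.smul_apply]; exact Submodule.smul_mem_smul hr Submodule.mem_top
  · rw [LinearMap.add_apply]; exact Submodule.add_mem _ hZ hZ'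

theorem sub_mem_smul_top_of_endCongr [Module.Free A₀ M] [Module.Finite A₀ M] (I : Ideal A₀)
    {X Y : End A₀ M} (h : EndCongr I X Y) : X - Y ∈ I • (⊤ : Submodule A₀ (End A₀ M)) := by
  classical
  let b := Module.Free.chooseBasis A₀ M
  have hD : X - Y = ∑ j, ∑ i, (b.repr ((X - Y) (b j)) i) • ((b.coord j).smulRight (b i)) := by
    refine b.ext fun k => ?_
    simp only [LinearMap.sum_apply, LinearMap.smul_apply, LinearMap.smulRight_apply,
      Basis.coord_apply, Basis.repr_self, Finsupp.single_apply]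
    rw [Finset.sum_eq_single k]
    · simp only [if_true, one_smul]
      exact (b.sum_repr _).symm
    · intro j _ hjk
      simp only [if_neg (Ne.symm hjk), zero_smul, smul_zero, Finset.sum_const_zero]
    · intro hk; exact absurd (Finset.mem_univ k) hk
  rw [hD]
  refine Submodule.sum_mem _ fun j _ => Submodule.sum_mem _ fun i _ =>
    Submodule.smul_mem_smul ?_ Submodule.mem_top
  exact repr_mem_of_mem_smul_top b I (h (b j)) i

end Basis

/-! ### Closedness of the image and quantitative injectivity -/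

section Closed

variable {A₀ : Type*} [CommRing A₀] [IsNoetherianRing A₀] (I₀ : Ideal A₀)
  {B : Type*} [CommRing B] [Algebra A₀ B] [Module.Finite A₀ B]
  {M : Type*} [AddCommGroup M] [Module A₀ M] [Module.Free A₀ M] [Module.Finite A₀ M]
  (ev : B →ₐ[A₀] End A₀ M)

/-- **Krull**: an endomorphism which is congruent to elements of `ev(B)` modulo all `I₀ⁿ` lies in
`ev(B)`. -/
theorem exists_ev_eq_of_forall_congr (hI₀ : I₀ ≤ Ideal.jacobson ⊥) (X : End A₀ M)
    (hX : ∀ n : ℕ, ∃ b : B, EndCongr (I₀ ^ n) X (ev b)) : ∃ b : B, ev b = X := by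
  let N : Submodule A₀ (End A₀ M) := LinearMap.range ev.toLinearMap
  have hkrull := Ideal.iInf_pow_smul_eq_bot_of_le_jacobson (M := End A₀ M ⧸ N) I₀ hI₀
  have hmem : N.mkQ X ∈ (⨅ i : ℕ, I₀ ^ i • ⊤ : Submodule A₀ (End A₀ M ⧸ N)) := by
    rw [Submodule.mem_iInf]
    intro n
    obtain ⟨b, hb⟩ := hX n
    have h1 : X - ev b ∈ I₀ ^ n • (⊤ : Submodule A₀ (End A₀ M)) :=
      sub_mem_smul_top_of_endCongr _ hb
    have h2 : N.mkQ X = N.mkQ (X - ev b) := by
      rw [map_sub, (Submodule.mkQ_apply N (ev b)).trans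
        ((Submodule.Quotient.mk_eq_zero N).mpr ⟨b, rfl⟩), sub_zero]
    rw [h2]
    have h3 : N.mkQ (X - ev b) ∈ Submodule.map N.mkQ (I₀ ^ n • (⊤ : Submodule A₀ (End A₀ M))) :=
      Submodule.mem_map_of_mem h1
    rw [Submodule.map_smul''] at h3
    exact (smul_mono_right _ le_top : I₀ ^ n • Submodule.map N.mkQ ⊤ ≤ I₀ ^ n • ⊤) h3
  rw [hkrull, Submodule.mem_bot, Submodule.mkQ_apply, Submodule.Quotient.mk_eq_zero] at hmem
  obtain ⟨b, hb⟩ := hmem
  exact ⟨b, hb⟩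

/-- **Artin–Rees**: an injective `ev` is quantitatively injective. -/
theorem exists_shift_of_injective (hev : Function.Injective ev) :
    ∃ k : ℕ, ∀ (n : ℕ) (b : B), ev b ∈ I₀ ^ (n + k) • (⊤ : Submodule A₀ (End A₀ M)) →
      b ∈ I₀ ^ n • (⊤ : Submodule A₀ B) := by
  let N : Submodule A₀ (End A₀ M) := LinearMap.range ev.toLinearMap
  obtain ⟨k, hk⟩ := Ideal.exists_pow_inf_eq_pow_smul I₀ N
  refine ⟨k, fun n b hb => ?_⟩
  have h1 : ev b ∈ I₀ ^ (n + k) • (⊤ : Submodule A₀ (End A₀ M)) ⊓ N := ⟨hb, ⟨b, rfl⟩⟩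
  rw [hk (n + k) (Nat.le_add_left k n), Nat.add_sub_cancel] at h1
  have h2 : ev b ∈ I₀ ^ n • N :=
    (smul_mono_right _ inf_le_right : I₀ ^ n • (I₀ ^ k • ⊤ ⊓ N) ≤ I₀ ^ n • N) h1
  have h3 : I₀ ^ n • N = Submodule.map ev.toLinearMap (I₀ ^ n • (⊤ : Submodule A₀ B)) := by
    rw [Submodule.map_smul'', Submodule.map_top]
  rw [h3] at h2
  obtain ⟨b', hb', hbb'⟩ := h2
  have : b' = b := hev hbb'
  rwa [this] at hb'

omit [IsNoetherianRing A₀] [Module.Finite A₀ B] in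
theorem algHom_mem_map_of_mem_smul_top {T : Type*} [CommRing T] [Algebra A₀ T] (π : B →ₐ[A₀] T)
    (I : Ideal A₀) {b : B} (hb : b ∈ I • (⊤ : Submodule A₀ B)) :
    π b ∈ I.map (algebraMap A₀ T) := by
  refine Submodule.smul_induction_on (p := fun b => π b ∈ I.map (algebraMap A₀ T)) hb
    (fun r hr x _ => ?_) (fun x y hx hy => ?_)
  · rw [map_smul, Algebra.smul_def]
    exact Ideal.mul_mem_right _ _ (Ideal.mem_map_of_mem _ hr)
  · rw [map_add]; exact Ideal.add_mem _ hx hy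

end Closed

/-! ### The pseudo-character -/

section Main

variable {A₀ : Type*} [CommRing A₀] [IsNoetherianRing A₀] (I₀ : Ideal A₀)
  {B : Type*} [CommRing B] [Algebra A₀ B] [Module.Finite A₀ B]
  {M : Type*} [AddCommGroup M] [Module A₀ M] [Module.Free A₀ M] [Module.Finite A₀ M]
  (ev : B →ₐ[A₀] End A₀ M)
  {T : Type*} [CommRing T] [Algebra A₀ T] (π : B →ₐ[A₀] T)
  {V : Type*} [AddCommGroup V] [Module T V]
  (J : ℕ → Ideal T)
  {G : Type*} [Group G] (ρM : G →* End A₀ M) (ρV : G →* End T V) (d : G →* A₀ˣ)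
  (Φ : Set G) (tΦ : G → B)

omit [IsNoetherianRing A₀] [Module.Finite A₀ B] [Module.Free A₀ M] [Module.Finite A₀ M] in
/-- Step A: simultaneous approximation of `ρM g + d g ρM g⁻¹` and `ρV g + d g ρV g⁻¹` by `ev b`,
`π b • 1` with `b` a Lucas element of `B`. -/
theorem exists_approx (hJ : ∀ n, (I₀ ^ n).map (algebraMap A₀ T) ≤ J n)
    (hΦM : ∀ φ ∈ Φ, ρM φ * ρM φ - ev (tΦ φ) * ρM φ +
      ((d φ : A₀ˣ) : A₀) • (1 : End A₀ M) = 0)
    (hΦV : ∀ φ ∈ Φ, ρV φ * ρV φ - π (tΦ φ) • ρV φ +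
      algebraMap A₀ T ((d φ : A₀ˣ) : A₀) • (1 : End T V) = 0)
    (hdense : ∀ (n : ℕ) (g : G), ∃ φ ∈ Φ, ∃ j : ℕ, EndCongr (I₀ ^ n) (ρM g) (ρM φ ^ j) ∧
      EndCongr (J n) (ρV g) (ρV φ ^ j) ∧ ((d g : A₀ˣ) : A₀) - ((d φ : A₀ˣ) : A₀) ^ j ∈ I₀ ^ n)
    (n : ℕ) (g : G) :
    ∃ b : B, EndCongr (I₀ ^ n) (ρM g + ((d g : A₀ˣ) : A₀) • ρM g⁻¹) (ev b) ∧
      EndCongr (J n) (ρV g + algebraMap A₀ T ((d g : A₀ˣ) : A₀) • ρV g⁻¹)
        (π b • (1 : End T V)) := by
  obtain ⟨φ, hφ, j, hM, hV, hd⟩ := hdense n g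
  set δ : A₀ := ((d φ : A₀ˣ) : A₀) with hδ
  refine ⟨lucasSeq (tΦ φ) (algebraMap A₀ B δ) j, ?_, ?_⟩
  · -- the `M`-side
    have hrel : ρM φ + δ • ρM φ⁻¹ = ev (tΦ φ) :=
      rel_of_quadratic_nc (rho_mul_inv ρM φ) (hΦM φ hφ)
    have hluc := pow_add_smul_pow (rho_mul_inv ρM φ) (rho_inv_mul ρM φ) hrel j
    have hev : ev (lucasSeq (tΦ φ) (algebraMap A₀ B δ) j) =
        lucasSeq (ev (tΦ φ)) (algebraMap A₀ (End A₀ M) δ) j := by
      have := map_lucasSeq (ev : B →+* End A₀ M) (tΦ φ) (algebraMap A₀ B δ) j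
      simpa only [RingHom.coe_coe, AlgHom.commutes] using this
    rw [hev, ← hluc]
    have hinv : EndCongr (I₀ ^ n) (ρM g⁻¹) (ρM φ⁻¹ ^ j) := by
      refine hM.inv (rho_inv_mul ρM g) ?_
      have hc : Commute (ρM φ) (ρM φ⁻¹) := by
        rw [Commute, SemiconjBy, rho_mul_inv, rho_inv_mul]
      rw [← hc.mul_pow, rho_mul_inv, one_pow]
    exact hM.add (hinv.smul hd)
  · -- the `V`-side
    have hrel : ρV φ + algebraMap A₀ T δ • ρV φ⁻¹ = π (tΦ φ) • (1 : End T V) :=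
      rel_of_quadratic (rho_mul_inv ρV φ) (hΦV φ hφ)
    have hluc := pow_add_smul_pow (A₀ := T) (rho_mul_inv ρV φ) (rho_inv_mul ρV φ) hrel j
    have hπ : π (lucasSeq (tΦ φ) (algebraMap A₀ B δ) j) • (1 : End T V) =
        lucasSeq (π (tΦ φ) • (1 : End T V)) (algebraMap T (End T V) (algebraMap A₀ T δ)) j := by
      have h1 := map_lucasSeq (π : B →+* T) (tΦ φ) (algebraMap A₀ B δ) j
      simp only [RingHom.coe_coe, AlgHom.commutes] at h1
      have h2 := map_lucasSeq (algebraMap T (End T V)) (π (tΦ φ)) (algebraMap A₀ T δ) j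
      rw [← Algebra.algebraMap_eq_smul_one, ← Algebra.algebraMap_eq_smul_one, h1, h2]
    rw [hπ, ← hluc]
    have hinv : EndCongr (J n) (ρV g⁻¹) (ρV φ⁻¹ ^ j) := by
      refine hV.inv (rho_inv_mul ρV g) ?_
      have hc : Commute (ρV φ) (ρV φ⁻¹) := by
        rw [Commute, SemiconjBy, rho_mul_inv, rho_inv_mul]
      rw [← hc.mul_pow, rho_mul_inv, one_pow]
    have hdT : algebraMap A₀ T ((d g : A₀ˣ) : A₀) - algebraMap A₀ T δ ^ j ∈ J n := by
      rw [← map_pow, ← map_sub]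
      exact hJ n (Ideal.mem_map_of_mem _ hd)
    exact hV.add (hinv.smul hdT)

/-- **The pseudo-character.** -/
theorem exists_pseudoChar (hI₀ : I₀ ≤ Ideal.jacobson ⊥) (hev : Function.Injective ev)
    (hJ : ∀ n, (I₀ ^ n).map (algebraMap A₀ T) ≤ J n) (hJmono : Antitone J)
    (hsep : ∀ X : End T V, (∀ n v, X v ∈ J n • (⊤ : Submodule T V)) → X = 0)
    (hΦM : ∀ φ ∈ Φ, ρM φ * ρM φ - ev (tΦ φ) * ρM φ +
      ((d φ : A₀ˣ) : A₀) • (1 : End A₀ M) = 0)
    (hΦV : ∀ φ ∈ Φ, ρV φ * ρV φ - π (tΦ φ) • ρV φ +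
      algebraMap A₀ T ((d φ : A₀ˣ) : A₀) • (1 : End T V) = 0)
    (hdense : ∀ (n : ℕ) (g : G), ∃ φ ∈ Φ, ∃ j : ℕ, EndCongr (I₀ ^ n) (ρM g) (ρM φ ^ j) ∧
      EndCongr (J n) (ρV g) (ρV φ ^ j) ∧ ((d g : A₀ˣ) : A₀) - ((d φ : A₀ˣ) : A₀) ^ j ∈ I₀ ^ n) :
    ∃ t : G → B, (∀ g, ρM g + ((d g : A₀ˣ) : A₀) • ρM g⁻¹ = ev (t g)) ∧
      (∀ g, ρV g + algebraMap A₀ T ((d g : A₀ˣ) : A₀) • ρV g⁻¹ = π (t g) • (1 : End T V)) ∧
      ∀ φ ∈ Φ, t φ = tΦ φ := by
  have happ := exists_approx I₀ ev π J ρM ρV d Φ tΦ hJ hΦM hΦV hdense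
  -- Step B: `t`
  have hex : ∀ g, ∃ b : B, ev b = ρM g + ((d g : A₀ˣ) : A₀) • ρM g⁻¹ := fun g =>
    exists_ev_eq_of_forall_congr I₀ ev hI₀ _ fun n => by
      obtain ⟨b, hb, -⟩ := happ n g
      exact ⟨b, hb⟩
  choose t ht using hex
  obtain ⟨k, hk⟩ := exists_shift_of_injective I₀ ev hev
  refine ⟨t, fun g => (ht g).symm, fun g => ?_, fun φ hφ => hev ?_⟩
  · -- Step C
    rw [← sub_eq_zero]
    refine hsep _ fun n v => ?_
    obtain ⟨b, hbM, hbV⟩ := happ (n + k) g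
    -- `t g - b ∈ I₀ⁿ B`
    have h1 : ev (t g - b) ∈ I₀ ^ (n + k) • (⊤ : Submodule A₀ (End A₀ M)) := by
      rw [map_sub, ht g]
      exact sub_mem_smul_top_of_endCongr _ hbM
    have h2 : π (t g) - π b ∈ J n := by
      rw [← map_sub]
      exact hJ n (algHom_mem_map_of_mem_smul_top π _ (hk n _ h1))
    have h3 : EndCongr (J n) (ρV g + algebraMap A₀ T ((d g : A₀ˣ) : A₀) • ρV g⁻¹)
        (π b • (1 : End T V)) := fun v =>
      Submodule.smul_mono_left (hJmono (Nat.le_add_right n k)) (hbV v)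
    have h4 : EndCongr (J n) (π b • (1 : End T V)) (π (t g) • (1 : End T V)) :=
      (EndCongr.refl (J n) (1 : End T V)).smul (by
        have := (J n).neg_mem h2
        rwa [neg_sub] at this)
    exact (h3.trans h4) v
  · rw [ht φ]
    exact rel_of_quadratic_nc (rho_mul_inv ρM φ) (hΦM φ hφ)

end Main

end Fermat.Agent.ES.ALG31.PseudoChar9
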