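import Mathlib

/-!
# S31, step K-C: rank-two identities and the determinant by density (helper1)

Mathlib only.  For a free module `V` of rank two over a commutative ring `T`:

* `sq_eq` (Cayley–Hamilton): `f * f = trace f • f - det f • 1`;
* `add_det_smul_inv`: `f * f' = 1 → f + det f • f' = trace f • 1`;
* `det_sub_det_mem`: entrywise congruence modulo an ideal gives congruence of determinants;
* `det_eq_of_dense`: a character `δ` that agrees with `det ∘ ρ` on a set `Φ` whose powers are
  dense (for a separated filtration `J n`) agrees with `det ∘ ρ` everywhere;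
* `trace_eq_of_pseudo`, `trace_mul_eq_of_pseudoChar`: the trace is read off from the
  pseudo-character `ρ g + δ g • ρ g⁻¹ = s g • 1`.
-/

namespace Fermat.Agent.ES.ALG31.RankTwo1

open Module

section Matrix

variable {T : Type*} [CommRing T]

/-- Cayley–Hamilton for `2 × 2` matrices, written out. -/
theorem matrix_sq_eq (A : Matrix (Fin 2) (Fin 2) T) :
    A * A = A.trace • A - A.det • (1 : Matrix (Fin 2) (Fin 2) T) := by
  ext i j
  fin_cases i <;> fin_cases j <;>
    simp [Matrix.mul_apply, Fin.sum_univ_two, Matrix.trace_fin_two, Matrix.det_fin_two] <;> ring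

end Matrix

section End

variable {T : Type*} [CommRing T] {V : Type*} [AddCommGroup V] [Module T V]
  [Module.Free T V] [Module.Finite T V]

/-- Cayley–Hamilton for an endomorphism of a free module of rank two. -/
theorem sq_eq (h2 : Module.finrank T V = 2) (f : Module.End T V) :
    f * f = LinearMap.trace T V f • f - LinearMap.det f • (1 : Module.End T V) := by
  classical
  rcases subsingleton_or_nontrivial T with hT | hT
  · have : Subsingleton V := Module.subsingleton T V
    exact Subsingleton.elim _ _
  let b : Basis (Fin 2) T V := Module.finBasisOfFinrankEq T V h2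
  apply (LinearMap.toMatrixAlgEquiv b).injective
  have h := matrix_sq_eq (LinearMap.toMatrixAlgEquiv b f)
  have htr : (LinearMap.toMatrixAlgEquiv b f).trace = LinearMap.trace T V f := by
    rw [LinearMap.trace_eq_matrix_trace T b f]; rfl
  have hdet : (LinearMap.toMatrixAlgEquiv b f).det = LinearMap.det f := by
    rw [← LinearMap.det_toMatrix b f]; rfl
  rw [map_mul, h, htr, hdet, map_sub, map_smul, map_smul, map_one]

/-- In rank two, `f + det f • f⁻¹ = trace f • 1`. -/
theorem add_det_smul_inv (h2 : Module.finrank T V = 2) (f f' : Module.End T V)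
    (hff' : f * f' = 1) :
    f + LinearMap.det f • f' = LinearMap.trace T V f • (1 : Module.End T V) := by
  have h := congrArg (· * f') (sq_eq h2 f)
  simp only [mul_assoc, hff', mul_one, sub_mul, smul_mul_assoc, one_mul] at h
  rw [eq_sub_iff_add_eq] at h
  exact h

/-- Scalars act faithfully on the endomorphisms of a free module of rank two. -/
theorem smul_one_injective (h2 : Module.finrank T V = 2) {a c : T}
    (h : a • (1 : Module.End T V) = c • (1 : Module.End T V)) : a = c := by
  rcases subsingleton_or_nontrivial T with hT | hT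
  · exact Subsingleton.elim _ _
  let b : Basis (Fin 2) T V := Module.finBasisOfFinrankEq T V h2
  have h1 := congrArg (fun F : Module.End T V => b.repr (F (b 0)) 0) h
  simpa using h1

/-- The trace is determined by the pseudo-character relation once the determinant is known. -/
theorem trace_eq_of_pseudo (h2 : Module.finrank T V = 2) (f f' : Module.End T V)
    (hff' : f * f' = 1) {δ s : T} (hdet : LinearMap.det f = δ)
    (h : f + δ • f' = s • (1 : Module.End T V)) : LinearMap.trace T V f = s := by
  apply smul_one_injective h2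
  rw [← add_det_smul_inv h2 f f' hff', hdet, h]

omit [Module.Free T V] [Module.Finite T V] in
/-- Coordinates of an element of `I • ⊤` lie in `I`. -/
theorem repr_mem_of_mem_smul_top {ι : Type*} (b : Basis ι T V) (I : Ideal T) {x : V}
    (hx : x ∈ I • (⊤ : Submodule T V)) (i : ι) : b.repr x i ∈ I := by
  refine Submodule.smul_induction_on hx (fun r hr n _ => ?_) (fun x y hx hy => ?_)
  · simpa using I.mul_mem_right _ hr
  · simpa using I.add_mem hx hy

/-- Entrywise congruent endomorphisms of a free module of finite rank have congruent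
determinants. -/
theorem det_sub_det_mem (I : Ideal T) (f f' : Module.End T V)
    (h : ∀ v, f v - f' v ∈ I • (⊤ : Submodule T V)) :
    LinearMap.det f - LinearMap.det f' ∈ I := by
  classical
  let b := Module.Free.chooseBasis T V
  rw [← LinearMap.det_toMatrix b f, ← LinearMap.det_toMatrix b f', ← Ideal.Quotient.eq,
    RingHom.map_det, RingHom.map_det]
  congr 1
  ext i j
  simp only [RingHom.mapMatrix_apply, Matrix.map_apply, LinearMap.toMatrix_apply]
  rw [Ideal.Quotient.eq, ← Finsupp.sub_apply, ← map_sub]
  exact repr_mem_of_mem_smul_top b I (h (b j)) i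

end End

section Dense

variable {T : Type*} [CommRing T] {V : Type*} [AddCommGroup V] [Module T V]
  [Module.Free T V] [Module.Finite T V] {G : Type*} [Group G]

/-- **Determinant by density.**  If `det (ρ φ) = δ φ` on a set `Φ` and every `g` is, for every
`n`, congruent modulo `J n` to a power `φ ^ j` (`φ ∈ Φ`) both for `ρ` and for `δ`, then
`det (ρ g) = δ g` everywhere, provided `⋂ J n = 0`. -/
theorem det_eq_of_dense (J : ℕ → Ideal T) (hJ : ∀ x : T, (∀ n, x ∈ J n) → x = 0)
    (ρ : G →* Module.End T V) (δ : G → T) (Φ : Set G)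
    (hΦ : ∀ φ ∈ Φ, LinearMap.det (ρ φ) = δ φ)
    (hdense : ∀ (n : ℕ) (g : G), ∃ φ ∈ Φ, ∃ j : ℕ,
      (∀ v, ρ g v - (ρ φ ^ j) v ∈ J n • (⊤ : Submodule T V)) ∧ δ g - δ φ ^ j ∈ J n)
    (g : G) : LinearMap.det (ρ g) = δ g := by
  rw [← sub_eq_zero]
  refine hJ _ fun n => ?_
  obtain ⟨φ, hφ, j, h1, h2⟩ := hdense n g
  have h3 := det_sub_det_mem (J n) (ρ g) (ρ φ ^ j) h1
  rw [map_pow, hΦ φ hφ] at h3
  have : LinearMap.det (ρ g) - δ g = (LinearMap.det (ρ g) - δ φ ^ j) - (δ g - δ φ ^ j) := by ring
  rw [this]
  exact (J n).sub_mem h3 h2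

/-- The separation hypothesis on endomorphisms (the shape used by `PseudoChar9`) implies the
separation of the filtration itself, in rank two. -/
theorem sep_of_sepEnd (h2 : Module.finrank T V = 2) (J : ℕ → Ideal T)
    (hsep : ∀ X : Module.End T V, (∀ n v, X v ∈ J n • (⊤ : Submodule T V)) → X = 0)
    (x : T) (hx : ∀ n, x ∈ J n) : x = 0 := by
  have h := hsep (x • (1 : Module.End T V)) fun n v => by
    simpa using Submodule.smul_mem_smul (hx n) (Submodule.mem_top (x := v))
  exact smul_one_injective h2 (by rw [h, zero_smul])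

end Dense

section PseudoChar

variable {T : Type*} [CommRing T] {V : Type*} [AddCommGroup V] [Module T V]
  [Module.Free T V] [Module.Finite T V] {G : Type*} [Group G]

/-- The trace of `ρ` is the pseudo-character `s`. -/
theorem trace_eq_of_pseudoChar (h2 : Module.finrank T V = 2) (ρ : G →* Module.End T V)
    (δ s : G → T) (hdet : ∀ g, LinearMap.det (ρ g) = δ g)
    (h : ∀ g, ρ g + δ g • ρ g⁻¹ = s g • (1 : Module.End T V)) (g : G) :
    LinearMap.trace T V (ρ g) = s g :=
  trace_eq_of_pseudo h2 (ρ g) (ρ g⁻¹) (by rw [← map_mul, mul_inv_cancel, map_one]) (hdet g) (h g)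

variable {B : Type*} [CommRing B] {M : Type*} [AddCommGroup M] [Module B M]

/-- The pseudo-character `t` with values in `B` (acting faithfully on `M`) is invariant under
right translation by an element `σ` acting trivially on `M` and on the character. -/
theorem pseudo_mul_eq (hfaith : ∀ b : B, (∀ m : M, b • m = 0) → b = 0)
    (ρM : G →* Module.End B M) (dB t : G → B)
    (hM : ∀ g, ρM g + dB g • ρM g⁻¹ = t g • (1 : Module.End B M))
    (σ : G) (hσ : ρM σ = 1) (hdσ : ∀ g, dB (g * σ) = dB g) (g : G) : t (g * σ) = t g := by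
  rw [← sub_eq_zero]
  refine hfaith _ fun m => ?_
  have h1 := hM (g * σ)
  rw [mul_inv_rev, map_mul, map_mul, hσ, mul_one, hdσ g] at h1
  have hσ' : ρM σ⁻¹ = 1 := by
    have := congrArg (· * ρM σ⁻¹) hσ
    simpa [← map_mul] using this.symm
  rw [hσ', one_mul, hM g] at h1
  have := congrArg (fun F : Module.End B M => F m) h1
  simp only [LinearMap.smul_apply, Module.End.one_apply] at this
  rw [sub_smul, ← this, sub_self]

/-- **K-E core.**  From the two pseudo-character identities (on `M` with values in `B`, on `V`
with values `π (t g)`), `det ρV = dT`, and an element `σ` acting trivially on `M` and on the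
character: the trace of `ρV` is invariant under right translation by `σ`.  This is the
hypothesis of `TraceRigid13.eq_one_of_trace_mul_eq`. -/
theorem trace_mul_eq_of_pseudoChar (h2 : Module.finrank T V = 2)
    (hfaith : ∀ b : B, (∀ m : M, b • m = 0) → b = 0) (π : B →+* T)
    (ρM : G →* Module.End B M) (ρV : G →* Module.End T V) (dB : G → B) (dT : G → T) (t : G → B)
    (hM : ∀ g, ρM g + dB g • ρM g⁻¹ = t g • (1 : Module.End B M))
    (hV : ∀ g, ρV g + dT g • ρV g⁻¹ = π (t g) • (1 : Module.End T V))
    (hdet : ∀ g, LinearMap.det (ρV g) = dT g)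
    (σ : G) (hσ : ρM σ = 1) (hdσ : ∀ g, dB (g * σ) = dB g) (g : G) :
    LinearMap.trace T V (ρV (g * σ)) = LinearMap.trace T V (ρV g) := by
  rw [trace_eq_of_pseudoChar h2 ρV dT (fun g => π (t g)) hdet hV,
    trace_eq_of_pseudoChar h2 ρV dT (fun g => π (t g)) hdet hV,
    pseudo_mul_eq hfaith ρM dB t hM σ hσ hdσ g]

end PseudoChar

end Fermat.Agent.ES.ALG31.RankTwo1
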