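/-
Program K (S31), helper12: **inertia invariance of the trace, through a faithful Hecke module**.

Abstract core of S31 (no Petersson product, no reducedness): let `R` (the Hecke algebra) act
faithfully on a finite free `ℤ`-module `Λ`, let `ι₀ : Λ → M` be a base change `ℤ → ℤ_[p]` to a Galois
module `M` (the Tate module) on which Frobenius lifts satisfy the Eichler–Shimura relation, and let
`ρV` be a rank two representation over a local ring `T` (`p ∈ 𝔪_T`, `⋂ 𝔪_T ^ n = 0`) with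
`charpoly (ρV Frob_ℓ) = X² - π(T_ℓ) X + ℓ` for `π : R →+* T`.  If Frobenius powers are dense for the
three actions simultaneously, then every `τ` acting trivially on `M` and killed by the cyclotomic
character satisfies `tr ρV (g τ) = tr ρV g` for all `g`.

Everything is done modulo `p ^ m` / `𝔪_T ^ n`: saturation of `R ↪ End_ℤ Λ` (Artin–Rees over `ℤ`),
Lucas sequences for the powers of Frobenius, and congruences of endomorphisms (`RelDense9`).
-/
import Mathlib
import Fermat.Agent.ES.ALG.RelDense9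
import Fermat.Agent.ES.ALG31.Lucas15

set_option autoImplicit false
set_option linter.unusedSectionVars false

open Polynomial

noncomputable section

namespace Fermat.Agent.ES.ALG31.TraceInv12

open Fermat.Agent.ES.ALG.RelDense9 Fermat.Agent.ES.ALG31.Lucas15

/-! ### (a) Saturation -/

/-- **Saturation** (Artin–Rees over `ℤ`): for an injective additive map `f : R → E` into a finitely
generated abelian group there is `c` with `p ^ m ∣ f r → p ^ (m - c) ∣ r`. -/
theorem exists_sat {R E : Type*} [AddCommGroup R] [AddCommGroup E] [Module.Finite ℤ E]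
    (f : R →+ E) (hf : Function.Injective f) (p : ℕ) :
    ∃ c : ℕ, ∀ (m : ℕ) (r : R) (e : E), f r = p ^ m • e → ∃ r' : R, r = p ^ (m - c) • r' := by
  set I : Ideal ℤ := Ideal.span {(p : ℤ)} with hI
  set N : Submodule ℤ E := LinearMap.range f.toIntLinearMap with hN
  obtain ⟨k, hk⟩ := Ideal.exists_pow_inf_eq_pow_smul I N
  refine ⟨k, fun m r e hre => ?_⟩
  by_cases hmk : k ≤ m
  · have h1 : f r ∈ I ^ m • (⊤ : Submodule ℤ E) ⊓ N := by
      refine ⟨?_, ⟨r, rfl⟩⟩
      rw [hre, ← natCast_zsmul]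
      refine Submodule.smul_mem_smul ?_ Submodule.mem_top
      rw [hI, Ideal.span_singleton_pow]
      push_cast
      exact Ideal.mem_span_singleton_self _
    rw [hk m hmk] at h1
    have h2 : f r ∈ I ^ (m - k) • N :=
      Submodule.smul_mono le_rfl inf_le_right h1
    rw [hI, Ideal.span_singleton_pow, Submodule.ideal_span_singleton_smul] at h2
    obtain ⟨y, hy, hy'⟩ := h2
    obtain ⟨r', rfl⟩ := hy
    refine ⟨r', hf ?_⟩
    rw [map_nsmul, ← hy']
    change ((p : ℤ) ^ (m - k)) • f r' = _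
    rw [← natCast_zsmul]
    push_cast
    rfl
  · refine ⟨r, ?_⟩
    rw [Nat.sub_eq_zero_of_le (le_of_not_ge hmk), pow_zero, one_smul]

/-- **Saturation for a faithful action** on a finite free `ℤ`-module `Λ`: there is `c` such that if
`r` maps `Λ` into `p ^ m Λ` then `p ^ (m - c) ∣ r`. -/
theorem exists_sat_end {R : Type*} [Ring R] {Λ : Type*} [AddCommGroup Λ] [Module.Free ℤ Λ]
    [Module.Finite ℤ Λ] (hL : R →+* Module.End ℤ Λ) (hLinj : Function.Injective hL) (p : ℕ) :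
    ∃ c : ℕ, ∀ (m : ℕ) (r : R), (∀ x : Λ, ∃ y : Λ, hL r x = p ^ m • y) →
      ∃ r' : R, r = p ^ (m - c) • r' := by
  have : Module.Finite ℤ (Module.End ℤ Λ) := Module.Finite.linearMap ℤ ℤ _ _
  obtain ⟨c, hc⟩ := exists_sat (hL : R →+ Module.End ℤ Λ) hLinj p
  refine ⟨c, fun m r hr => ?_⟩
  let b := Module.Free.chooseBasis ℤ Λ
  choose y hy using hr
  refine hc m r (b.constr ℤ fun i => y (b i)) ?_
  refine b.ext fun i => ?_
  rw [LinearMap.smul_apply, Module.Basis.constr_basis]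
  exact hy (b i)

/-! ### (e) Divisibility descends along a base change `ℤ → ℤ_[p]` of a free module -/

theorem exists_of_isBaseChange {p : ℕ} [Fact p.Prime] {Λ M : Type*} [AddCommGroup Λ]
    [Module.Free ℤ Λ] [AddCommGroup M] [Module ℤ_[p] M] (ι₀ : Λ →ₗ[ℤ] M)
    (h : IsBaseChange ℤ_[p] ι₀) (m : ℕ) (y : Λ) (z : M)
    (hyz : ι₀ y = ((p : ℤ_[p]) ^ m) • z) : ∃ y' : Λ, y = p ^ m • y' := by
  classical
  let b := Module.Free.chooseBasis ℤ Λ
  let B : Module.Basis _ ℤ_[p] M := (Algebra.TensorProduct.basis ℤ_[p] b).map h.equiv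
  have hB : ∀ i, B i = ι₀ (b i) := by
    intro i
    rw [Module.Basis.map_apply, Algebra.TensorProduct.basis_apply, IsBaseChange.equiv_tmul, one_smul]
  have h1 : ∀ i, B.repr (ι₀ y) i = ((b.repr y i : ℤ) : ℤ_[p]) := by
    intro i
    have e : ι₀ y = ∑ j ∈ (b.repr y).support, ((b.repr y j : ℤ) : ℤ_[p]) • B j := by
      conv_lhs => rw [← b.linearCombination_repr y, Finsupp.linearCombination_apply, Finsupp.sum,
        map_sum]
      refine Finset.sum_congr rfl fun j _ => ?_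
      rw [map_smul, hB, Int.cast_smul_eq_zsmul]
    rw [e, map_sum, Finsupp.finsetSum_apply]
    simp only [map_smul, Module.Basis.repr_self, Finsupp.smul_apply, Finsupp.single_apply,
      smul_eq_mul, mul_ite, mul_one, mul_zero]
    rw [Finset.sum_ite_eq']
    split_ifs with hi
    · rfl
    · rw [Finsupp.notMem_support_iff.mp hi, Int.cast_zero]
  have h2 : ∀ i, ((p ^ m : ℕ) : ℤ) ∣ b.repr y i := by
    intro i
    have h3 : (p : ℤ_[p]) ^ m ∣ ((b.repr y i : ℤ) : ℤ_[p]) := by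
      rw [← h1 i, hyz, map_smul, Finsupp.smul_apply, smul_eq_mul]
      exact dvd_mul_right _ _
    have := (PadicInt.pow_p_dvd_int_iff m (b.repr y i)).mp h3
    exact_mod_cast this
  choose w hw using h2
  refine ⟨∑ j ∈ (b.repr y).support, w j • b j, ?_⟩
  conv_lhs => rw [← b.linearCombination_repr y, Finsupp.linearCombination_apply, Finsupp.sum]
  rw [Finset.smul_sum]
  refine Finset.sum_congr rfl fun j _ => ?_
  rw [hw j, mul_smul, natCast_zsmul]

/-! ### Traces of congruent endomorphisms -/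

theorem trace_sub_mem_of_endCongr {T : Type*} [CommRing T] {V : Type*} [AddCommGroup V]
    [Module T V] [Module.Free T V] [Module.Finite T V] {I : Ideal T} {X Y : Module.End T V}
    (h : EndCongr I X Y) : LinearMap.trace T V X - LinearMap.trace T V Y ∈ I := by
  classical
  let b := Module.Free.chooseBasis T V
  rw [← map_sub, LinearMap.trace_eq_matrix_trace T b, Matrix.trace]
  refine I.sum_mem fun i _ => ?_
  rw [Matrix.diag_apply, LinearMap.toMatrix_apply, LinearMap.sub_apply]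
  exact repr_mem_of_mem_smul_top b I (h (b i)) i

/-! ### The operators `W σ = ρ σ + d σ • ρ σ⁻¹` -/

section W

variable {A : Type*} [CommRing A] {M : Type*} [AddCommGroup M] [Module A M]
  {G : Type*} [Group G] (ρ : G →* Module.End A M) (d : G →* Aˣ)

/-- `W σ = ρ σ + d σ • ρ σ⁻¹`. -/
def W (σ : G) : Module.End A M := ρ σ + ((d σ : Aˣ) : A) • ρ σ⁻¹

theorem W_mul_of_trivial (g τ : G) (hτ : ρ τ = 1) (hd : d τ = 1) : W ρ d (g * τ) = W ρ d g := by
  have hτ' : ρ τ⁻¹ = 1 := by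
    have : ρ τ⁻¹ * ρ τ = 1 := by rw [← map_mul, inv_mul_cancel, map_one]
    rwa [hτ, mul_one] at this
  unfold W
  rw [map_mul, map_mul, mul_inv_rev, map_mul, hτ, hτ', hd, mul_one, mul_one, one_mul]

theorem W_congr {I : Ideal A} (g h : G) (hh : EndCongr I (ρ h) 1)
    (hd : ((d h : Aˣ) : A) - 1 ∈ I) : EndCongr I (W ρ d (g * h)) (W ρ d g) := by
  have hinv : EndCongr I (ρ h⁻¹) 1 :=
    hh.inv (by rw [← map_mul, inv_mul_cancel, map_one]) (one_mul 1)
  unfold W
  rw [map_mul, map_mul, mul_inv_rev, map_mul]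
  refine EndCongr.add ?_ ?_
  · have := hh.mul_left (ρ g)
    rwa [mul_one] at this
  · refine EndCongr.smul ?_ ?_
    · have := hinv.mul_right (ρ g⁻¹)
      rwa [one_mul] at this
    · rw [Units.val_mul]
      have e : ((d g : Aˣ) : A) * ((d h : Aˣ) : A) - ((d g : Aˣ) : A) =
          ((d g : Aˣ) : A) * (((d h : Aˣ) : A) - 1) := by ring
      rw [e]
      exact I.mul_mem_left _ hd

theorem W_pow (φ : G) (j : ℕ) :
    W ρ d (φ ^ j) = ρ φ ^ j + (((d φ : Aˣ) : A) ^ j) • ρ φ⁻¹ ^ j := by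
  unfold W
  rw [map_pow, map_pow, Units.val_pow_eq_pow_val, ← inv_pow, map_pow]

/-- the Lucas recursion for `U j = F ^ j + δ ^ j • F' ^ j`. -/
theorem lucas_rec {F F' : Module.End A M} (hFF' : F * F' = 1) (hF'F : F' * F = 1) (δ : A)
    (j : ℕ) :
    F ^ (j + 2) + δ ^ (j + 2) • F' ^ (j + 2) =
      (F + δ • F') * (F ^ (j + 1) + δ ^ (j + 1) • F' ^ (j + 1)) - δ • (F ^ j + δ ^ j • F' ^ j) := by
  have hcomm : Commute F F' := by rw [Commute, SemiconjBy, hFF', hF'F]
  have e1 : F * F' ^ (j + 1) = F' ^ j := by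
    rw [pow_succ', ← mul_assoc, hFF', one_mul]
  have e2 : F' * F ^ (j + 1) = F ^ j := by
    rw [pow_succ', ← mul_assoc, hF'F, one_mul]
  rw [add_mul, mul_add, mul_add, mul_smul_comm, smul_mul_assoc, smul_mul_assoc, mul_smul_comm,
    e1, e2, ← pow_succ' F, ← pow_succ' F', smul_smul, smul_add, smul_smul, ← pow_succ' δ,
    ← pow_succ' δ]
  abel

end W

/-! ### The Lucas identity through the comparison `ι₀` -/

section LucasM

variable {A : Type*} [CommRing A] {M : Type*} [AddCommGroup M] [Module A M]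
  {R : Type*} [CommRing R] {Λ : Type*} [AddCommGroup Λ]

/-- If `t ∈ R` acts on `Λ` compatibly with `F + ℓ F'` on `M`, then `V_j(t, ℓ)` acts compatibly with
`F ^ j + ℓ ^ j F' ^ j`. -/
theorem map_lucas_apply (hL : R →+* Module.End ℤ Λ) (ι₀ : Λ →+ M) {F F' : Module.End A M}
    (hFF' : F * F' = 1) (hF'F : F' * F = 1) (t : R) (ℓ : ℕ)
    (ht : ∀ x : Λ, ι₀ (hL t x) = (F + (ℓ : A) • F') (ι₀ x)) (j : ℕ) (x : Λ) :
    ι₀ (hL (lucasV t (ℓ : R) j) x) = (F ^ j + ((ℓ : A) ^ j) • F' ^ j) (ι₀ x) := by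
  induction j using Nat.twoStepInduction generalizing x with
  | zero =>
    rw [lucasV_zero, pow_zero, pow_zero, pow_zero, one_smul, map_ofNat]
    change ι₀ ((2 : Module.End ℤ Λ) x) = ((1 : Module.End A M) + 1) (ι₀ x)
    rw [LinearMap.add_apply, Module.End.one_apply, ← two_smul ℕ (ι₀ x), ← map_nsmul]
    congr 1
  | one =>
    rw [lucasV_one, pow_one, pow_one, pow_one]
    exact ht x
  | more j h0 h1 =>
    rw [lucasV_add_two, lucas_rec hFF' hF'F, map_sub, map_mul, map_mul, map_natCast,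
      LinearMap.sub_apply, map_sub, Module.End.mul_apply, ht, h1, LinearMap.sub_apply,
      Module.End.mul_apply, LinearMap.smul_apply, ← h0 x]
    congr 1
    rw [Module.End.natCast_apply, map_nsmul, Nat.cast_smul_eq_nsmul]

end LucasM

/-! ### The main theorem -/

section Main

variable {p : ℕ} [hp : Fact p.Prime]
  {R : Type*} [CommRing R] {Λ : Type*} [AddCommGroup Λ] [Module.Free ℤ Λ] [Module.Finite ℤ Λ]
  {M : Type*} [AddCommGroup M] [Module ℤ_[p] M]
  {G : Type*} [Group G]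
  {T : Type*} [CommRing T] [IsLocalRing T]
  {V : Type*} [AddCommGroup V] [Module T V] [Module.Free T V] [Module.Finite T V]

/-- **Inertia invariance of the trace.**  See the header of the file. -/
theorem trace_mul_eq_of_faithful
    (hL : R →+* Module.End ℤ Λ) (hLinj : Function.Injective hL)
    (ι₀ : Λ →ₗ[ℤ] M) (hbc : IsBaseChange ℤ_[p] ι₀)
    (ρM : G →* Module.End ℤ_[p] M) (d : G →* ℤ_[p]ˣ)
    (hpT : (p : T) ∈ IsLocalRing.maximalIdeal T)
    (hT : ∀ x : T, (∀ n, x ∈ IsLocalRing.maximalIdeal T ^ n) → x = 0)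
    (π : R →+* T) (hV : Module.finrank T V = 2) (ρV : G →* Module.End T V)
    (Φ : G → ℕ → R → Prop)
    (hΦM : ∀ φ ℓ t, Φ φ ℓ t → ∀ x : Λ,
      ι₀ (hL t x) = (ρM φ + (ℓ : ℤ_[p]) • ρM φ⁻¹) (ι₀ x))
    (hΦd : ∀ φ ℓ t, Φ φ ℓ t → ((d φ : ℤ_[p]ˣ) : ℤ_[p]) = ℓ)
    (hΦV : ∀ φ ℓ t, Φ φ ℓ t → (ρV φ).charpoly = X ^ 2 - C (π t) * X + C (ℓ : T))
    (hdense : ∀ (n m : ℕ) (g : G), ∃ φ ℓ t, ∃ j : ℕ, Φ φ ℓ t ∧
      EndCongr (IsLocalRing.maximalIdeal T ^ n) (ρV (g⁻¹ * φ ^ j)) 1 ∧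
      EndCongr (Ideal.span {(p : ℤ_[p]) ^ m}) (ρM (g⁻¹ * φ ^ j)) 1 ∧
      ((d (g⁻¹ * φ ^ j) : ℤ_[p]ˣ) : ℤ_[p]) - 1 ∈ Ideal.span {(p : ℤ_[p]) ^ m})
    (τ : G) (hτM : ρM τ = 1) (hτd : d τ = 1) (g : G) :
    LinearMap.trace T V (ρV (g * τ)) = LinearMap.trace T V (ρV g) := by
  obtain ⟨c, hc⟩ := exists_sat_end hL hLinj p
  rw [← sub_eq_zero]
  apply hT
  intro n
  set m := n + c with hm
  set 𝔪 := IsLocalRing.maximalIdeal T with h𝔪
  set P : Ideal ℤ_[p] := Ideal.span {(p : ℤ_[p]) ^ m} with hP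
  -- the approximation data at `g₀`
  have key : ∀ g₀ : G, ∃ r : R,
      LinearMap.trace T V (ρV g₀) - π r ∈ 𝔪 ^ n ∧
      ∃ X : Module.End ℤ_[p] M, EndCongr P X (W ρM d g₀) ∧ ∀ x : Λ, ι₀ (hL r x) = X (ι₀ x) := by
    intro g₀
    obtain ⟨φ, ℓ, t, j, hΦ, h1, h2, h3⟩ := hdense n m g₀
    set h := g₀⁻¹ * φ ^ j with hh
    have hφj : φ ^ j = g₀ * h := by rw [hh, mul_inv_cancel_left]
    refine ⟨lucasV t (ℓ : R) j, ?_, W ρM d (φ ^ j), ?_, ?_⟩
    · have e : π (lucasV t (ℓ : R) j) = LinearMap.trace T V (ρV (φ ^ j)) := by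
        rw [map_pow, trace_pow_of_charpoly hV _ (hΦV φ ℓ t hΦ) j, map_lucasV, map_natCast]
      rw [e, hφj, map_mul]
      have := (h1.mul_left (ρV g₀)).symm
      rw [mul_one] at this
      exact trace_sub_mem_of_endCongr this
    · rw [hφj]
      exact W_congr ρM d g₀ h h2 h3
    · intro x
      rw [W_pow, hΦd φ ℓ t hΦ]
      exact map_lucas_apply hL ι₀.toAddMonoidHom
        (by rw [← map_mul, mul_inv_cancel, map_one]) (by rw [← map_mul, inv_mul_cancel, map_one])
        t ℓ (hΦM φ ℓ t hΦ) j x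
  obtain ⟨r, hr1, X, hX1, hX2⟩ := key g
  obtain ⟨r', hr'1, X', hX'1, hX'2⟩ := key (g * τ)
  rw [W_mul_of_trivial ρM d g τ hτM hτd] at hX'1
  have hXX' : EndCongr P X' X := hX'1.trans hX1.symm
  -- `r' - r` maps `Λ` into `p ^ m Λ`
  have hdiv : ∀ x : Λ, ∃ y : Λ, hL (r' - r) x = p ^ m • y := by
    intro x
    have h1 : ι₀ (hL (r' - r) x) ∈ P • (⊤ : Submodule ℤ_[p] M) := by
      rw [map_sub, LinearMap.sub_apply, map_sub, hX2, hX'2]
      exact hXX' (ι₀ x)
    rw [hP, Submodule.ideal_span_singleton_smul] at h1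
    obtain ⟨z, -, hz⟩ := h1
    exact exists_of_isBaseChange ι₀ hbc m _ z hz.symm
  obtain ⟨r'', hr''⟩ := hc m (r' - r) hdiv
  have hmc : m - c = n := by rw [hm]; exact Nat.add_sub_cancel_right n c
  rw [hmc] at hr''
  have h2 : π r' - π r ∈ 𝔪 ^ n := by
    rw [← map_sub, hr'', map_nsmul, nsmul_eq_mul]
    push_cast
    exact Ideal.mul_mem_right _ _ (Ideal.pow_mem_pow hpT n)
  have e : LinearMap.trace T V (ρV (g * τ)) - LinearMap.trace T V (ρV g) =
      (LinearMap.trace T V (ρV (g * τ)) - π r') + (π r' - π r) -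
        (LinearMap.trace T V (ρV g) - π r) := by ring
  rw [e]
  exact Ideal.sub_mem _ (Ideal.add_mem _ hr'1 h2) hr1

end Main

end Fermat.Agent.ES.ALG31.TraceInv12
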