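/-
S31 plan (helper27), step (E), helper13: **trace rigidity** for residually absolutely irreducible
two-dimensional representations over a local ring.

* `burnside_two` : over an algebraically closed field, an irreducible two-dimensional
  representation of a monoid spans the whole endomorphism algebra (graph argument + Schur).
* `span_range_eq_top_of_absIrr` : descent to the ground field `k` (dimension count).
* `exists_lift_of_mem_span`, `eq_zero_of_trace_mul_eq_zero` : over a local ring `A`, if the residual
  representation spans `End`, then `tr (ρ g * Y) = 0` for all `g` implies `Y = 0`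
  (trace pairing + Nakayama on the ideal of entries of `Y`).
* `eq_one_of_trace_mul_eq` : for `ρ : GaloisRepAdic A` with `ρ.residual.IsAbsolutelyIrreducible`:
  `(∀ g, tr ρ(g τ) = tr ρ(g)) → ρ τ = 1`;  `eq_of_trace_mul_eq`, `eq_zero_of_forall_trace`,
  `residual_span_eq_top`.
-/
import Mathlib
import Fermat.Prelude.Def_GaloisRep_Adic

set_option autoImplicit false
set_option linter.unusedSectionVars false

noncomputable section

namespace Fermat.Agent.ES.ALG31.TraceRigid13

open Module

/-! ### Burnside's theorem in dimension two -/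

section Burnside

variable {Ω : Type*} [Field Ω] [IsAlgClosed Ω] {V : Type*} [AddCommGroup V] [Module Ω V]
  {G : Type*} [Monoid G] (ρ : G →* End Ω V)

/-- the span of the image of `ρ`. -/
def spanRange : Submodule Ω (End Ω V) := Submodule.span Ω (Set.range ρ)

theorem one_mem_spanRange : (1 : End Ω V) ∈ spanRange ρ :=
  Submodule.subset_span ⟨1, map_one ρ⟩

theorem rho_mem_spanRange (g : G) : ρ g ∈ spanRange ρ := Submodule.subset_span ⟨g, rfl⟩

theorem mul_mem_spanRange (g : G) {a : End Ω V} (ha : a ∈ spanRange ρ) :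
    ρ g * a ∈ spanRange ρ := by
  induction ha using Submodule.span_induction with
  | mem x hx =>
    obtain ⟨h, rfl⟩ := hx
    rw [← map_mul]
    exact rho_mem_spanRange ρ (g * h)
  | zero => rw [mul_zero]; exact Submodule.zero_mem _
  | add x y _ _ hx hy => rw [mul_add]; exact Submodule.add_mem _ hx hy
  | smul c x _ hx => rw [mul_smul_comm]; exact Submodule.smul_mem _ c hx

/-- the orbit `𝒜 x` of a vector under the span of the image. -/
def orbitSub (x : V) : Submodule Ω V := (spanRange ρ).map (LinearMap.applyₗ x)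

theorem mem_orbitSub {x y : V} : y ∈ orbitSub ρ x ↔ ∃ a ∈ spanRange ρ, a x = y := by
  rw [orbitSub, Submodule.mem_map]
  rfl

theorem orbitSub_stable (x : V) (g : G) {y : V} (hy : y ∈ orbitSub ρ x) :
    ρ g y ∈ orbitSub ρ x := by
  obtain ⟨a, ha, rfl⟩ := (mem_orbitSub ρ).mp hy
  exact (mem_orbitSub ρ).mpr ⟨ρ g * a, mul_mem_spanRange ρ g ha, rfl⟩

variable (hirr : ∀ W : Submodule Ω V, (∀ g, ∀ w ∈ W, ρ g w ∈ W) → W = ⊥ ∨ W = ⊤)

include hirr in
theorem orbitSub_eq_top {x : V} (hx : x ≠ 0) : orbitSub ρ x = ⊤ := by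
  refine (hirr _ fun g w hw => orbitSub_stable ρ x g hw).resolve_left fun h => hx ?_
  have : x ∈ orbitSub ρ x := (mem_orbitSub ρ).mpr ⟨1, one_mem_spanRange ρ, rfl⟩
  rw [h] at this
  exact (Submodule.mem_bot Ω).mp this

/-- elements of the span killing `x`. -/
def killSub (x : V) : Submodule Ω (End Ω V) := spanRange ρ ⊓ LinearMap.ker (LinearMap.applyₗ x)

theorem mem_killSub {x : V} {a : End Ω V} : a ∈ killSub ρ x ↔ a ∈ spanRange ρ ∧ a x = 0 := by
  rw [killSub, Submodule.mem_inf, LinearMap.mem_ker]
  rfl

/-- `{a y | a ∈ 𝒜, a x = 0}`. -/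
def killOrbit (x y : V) : Submodule Ω V := (killSub ρ x).map (LinearMap.applyₗ y)

theorem mem_killOrbit {x y z : V} :
    z ∈ killOrbit ρ x y ↔ ∃ a ∈ spanRange ρ, a x = 0 ∧ a y = z := by
  rw [killOrbit, Submodule.mem_map]
  constructor
  · rintro ⟨a, ha, rfl⟩
    exact ⟨a, ((mem_killSub ρ).mp ha).1, ((mem_killSub ρ).mp ha).2, rfl⟩
  · rintro ⟨a, ha, hax, rfl⟩
    exact ⟨a, (mem_killSub ρ).mpr ⟨ha, hax⟩, rfl⟩

theorem killOrbit_stable (x y : V) (g : G) {z : V} (hz : z ∈ killOrbit ρ x y) :
    ρ g z ∈ killOrbit ρ x y := by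
  obtain ⟨a, ha, hax, rfl⟩ := (mem_killOrbit ρ).mp hz
  refine (mem_killOrbit ρ).mpr ⟨ρ g * a, mul_mem_spanRange ρ g ha, ?_, rfl⟩
  rw [Module.End.mul_apply, hax, map_zero]

include hirr in
/-- **Burnside's theorem in dimension two.** -/
theorem burnside_two (b : Basis (Fin 2) Ω V) : spanRange ρ = ⊤ := by
  have hfd : FiniteDimensional Ω V := Module.Finite.of_basis b
  have hb0 : b 0 ≠ 0 := b.ne_zero 0
  have hnt : Nontrivial V := ⟨⟨b 0, 0, hb0⟩⟩
  have hext : ∀ X Y : End Ω V, X (b 0) = Y (b 0) → X (b 1) = Y (b 1) → X = Y := by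
    intro X Y h0 h1
    refine b.ext fun i => ?_
    fin_cases i
    · exact h0
    · exact h1
  rcases hirr (killOrbit ρ (b 0) (b 1)) (fun g z hz => killOrbit_stable ρ _ _ g hz) with hN | hN
  · -- `a (b 0) = 0 → a (b 1) = 0` on the span: impossible
    exfalso
    have hkill : ∀ a ∈ spanRange ρ, a (b 0) = 0 → a = 0 := by
      intro a ha ha0
      have h1 : a (b 1) ∈ killOrbit ρ (b 0) (b 1) := (mem_killOrbit ρ).mpr ⟨a, ha, ha0, rfl⟩
      rw [hN, Submodule.mem_bot] at h1
      exact hext a 0 (by rw [ha0, LinearMap.zero_apply]) (by rw [h1, LinearMap.zero_apply])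
    -- the evaluation at `b 0` is a linear equivalence `𝒜 ≃ V`
    let f : spanRange ρ →ₗ[Ω] V := (LinearMap.applyₗ (b 0)).comp (spanRange ρ).subtype
    have hf : ∀ a : spanRange ρ, f a = (a : End Ω V) (b 0) := fun a => rfl
    have hfinj : Function.Injective f := by
      rw [injective_iff_map_eq_zero]
      intro a ha
      exact Subtype.ext (hkill a a.2 ha)
    have hfsurj : Function.Surjective f := by
      intro v
      have hv : v ∈ orbitSub ρ (b 0) := by rw [orbitSub_eq_top ρ hirr hb0]; exact Submodule.mem_top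
      obtain ⟨a, ha, rfl⟩ := (mem_orbitSub ρ).mp hv
      exact ⟨⟨a, ha⟩, rfl⟩
    let F : spanRange ρ ≃ₗ[Ω] V := LinearEquiv.ofBijective f ⟨hfinj, hfsurj⟩
    let φ : End Ω V := ((LinearMap.applyₗ (b 1)).comp (spanRange ρ).subtype).comp F.symm.toLinearMap
    have hφ : ∀ a : spanRange ρ, φ ((a : End Ω V) (b 0)) = (a : End Ω V) (b 1) := by
      intro a
      have h1 : F.symm ((a : End Ω V) (b 0)) = a := by
        rw [← hf a]
        exact F.symm_apply_apply a
      show ((F.symm ((a : End Ω V) (b 0)) : spanRange ρ) : End Ω V) (b 1) = _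
      rw [h1]
    have hφcomm : ∀ (g : G) (v : V), φ (ρ g v) = ρ g (φ v) := by
      intro g v
      obtain ⟨a, rfl⟩ := hfsurj v
      rw [hf a]
      have h2 := hφ ⟨ρ g * (a : End Ω V), mul_mem_spanRange ρ g a.2⟩
      rw [Module.End.mul_apply, Module.End.mul_apply] at h2
      rw [h2, hφ a]
    obtain ⟨μ, hμ⟩ := Module.End.exists_eigenvalue φ
    have hE : Module.End.eigenspace φ μ = ⊤ := by
      refine (hirr _ fun g y hy => ?_).resolve_left hμ
      rw [Module.End.mem_eigenspace_iff] at hy ⊢
      rw [hφcomm, hy, map_smul]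
    have hφμ : ∀ v, φ v = μ • v := fun v =>
      Module.End.mem_eigenspace_iff.mp (hE ▸ Submodule.mem_top)
    have h3 := hφ ⟨1, one_mem_spanRange ρ⟩
    rw [Module.End.one_apply, Module.End.one_apply, hφμ] at h3
    -- `μ • b 0 = b 1` contradicts linear independence
    have hli := b.linearIndependent
    have h4 := Fintype.linearIndependent_iff.mp hli ![μ, -1] (by
      rw [Fin.sum_univ_two]
      simp only [Matrix.cons_val_zero, Matrix.cons_val_one]
      rw [h3, neg_smul, one_smul, add_neg_cancel]) 1
    simp only [Matrix.cons_val_one] at h4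
    exact one_ne_zero (neg_eq_zero.mp h4)
  · -- the span contains everything
    rw [eq_top_iff]
    intro X _
    have h0 : X (b 0) ∈ orbitSub ρ (b 0) := by
      rw [orbitSub_eq_top ρ hirr hb0]; exact Submodule.mem_top
    obtain ⟨c, hc, hc0⟩ := (mem_orbitSub ρ).mp h0
    have h1 : X (b 1) - c (b 1) ∈ killOrbit ρ (b 0) (b 1) := by rw [hN]; exact Submodule.mem_top
    obtain ⟨a, ha, ha0, ha1⟩ := (mem_killOrbit ρ).mp h1
    have hX : X = a + c := by
      refine hext _ _ ?_ ?_
      · rw [LinearMap.add_apply, ha0, zero_add, hc0]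
      · rw [LinearMap.add_apply, ha1, sub_add_cancel]
    rw [hX]
    exact Submodule.add_mem _ ha hc

end Burnside

/-! ### descent to the ground field -/

section Descent

open TensorProduct

variable {k : Type*} [Field k] {W : Type*} [AddCommGroup W] [Module k W]
  {G : Type*} [Monoid G] (ρ : G →* End k W)
  (K : Type*) [Field K] [IsAlgClosed K] [Algebra k K]

/-- the base change of a representation to an extension field. -/
def rhoK : G →* End K (K ⊗[k] W) := (Module.End.baseChangeHom k K W : End k W →* _).comp ρ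

theorem rhoK_apply (g : G) : rhoK ρ K g = (ρ g).baseChange K := rfl

/-- **absolutely irreducible two-dimensional representations span the endomorphism algebra.** -/
theorem span_range_eq_top_of_absIrr (b : Basis (Fin 2) k W)
    (hirr : ∀ U : Submodule K (K ⊗[k] W), (∀ g, ∀ w ∈ U, (ρ g).baseChange K w ∈ U) → U = ⊥ ∨ U = ⊤) :
    Submodule.span k (Set.range ρ) = ⊤ := by
  classical
  have hfd : FiniteDimensional k W := Module.Finite.of_basis b
  let bK : Basis (Fin 2) K (K ⊗[k] W) := Algebra.TensorProduct.basis K b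
  have hfdK : FiniteDimensional K (K ⊗[k] W) := Module.Finite.of_basis bK
  have hB : spanRange (rhoK ρ K) = ⊤ := burnside_two (rhoK ρ K) hirr bK
  set 𝒜 : Submodule k (End k W) := Submodule.span k (Set.range ρ) with h𝒜
  let B := Module.finBasis k 𝒜
  let bc : End k W →ₗ[k] End K (K ⊗[k] W) := LinearMap.baseChangeHom k K W W
  have hbc : ∀ f : End k W, bc f = f.baseChange K := fun f => rfl
  -- the `K`-span of the base changes of a `k`-basis of `𝒜` is everything
  have hle : (⊤ : Submodule K (End K (K ⊗[k] W))) ≤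
      Submodule.span K (Set.range fun i => bc (B i : End k W)) := by
    rw [← hB, spanRange, Submodule.span_le]
    rintro _ ⟨g, rfl⟩
    have hg : ρ g ∈ 𝒜 := Submodule.subset_span ⟨g, rfl⟩
    have h1 : (ρ g : End k W) = ∑ i, (B.repr ⟨ρ g, hg⟩ i) • (B i : End k W) := by
      have := congrArg (fun x : 𝒜 => (x : End k W)) (B.sum_repr ⟨ρ g, hg⟩)
      simp only [Submodule.coe_sum, Submodule.coe_smul] at this
      exact this.symm
    rw [SetLike.mem_coe, rhoK_apply, ← hbc, h1, map_sum]
    refine Submodule.sum_mem _ fun i _ => ?_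
    rw [map_smul, ← algebraMap_smul K (B.repr ⟨ρ g, hg⟩ i)]
    exact Submodule.smul_mem _ _ (Submodule.subset_span ⟨i, rfl⟩)
  have h4K : finrank K (End K (K ⊗[k] W)) = 4 := by
    rw [Module.finrank_linearMap, Module.finrank_eq_card_basis bK, Fintype.card_fin]
  have h4k : finrank k (End k W) = 4 := by
    rw [Module.finrank_linearMap, Module.finrank_eq_card_basis b, Fintype.card_fin]
  have h1 : finrank K (Submodule.span K (Set.range fun i => bc (B i : End k W))) ≤
      finrank k 𝒜 := by
    have := finrank_range_le_card (R := K) (fun i => bc (B i : End k W))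
    rwa [Fintype.card_fin] at this
  have h2 : finrank K (Submodule.span K (Set.range fun i => bc (B i : End k W))) = 4 := by
    rw [top_le_iff.mp hle, finrank_top, h4K]
  refine Submodule.eq_top_of_finrank_eq (le_antisymm (Submodule.finrank_le _) ?_)
  rw [h4k, ← h2]
  exact h1

end Descent

/-! ### lifting to a local ring: Nakayama and the trace pairing -/

section Local

open TensorProduct IsLocalRing

variable {A : Type*} [CommRing A] [IsLocalRing A] {V : Type*} [AddCommGroup V] [Module A V]
  {G : Type*} [Monoid G] (ρ : G →* End A V)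

/-- every element of the residual span lifts to the span over `A`. -/
theorem exists_lift_of_mem_span {E : End (ResidueField A) (ResidueField A ⊗[A] V)}
    (hE : E ∈ Submodule.span (ResidueField A)
      (Set.range fun g => (ρ g).baseChange (ResidueField A))) :
    ∃ X ∈ Submodule.span A (Set.range ρ), X.baseChange (ResidueField A) = E := by
  induction hE using Submodule.span_induction with
  | mem x hx =>
    obtain ⟨g, rfl⟩ := hx
    exact ⟨ρ g, Submodule.subset_span ⟨g, rfl⟩, rfl⟩
  | zero => exact ⟨0, Submodule.zero_mem _, LinearMap.baseChange_zero⟩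
  | add x y _ _ hx hy =>
    obtain ⟨X, hX, rfl⟩ := hx
    obtain ⟨Y, hY, rfl⟩ := hy
    exact ⟨X + Y, Submodule.add_mem _ hX hY, LinearMap.baseChange_add _ _⟩
  | smul c x _ hx =>
    obtain ⟨X, hX, rfl⟩ := hx
    obtain ⟨a, rfl⟩ := residue_surjective c
    refine ⟨a • X, Submodule.smul_mem _ a hX, ?_⟩
    rw [LinearMap.baseChange_smul]
    refine LinearMap.ext fun v => ?_
    rw [LinearMap.smul_apply, LinearMap.smul_apply, ← algebraMap_smul (ResidueField A) a]
    rfl

/-- **trace pairing + Nakayama**: if the residual representation spans the endomorphism algebra,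
an endomorphism `Y` with `tr (ρ g * Y) = 0` for all `g` vanishes. -/
theorem eq_zero_of_trace_mul_eq_zero (b : Basis (Fin 2) A V)
    (hspan : Submodule.span (ResidueField A)
      (Set.range fun g => (ρ g).baseChange (ResidueField A)) = ⊤)
    (Y : End A V) (hY : ∀ g, LinearMap.trace A V (ρ g * Y) = 0) : Y = 0 := by
  classical
  set 𝔪 := maximalIdeal A with h𝔪
  set M := LinearMap.toMatrix b b Y with hM
  -- the trace pairing vanishes on the whole span
  have htr : ∀ X ∈ Submodule.span A (Set.range ρ), LinearMap.trace A V (X * Y) = 0 := by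
    intro X hX
    induction hX using Submodule.span_induction with
    | mem x hx =>
      obtain ⟨g, rfl⟩ := hx
      exact hY g
    | zero => rw [zero_mul, map_zero]
    | add x y _ _ hx hy => rw [add_mul, map_add, hx, hy, add_zero]
    | smul c x _ hx => rw [smul_mul_assoc, map_smul, hx, smul_zero]
  -- the ideal of entries
  set I : Ideal A := Ideal.span (Set.range fun q : Fin 2 × Fin 2 => M q.1 q.2) with hI
  have hmemI : ∀ a c, M a c ∈ I := fun a c => Ideal.subset_span ⟨(a, c), rfl⟩
  have key : ∀ i j, M i j ∈ 𝔪 * I := by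
    intro i j
    let bk := Algebra.TensorProduct.basis (ResidueField A) b
    obtain ⟨X, hX, hXE⟩ := exists_lift_of_mem_span ρ
      (E := Matrix.toLin bk bk (Matrix.single j i (1 : ResidueField A)))
      (by rw [hspan]; exact Submodule.mem_top)
    set P := LinearMap.toMatrix b b X with hP
    have hPmap : P.map (algebraMap A (ResidueField A)) = Matrix.single j i 1 := by
      rw [hP, ← LinearMap.toMatrix_baseChange, hXE, LinearMap.toMatrix_toLin]
    have hP𝔪 : ∀ a c, Matrix.single j i (1 : A) a c - P a c ∈ 𝔪 := by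
      intro a c
      have h1 := congrFun (congrFun hPmap a) c
      rw [Matrix.map_apply] at h1
      rw [h𝔪, ← residue_eq_zero_iff, map_sub]
      show residue A (Matrix.single j i (1 : A) a c) - algebraMap A (ResidueField A) (P a c) = 0
      rw [h1, Matrix.single_apply, Matrix.single_apply]
      split_ifs
      · rw [map_one, sub_self]
      · rw [map_zero, sub_self]
    have h0 : ∑ a, ∑ c, P a c * M c a = 0 := by
      have := htr X hX
      rw [LinearMap.trace_eq_matrix_trace A b, LinearMap.toMatrix_mul, Matrix.trace] at this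
      simpa [Matrix.diag, Matrix.mul_apply] using this
    have h1 : M i j = ∑ a, ∑ c, (Matrix.single j i (1 : A) a c - P a c) * M c a := by
      simp only [sub_mul, Finset.sum_sub_distrib, h0, sub_zero, Matrix.single_apply, ite_mul,
        one_mul, zero_mul]
      rw [Finset.sum_eq_single j, Finset.sum_eq_single i]
      · simp
      · intro c _ hc
        rw [if_neg]
        exact fun h => hc h.2.symm
      · intro h; exact absurd (Finset.mem_univ i) h
      · intro a _ ha
        refine Finset.sum_eq_zero fun c _ => ?_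
        rw [if_neg]
        exact fun h => ha h.1.symm
      · intro h; exact absurd (Finset.mem_univ j) h
    rw [h1]
    exact Ideal.sum_mem _ fun a _ => Ideal.sum_mem _ fun c _ =>
      Ideal.mul_mem_mul (hP𝔪 a c) (hmemI c a)
  -- Nakayama
  have hIle : I ≤ 𝔪 • I := by
    rw [hI, Ideal.span_le]
    rintro _ ⟨q, rfl⟩
    exact key q.1 q.2
  have hfg : (I : Submodule A A).FG := by
    rw [hI]
    exact Submodule.fg_span (Set.finite_range _)
  have hI0 : I = ⊥ :=
    Submodule.eq_bot_of_le_smul_of_le_jacobson_bot 𝔪 I hfg hIle (maximalIdeal_le_jacobson ⊥)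
  have hM0 : M = 0 := by
    ext a c
    have := hmemI a c
    rw [hI0, Ideal.mem_bot] at this
    rw [this, Matrix.zero_apply]
  exact (LinearMap.toMatrix b b).injective (by rw [← hM, hM0, map_zero])

end Local

/-! ### the statement for `GaloisRepAdic` -/

section Adic

open TensorProduct IsLocalRing

variable {A : Type} [CommRing A] [IsLocalRing A]

/-- the residual representation of a residually absolutely irreducible `ρ` spans the endomorphism
algebra of the residual space. -/
theorem residual_span_eq_top (ρ : GaloisRepAdic A) (habs : ρ.residual.IsAbsolutelyIrreducible) :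
    Submodule.span (ResidueField A)
      (Set.range fun g => (ρ.ρ g).baseChange (ResidueField A)) = ⊤ := by
  let b : Basis (Fin 2) A ρ.V := Module.finBasisOfFinrankEq A ρ.V ρ.finrank_eq
  let bk := Algebra.TensorProduct.basis (ResidueField A) b
  exact span_range_eq_top_of_absIrr (ρ := ρ.residual.ρ) (AlgebraicClosure (ResidueField A)) bk habs

/-- the `A`-span of the image of a residually absolutely irreducible `ρ` is the whole endomorphism
algebra, in the form of the trace pairing: `tr (ρ g * Y) = 0` for all `g` implies `Y = 0`. -/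
theorem eq_zero_of_forall_trace (ρ : GaloisRepAdic A) (habs : ρ.residual.IsAbsolutelyIrreducible)
    (Y : End A ρ.V) (hY : ∀ g, LinearMap.trace A ρ.V (ρ.ρ g * Y) = 0) : Y = 0 :=
  eq_zero_of_trace_mul_eq_zero ρ.ρ (Module.finBasisOfFinrankEq A ρ.V ρ.finrank_eq)
    (residual_span_eq_top ρ habs) Y hY

/-- **(E) trace rigidity**: if `tr ρ(g τ) = tr ρ(g)` for all `g`, and `ρ` is residually absolutely
irreducible, then `ρ τ = 1`. -/
theorem eq_one_of_trace_mul_eq (ρ : GaloisRepAdic A) (habs : ρ.residual.IsAbsolutelyIrreducible)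
    (τ : AlgebraicClosure ℚ ≃ₐ[ℚ] AlgebraicClosure ℚ)
    (h : ∀ g, LinearMap.trace A ρ.V (ρ.ρ (g * τ)) = LinearMap.trace A ρ.V (ρ.ρ g)) :
    ρ.ρ τ = 1 := by
  rw [← sub_eq_zero]
  refine eq_zero_of_forall_trace ρ habs _ fun g => ?_
  rw [mul_sub, mul_one, map_sub, ← map_mul, h g, sub_self]

/-- variant: two representations on the same space... the general form `ρ τ = ρ τ'`. -/
theorem eq_of_trace_mul_eq (ρ : GaloisRepAdic A) (habs : ρ.residual.IsAbsolutelyIrreducible)
    (τ τ' : AlgebraicClosure ℚ ≃ₐ[ℚ] AlgebraicClosure ℚ)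
    (h : ∀ g, LinearMap.trace A ρ.V (ρ.ρ (g * τ)) = LinearMap.trace A ρ.V (ρ.ρ (g * τ'))) :
    ρ.ρ τ = ρ.ρ τ' := by
  rw [← sub_eq_zero]
  refine eq_zero_of_forall_trace ρ habs _ fun g => ?_
  rw [mul_sub, map_sub, ← map_mul, ← map_mul, h g, sub_self]

end Adic

end Fermat.Agent.ES.ALG31.TraceRigid13
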