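/-
Program K (S31), helper12 (integrator): **S31 from (K1) + (K2)**.

`H.ρ` is unramified at every `q ∉ S`: by `TraceRigid13.eq_one_of_trace_mul_eq` (Burnside + Nakayama +
trace pairing, from `residual_absIrr`) it suffices that `tr H.ρ (g τ) = tr H.ρ g` for `τ` in an inertia
group at `q`; this is `TraceInv12.trace_mul_eq_of_faithful` applied to

* `Λ = parabolicHoms ℤ Γ₀(N) ℤ` with the faithful action `FaithFinal26.heckeLam` of the anemic Hecke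
  algebra;
* the comparison `ι₀ : Λ → T_p J₀(N)` of `S30Glue8.TateComparison` (K2);
* the Tate module `rhoT p N` (Eichler–Shimura relation `rhoT_frobenius`, unramified outside `N p`:
  `rhoT_inertia`, continuity `rhoT_continuous` from (K1)) and the cyclotomic character `cyclo p`;
* `H.ρ` with `H.charpoly_frob`;
* the generator form of Chebotarev `ChebQbar23.exists_frobenius_inv_mul_pow_fixes`.
-/
import Mathlib
import Fermat.Prelude.Def_CuspForm_HeckeGaloisRepDatum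
import Fermat.Agent.ES.ALG31.TraceInv12
import Fermat.Agent.ES.ALG31.TraceRigid13
import Fermat.Agent.ES.GAL.ChebQbar23
import Fermat.Agent.ES.J.CycloChar8
import Fermat.Agent.ES.J.S30Glue8

set_option autoImplicit false
set_option linter.unusedSectionVars false
set_option linter.overlappingInstances false
set_option synthInstance.maxHeartbeats 400000

open Polynomial AlgebraicCurve ModularCurve CuspForm

noncomputable section

namespace Fermat.Agent.ES.ALG31.S31Core12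

open Fermat.Agent.ES.ALG.RelDense9 Fermat.Agent.ES.ALG31.TraceInv12
  Fermat.Agent.ES.J.S30Glue8 Fermat.Agent.ES.J.TateJZero13 Fermat.Agent.ES.J.CycloChar8
  Fermat.Agent.ES.HEQ.FaithInst26 Fermat.Agent.ES.HEQ.FaithFinal26

local notation "Qb" => AlgebraicClosure ℚ
local notation "GQ" => (AlgebraicClosure ℚ ≃ₐ[ℚ] AlgebraicClosure ℚ)

variable {p : ℕ} [hp : Fact p.Prime] {N : ℕ} [NeZero N] {S : Finset ℕ}
  {𝒪 : Type} [CommRing 𝒪] [IsDomain 𝒪] [IsDiscreteValuationRing 𝒪]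
  [IsAdicComplete (IsLocalRing.maximalIdeal 𝒪) 𝒪]
  {θ : CuspForm.heckeAlgebra N 2 (↑S : Set ℕ) →+* IsLocalRing.ResidueField 𝒪}
  {T : Type} [CommRing T] [IsLocalRing T] [IsNoetherianRing T]
  [IsAdicComplete (IsLocalRing.maximalIdeal T) T] [Algebra 𝒪 T] [IsLocalHom (algebraMap 𝒪 T)]
  [Module.Finite 𝒪 T] [Module.Free 𝒪 T]

omit hp [IsDomain 𝒪] [IsDiscreteValuationRing 𝒪] [IsAdicComplete (IsLocalRing.maximalIdeal 𝒪) 𝒪]
  [IsNoetherianRing T] [IsAdicComplete (IsLocalRing.maximalIdeal T) T] [Module.Finite 𝒪 T]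
  [Module.Free 𝒪 T] in
/-- `p ∈ 𝔪_T`. -/
theorem natCast_mem_maximalIdeal [IsLocalRing 𝒪] (hp𝒪 : (p : 𝒪) ∈ IsLocalRing.maximalIdeal 𝒪) :
    (p : T) ∈ IsLocalRing.maximalIdeal T := by
  rw [IsLocalRing.mem_maximalIdeal, mem_nonunits_iff] at hp𝒪 ⊢
  intro h
  apply hp𝒪
  have : IsUnit (algebraMap 𝒪 T (p : 𝒪)) := by rwa [map_natCast]
  exact isUnit_of_map_unit (algebraMap 𝒪 T) _ this

omit [IsNoetherianRing T] in
/-- `⋂ 𝔪_T ^ n = 0`. -/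
theorem eq_zero_of_forall_mem_pow (x : T) (hx : ∀ n, x ∈ IsLocalRing.maximalIdeal T ^ n) :
    x = 0 := by
  have hH : IsHausdorff (IsLocalRing.maximalIdeal T) T := inferInstance
  apply hH.haus x
  intro n
  rw [SModEq.zero, smul_eq_mul, Ideal.mul_top]
  exact hx n

/-- **S31 from (K1) + (K2).** -/
theorem isUnramifiedAt_of_inputs
    (hp𝒪 : (p : 𝒪) ∈ IsLocalRing.maximalIdeal 𝒪) (hpS : p ∈ S)
    (hNS : ∀ q : ℕ, q.Prime → q ∣ N → q ∈ S)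
    (hfin : {y : JZero N | p • y = 0}.Finite) (hcmp : TateComparison p N)
    (H : CuspForm.HeckeGaloisRepDatum N (↑S : Set ℕ) 𝒪 θ T)
    (q : ℕ) (hq : q.Prime) (hqS : q ∉ S) :
    H.ρ.IsUnramifiedAt q := by
  classical
  intro P hP τ hτ
  refine Fermat.Agent.ES.ALG31.TraceRigid13.eq_one_of_trace_mul_eq H.ρ H.residual_absIrr τ
    fun g => ?_
  obtain ⟨ι₀, hbc, hheck⟩ := hcmp
  have hS : ∀ q : ℕ, q.Prime → q ∣ N → q ∈ (↑S : Set ℕ) := fun q hq hqN => by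
    exact_mod_cast hNS q hq hqN
  have hqp : q ≠ p := fun h => hqS (h ▸ hpS)
  have hqN : ¬ q ∣ N := fun h => hqS (hNS q hq h)
  have hne_p : ∀ ℓ : ℕ, ℓ ∉ (↑S : Set ℕ) → ℓ ≠ p := fun ℓ hℓS h => hℓS (by exact_mod_cast h ▸ hpS)
  -- the Frobenius data
  let Φ : GQ → ℕ → ↥(heckeAlgebra N 2 (↑S : Set ℕ)) → Prop := fun φ ℓ t =>
    ∃ (hℓ : ℓ.Prime) (hℓN : ¬ ℓ ∣ N) (hℓS : ℓ ∉ (↑S : Set ℕ)) (A : ValuationSubring Qb),
      A.LiesOverPrime ℓ ∧ A.IsFrobeniusAt φ ℓ ∧ t = heckeAlgebra.T hℓ hℓN hℓS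
  let hL : ↥(heckeAlgebra N 2 (↑S : Set ℕ)) →+* Module.End ℤ ↥(Lam N) :=
    (heckeLam (N := N) (↑S : Set ℕ) hS).toRingHom
  have hLinj : Function.Injective hL := heckeLam_injective (↑S : Set ℕ) hS
  have hΦM : ∀ φ ℓ t, Φ φ ℓ t → ∀ x : ↥(Lam N),
      ι₀ (hL t x) = (rhoT p N φ + (ℓ : ℤ_[p]) • rhoT p N φ⁻¹) (ι₀ x) := by
    rintro φ ℓ t ⟨hℓ, hℓN, hℓS, A, hA, hφ, rfl⟩ x
    have h1 := rhoT_frobenius (p := p) (N := N) hℓ hℓN (hne_p ℓ hℓS) hA hφ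
    have hFF' : rhoT p N φ * rhoT p N φ⁻¹ = 1 := by rw [← map_mul, mul_inv_cancel, map_one]
    have h2 : tT p N ⟨ℓ, hℓ⟩ = rhoT p N φ + (ℓ : ℤ_[p]) • rhoT p N φ⁻¹ := by
      have := congrArg (fun X => X * rhoT p N φ⁻¹) h1
      simp only [add_mul, sub_mul, smul_mul_assoc, mul_assoc, hFF', mul_one, one_mul,
        zero_mul] at this
      rw [sub_add_eq_add_sub, sub_eq_zero] at this
      exact this.symm
    rw [← h2, hheck ℓ hℓ hℓN x]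
    congr 1
    exact LinearMap.congr_fun (heckeLam_T' (↑S : Set ℕ) hS ℓ hℓ hℓN hℓS) x
  have hΦd : ∀ φ ℓ t, Φ φ ℓ t → ((cyclo p φ : ℤ_[p]ˣ) : ℤ_[p]) = ℓ := by
    rintro φ ℓ t ⟨hℓ, hℓN, hℓS, A, hA, hφ, rfl⟩
    exact cyclo_of_isFrobeniusAt p hℓ (hne_p ℓ hℓS) A hA hφ
  have hΦV : ∀ φ ℓ t, Φ φ ℓ t →
      (H.ρ.ρ φ).charpoly = X ^ 2 - C (H.π t) * X + C (ℓ : T) := by
    rintro φ ℓ t ⟨hℓ, hℓN, hℓS, A, hA, hφ, rfl⟩
    exact H.charpoly_frob ℓ hℓ hℓN hℓS A hA φ hφ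
  have hdense : ∀ (n m : ℕ) (g : GQ), ∃ φ ℓ t, ∃ j : ℕ, Φ φ ℓ t ∧
      EndCongr (IsLocalRing.maximalIdeal T ^ n) (H.ρ.ρ (g⁻¹ * φ ^ j)) 1 ∧
      EndCongr (Ideal.span {(p : ℤ_[p]) ^ m}) (rhoT p N (g⁻¹ * φ ^ j)) 1 ∧
      ((cyclo p (g⁻¹ * φ ^ j) : ℤ_[p]ˣ) : ℤ_[p]) - 1 ∈ Ideal.span {(p : ℤ_[p]) ^ m} := by
    intro n m g
    obtain ⟨L₁, hL₁, h1⟩ := H.ρ.isAdicContinuous n
    obtain ⟨L₂, hL₂, h2⟩ := rhoT_continuous (p := p) (N := N) hfin m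
    obtain ⟨L₃, hL₃, h3⟩ := cyclo_sub_one_mem p m
    have := hL₁
    have := hL₂
    have := hL₃
    obtain ⟨ℓ, A, φ, j, hℓ, hℓS, hA, hφ, hj⟩ :=
      Fermat.Agent.ES.GAL.ChebQbar23.exists_frobenius_inv_mul_pow_fixes (L₁ ⊔ L₂ ⊔ L₃) g S
    have hℓS' : ℓ ∉ (↑S : Set ℕ) := by simpa using hℓS
    have hℓN : ¬ ℓ ∣ N := fun hdvd => hℓS (hNS ℓ hℓ hdvd)
    refine ⟨φ, ℓ, heckeAlgebra.T hℓ hℓN hℓS', j, ⟨hℓ, hℓN, hℓS', A, hA, hφ, rfl⟩, ?_, ?_, ?_⟩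
    · intro v
      rw [Module.End.one_apply]
      exact h1 _ (fun x hx => hj x (le_sup_left (a := L₁ ⊔ L₂) (b := L₃)
        (le_sup_left (a := L₁) (b := L₂) hx))) v
    · intro v
      rw [Module.End.one_apply]
      obtain ⟨y, hy⟩ := h2 _ (fun x hx => hj x (le_sup_left (a := L₁ ⊔ L₂) (b := L₃)
        (le_sup_right (a := L₁) (b := L₂) hx))) v
      rw [hy]
      exact Submodule.smul_mem_smul (Ideal.mem_span_singleton_self _) Submodule.mem_top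
    · exact h3 _ (fun x hx => hj x (le_sup_right (a := L₁ ⊔ L₂) (b := L₃) hx))
  exact trace_mul_eq_of_faithful hL hLinj ι₀ hbc (rhoT p N) (cyclo p)
    (natCast_mem_maximalIdeal hp𝒪) eq_zero_of_forall_mem_pow H.π H.ρ.finrank_eq H.ρ.ρ Φ
    hΦM hΦd hΦV hdense τ (rhoT_inertia hq hqN hqp hP hτ)
    (cyclo_of_mem_inertia p hq hqp P hP hτ) g

end Fermat.Agent.ES.ALG31.S31Core12
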