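/-
S31 programme, chapter ALG31, leaf (L4) = (SEP) (helper3).

Let `R` be a commutative ring which is finite free over `ℤ` and reduced (e.g. the anemic Hecke
algebra, by PET), and `p` a prime.  There are finitely many ring homs `χ j : R →+* 𝒪 j` into
complete discrete valuation rings of characteristic `0` with finite residue fields and `p ∈ 𝔪`,
which together induce the `p`-adic topology of `R`:

  `∃ c, ∀ m r, (∀ j, p ^ m ∣ χ j r) → p ^ (m - c) ∣ r`      (`exists_sep_family`).

`𝒪 j` runs over the completions of the rings of integers of the number fields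
`Frac (R ⧸ 𝔭)`, `𝔭` a minimal prime of `R`, at the primes above `p`; `c` is the `p`-adic valuation
of a conductor of `R` in `∏ 𝓞 (Frac (R ⧸ 𝔭))`.
-/
import Mathlib
import Fermat.Agent.ES.J7.CompleteDVR1

set_option autoImplicit false

open IsDedekindDomain HeightOneSpectrum NumberField

noncomputable section

namespace Fermat.Agent.ES.ALG31.Sep3

/-! ### Part 1: abstract conductor and separation lemmas -/

/-- a non-zero element of a domain which is integral over `ℤ` divides a non-zero integer. -/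
theorem exists_mul_eq_intCast {A : Type*} [CommRing A] [IsDomain A] {b : A} (hb : b ≠ 0)
    (hint : IsIntegral ℤ b) : ∃ (u : A) (n : ℤ), n ≠ 0 ∧ b * u = (n : A) := by
  obtain ⟨n, hn, u, hu⟩ := hint.isAlgebraic.exists_nonzero_dvd (mem_nonZeroDivisors_of_ne_zero hb)
  refine ⟨u, n, hn, ?_⟩
  rw [← hu]
  simp

/-- **Conductor.**  If every element of every factor `O i` has a non-zero integer multiple which
is hit by an element of `R` vanishing in the other factors, then a single non-zero integer `d`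
multiplies `∏ O i` into the image of `R`. -/
theorem exists_conductor {R : Type*} [CommRing R] {P : Type*} [Fintype P] [DecidableEq P]
    (O : P → Type*) [∀ i, CommRing (O i)] [∀ i, Module.Finite ℤ (O i)] (φ : ∀ i, R →+* O i)
    (hloc : ∀ (i : P) (y : O i), ∃ (s : R) (n : ℤ), n ≠ 0 ∧ φ i s = n • y ∧
      ∀ j, j ≠ i → φ j s = 0) :
    ∃ d : ℤ, d ≠ 0 ∧ ∀ y : ∀ i, O i, ∃ s : R, ∀ i, φ i s = d • y i := by
  classical
  -- the image of `R` as an additive subgroup of the product
  let Φ : R →+ (∀ i, O i) :=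
    { toFun := fun s i => φ i s
      map_zero' := by funext i; simp
      map_add' := fun a b => by funext i; simp }
  let L : AddSubgroup (∀ i, O i) := Φ.range
  have hsingle : ∀ (i : P) (y : O i), ∃ n : ℤ, n ≠ 0 ∧ n • (Pi.single i y : ∀ i, O i) ∈ L := by
    intro i y
    obtain ⟨s, n, hn, h1, h2⟩ := hloc i y
    refine ⟨n, hn, s, ?_⟩
    funext j
    by_cases hj : j = i
    · subst hj
      simp [Φ, h1]
    · simp [Φ, h2 j hj, Pi.single_eq_of_ne hj]
  have hsmulL : ∀ (e : ℤ) (y : ∀ i, O i), y ∈ L → e • y ∈ L := fun e y hy => L.zsmul_mem hy e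
  -- every element has a non-zero multiple in `L`
  have hone : ∀ y : ∀ i, O i, ∃ n : ℤ, n ≠ 0 ∧ n • y ∈ L := by
    intro y
    choose n hn hnL using fun i => hsingle i (y i)
    refine ⟨∏ i, n i, Finset.prod_ne_zero_iff.mpr fun i _ => hn i, ?_⟩
    have hy : y = ∑ i, (Pi.single i (y i) : ∀ i, O i) := (Finset.univ_sum_single y).symm
    rw [hy, Finset.smul_sum]
    refine L.sum_mem fun i _ => ?_
    obtain ⟨e, he⟩ := Finset.dvd_prod_of_mem n (Finset.mem_univ i)
    rw [he, mul_comm, mul_smul]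
    exact hsmulL e _ (hnL i)
  -- finitely many generators
  obtain ⟨S, hS⟩ := (Module.Finite.fg_top : (⊤ : Submodule ℤ (∀ i, O i)).FG)
  choose n hn hnL using hone
  refine ⟨∏ g ∈ S, n g, Finset.prod_ne_zero_iff.mpr fun g _ => hn g, ?_⟩
  have hall : ∀ y ∈ Submodule.span ℤ (S : Set (∀ i, O i)), (∏ g ∈ S, n g) • y ∈ L := by
    intro y hy
    induction hy using Submodule.span_induction with
    | mem g hg =>
        obtain ⟨e, he⟩ := Finset.dvd_prod_of_mem n hg
        rw [he, mul_comm, mul_smul]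
        exact hsmulL e _ (hnL g)
    | zero => rw [smul_zero]; exact L.zero_mem
    | add a b _ _ ha hb => rw [smul_add]; exact L.add_mem ha hb
    | smul c a _ ha => rw [smul_comm]; exact hsmulL c _ ha
  intro y
  obtain ⟨s, hs⟩ := hall y (by rw [hS]; trivial)
  exact ⟨s, fun i => congrFun hs i⟩

/-- **Separation from a conductor.** -/
theorem sep_of_conductor {R : Type*} [CommRing R] [Module.IsTorsionFree ℤ R] {P : Type*}
    (O : P → Type*) [∀ i, CommRing (O i)] (φ : ∀ i, R →+* O i)
    (hinj : ∀ r : R, (∀ i, φ i r = 0) → r = 0) (d : ℤ) (hd : d ≠ 0)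
    (hcond : ∀ y : ∀ i, O i, ∃ s : R, ∀ i, φ i s = d • y i) (p : ℕ) (hp : p.Prime) :
    ∃ c : ℕ, ∀ (m : ℕ) (r : R), (∀ i, (p : O i) ^ m ∣ φ i r) → (p : R) ^ (m - c) ∣ r := by
  have hpZ : Prime (p : ℤ) := Nat.prime_iff_prime_int.mp hp
  obtain ⟨c, d', hd', hdd⟩ := WfDvdMonoid.max_power_factor hd hpZ.irreducible
  refine ⟨c, fun m r hr => ?_⟩
  rcases le_or_gt m c with hmc | hmc
  · rw [Nat.sub_eq_zero_of_le hmc, pow_zero]
    exact one_dvd r
  choose y hy using hr
  obtain ⟨s, hs⟩ := hcond y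
  -- `p ^ m * s = d * r`
  have h1 : (p : R) ^ m * s = (d : R) * r := by
    rw [← sub_eq_zero]
    apply hinj
    intro i
    rw [map_sub, map_mul, map_mul, map_pow, map_natCast, map_intCast, hs i, hy i, zsmul_eq_mul]
    ring
  obtain ⟨k, rfl⟩ : ∃ k, m = c + k := ⟨m - c, by omega⟩
  rw [Nat.add_sub_cancel_left]
  -- cancel `p ^ c`
  have h2 : (p : R) ^ k * s = (d' : R) * r := by
    have h3 : ((p : ℤ) ^ c) • ((p : R) ^ k * s) = ((p : ℤ) ^ c) • ((d' : R) * r) := by
      rw [zsmul_eq_mul, zsmul_eq_mul]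
      push_cast
      rw [hdd] at h1
      push_cast at h1
      linear_combination h1
    exact smul_right_injective R (pow_ne_zero c hpZ.ne_zero) h3
  -- `p ^ k` and `d'` are coprime
  have hcop : IsCoprime ((p : ℤ) ^ k) d' := by
    apply IsCoprime.pow_left
    rw [Prime.coprime_iff_not_dvd hpZ]
    exact hd'
  obtain ⟨u, w, huw⟩ := hcop
  refine ⟨(u : R) * r + (w : R) * s, ?_⟩
  have huw' : (u : R) * (p : R) ^ k + (w : R) * (d' : R) = 1 := by
    have := congrArg (fun z : ℤ => (z : R)) huw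
    push_cast at this
    exact this
  linear_combination (-r) * huw' - (w : R) * h2

/-- Integrality over `ℤ` is preserved by ring homs (for arbitrary `ℤ`-algebra structures). -/
theorem isIntegral_int_map {A B : Type*} [CommRing A] [CommRing B] [Algebra ℤ A] [Algebra ℤ B]
    (f : A →+* B) {a : A} (ha : IsIntegral ℤ a) : IsIntegral ℤ (f a) := by
  obtain ⟨g, hg, hga⟩ := ha
  refine ⟨g, hg, ?_⟩
  have h : algebraMap ℤ B = f.comp (algebraMap ℤ A) := Subsingleton.elim _ _
  rw [h, ← Polynomial.hom_eval₂, hga, map_zero]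

/-! ### Part 2: the number field of a minimal prime -/

section MinPrime

open Fermat.Agent.ES.J7.CompleteDVR1

variable {R : Type} [CommRing R] [Module.Finite ℤ R] [Module.Free ℤ R]

/-- non-zero integers are non-zero-divisors of `R`. -/
theorem intCast_mem_nonZeroDivisors {n : ℤ} (hn : n ≠ 0) : (n : R) ∈ nonZeroDivisors R := by
  rw [mem_nonZeroDivisors_iff_right]
  intro x hx
  have h : n • x = 0 := by rw [zsmul_eq_mul, mul_comm]; exact hx
  exact (smul_eq_zero.mp h).resolve_left hn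

/-- a minimal prime of `R` contains no non-zero integer. -/
theorem intCast_notMem_of_minimalPrime {𝔭 : Ideal R} (h𝔭 : 𝔭 ∈ minimalPrimes R) {n : ℤ}
    (hn : n ≠ 0) : (n : R) ∉ 𝔭 := fun hmem =>
  Set.disjoint_left.mp (Ideal.disjoint_nonZeroDivisors_of_mem_minimalPrimes h𝔭) hmem
    (intCast_mem_nonZeroDivisors hn)

/-- **The number field of a minimal prime** `𝔭`: `K = Frac (R ⧸ 𝔭)`, with `R → 𝓞 K` of kernel `𝔭`
and image of finite index (every element of `𝓞 K` has a non-zero integer multiple in the image). -/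
theorem exists_numberField_of_minimalPrime (𝔭 : Ideal R) (h𝔭 : 𝔭 ∈ minimalPrimes R) :
    ∃ (K : Type) (_ : Field K) (_ : NumberField K) (φ : R →+* 𝓞 K),
      RingHom.ker φ = 𝔭 ∧ ∀ y : 𝓞 K, ∃ (a : R) (n : ℤ), n ≠ 0 ∧ φ a = n • y := by
  haveI : 𝔭.IsPrime := Ideal.minimalPrimes_isPrime h𝔭
  -- an abstract fraction field (to avoid the extra instances on `FractionRing`)
  obtain ⟨K, _, _, _⟩ : ∃ (K : Type) (_ : Field K) (_ : Algebra (R ⧸ 𝔭) K),
      IsFractionRing (R ⧸ 𝔭) K :=
    ⟨FractionRing (R ⧸ 𝔭), inferInstance, inferInstance, inferInstance⟩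
  have hinjK : Function.Injective (algebraMap (R ⧸ 𝔭) K) := IsFractionRing.injective (R ⧸ 𝔭) K
  -- the order `A = R ⧸ 𝔭`
  haveI hfinA : Module.Finite ℤ (R ⧸ 𝔭) :=
    Module.Finite.of_surjective ((Ideal.Quotient.mk 𝔭).toIntAlgHom.toLinearMap)
      Ideal.Quotient.mk_surjective
  haveI hintA : Algebra.IsIntegral ℤ (R ⧸ 𝔭) := Algebra.IsIntegral.of_finite ℤ (R ⧸ 𝔭)
  haveI hcharA : CharZero (R ⧸ 𝔭) := by
    apply charZero_of_inj_zero
    intro n hn
    by_contra hn0
    have h1 : ((n : ℤ) : R) ∈ 𝔭 := by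
      rw [← Ideal.Quotient.eq_zero_iff_mem, map_intCast]
      exact_mod_cast hn
    exact intCast_notMem_of_minimalPrime h𝔭 (by exact_mod_cast hn0) h1
  haveI hcharK : CharZero K := charZero_of_injective_algebraMap hinjK
  -- every element of `K` is `a / n`
  have hdiv : ∀ x : K, ∃ (a : R ⧸ 𝔭) (n : ℤ), n ≠ 0 ∧ (n : K) * x = algebraMap (R ⧸ 𝔭) K a := by
    intro x
    obtain ⟨a, b, hb, rfl⟩ := IsFractionRing.div_surjective (A := R ⧸ 𝔭) x
    have hb0 : b ≠ 0 := nonZeroDivisors.ne_zero hb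
    obtain ⟨u, n, hn, hbu⟩ := exists_mul_eq_intCast hb0 (Algebra.IsIntegral.isIntegral b)
    refine ⟨a * u, n, hn, ?_⟩
    have hb' : algebraMap (R ⧸ 𝔭) K b ≠ 0 := by
      rw [Ne, map_eq_zero_iff _ hinjK]
      exact hb0
    have h1 : (n : K) = algebraMap (R ⧸ 𝔭) K b * algebraMap (R ⧸ 𝔭) K u := by
      rw [← map_mul, hbu, map_intCast]
    rw [h1, map_mul]
    field_simp
  haveI hfinK : FiniteDimensional ℚ K := by
    obtain ⟨S, hS⟩ := (Module.Finite.fg_top : (⊤ : Submodule ℤ (R ⧸ 𝔭)).FG)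
    classical
    refine ⟨⟨S.image (algebraMap (R ⧸ 𝔭) K), ?_⟩⟩
    rw [eq_top_iff]
    intro x _
    obtain ⟨a, n, hn, hx⟩ := hdiv x
    have ha : algebraMap (R ⧸ 𝔭) K a ∈
        Submodule.span ℚ ((S.image (algebraMap (R ⧸ 𝔭) K) : Finset K) : Set K) := by
      have h1 : a ∈ Submodule.span ℤ (S : Set (R ⧸ 𝔭)) := by rw [hS]; trivial
      have h2 := Submodule.apply_mem_span_image_of_mem_span
        ((algebraMap (R ⧸ 𝔭) K).toAddMonoidHom.toIntLinearMap) h1
      rw [Finset.coe_image]
      exact Submodule.span_le_restrictScalars ℤ ℚ _ h2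
    have hnK : (n : K) ≠ 0 := by exact_mod_cast hn
    have hx' : x = ((n : ℚ)⁻¹) • algebraMap (R ⧸ 𝔭) K a := by
      rw [← hx, Algebra.smul_def, map_inv₀, map_intCast, ← mul_assoc, inv_mul_cancel₀ hnK,
        one_mul]
    rw [hx']
    exact Submodule.smul_mem _ _ ha
  haveI hNF : NumberField K := { }
  -- integrality of the image
  have hint : ∀ a : R, IsIntegral ℤ (((algebraMap (R ⧸ 𝔭) K).comp (Ideal.Quotient.mk 𝔭)) a) := by
    intro a
    rw [RingHom.comp_apply]
    exact isIntegral_int_map _ (Algebra.IsIntegral.isIntegral (Ideal.Quotient.mk 𝔭 a))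
  refine ⟨K, inferInstance, hNF,
    restrictRingHom ((algebraMap (R ⧸ 𝔭) K).comp (Ideal.Quotient.mk 𝔭)) hint, ?_, ?_⟩
  · ext a
    rw [RingHom.mem_ker]
    constructor
    · intro h
      have h1 := congrArg (fun z : 𝓞 K => (z : K)) h
      simp only [coe_restrictRingHom, RingHom.comp_apply, map_zero] at h1
      rw [map_eq_zero_iff _ hinjK] at h1
      exact Ideal.Quotient.eq_zero_iff_mem.mp h1
    · intro h
      apply RingOfIntegers.ext
      rw [coe_restrictRingHom, RingHom.comp_apply, Ideal.Quotient.eq_zero_iff_mem.mpr h,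
        map_zero]
      simp
  · intro y
    obtain ⟨a, n, hn, hx⟩ := hdiv (y : K)
    obtain ⟨a', rfl⟩ := Ideal.Quotient.mk_surjective a
    refine ⟨a', n, hn, ?_⟩
    apply RingOfIntegers.ext
    rw [coe_restrictRingHom, RingHom.comp_apply, ← hx]
    simp

end MinPrime

/-! ### Part 3: divisibility by `p ^ m` in a Dedekind domain is detected in the completions -/

section LocalGlobal

open Fermat.Agent.ES.J7.CompleteDVR1

variable {O : Type*} [CommRing O] [IsDedekindDomain O] (K : Type*) [Field K] [Algebra O K]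
  [IsFractionRing O K] (v : HeightOneSpectrum O)

/-- divisibility of images in the completed integers, in terms of the valuation. -/
theorem algebraMap_dvd_algebraMap_iff (a b : O) :
    algebraMap O (v.adicCompletionIntegers K) a ∣ algebraMap O (v.adicCompletionIntegers K) b ↔
      v.valuation K (algebraMap O K b) ≤ v.valuation K (algebraMap O K a) := by
  rw [(adicCompletionIntegers.integers K v).dvd_iff_le]
  show Valued.v ((algebraMap O (v.adicCompletionIntegers K) b : v.adicCompletionIntegers K) :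
      v.adicCompletion K) ≤
    Valued.v ((algebraMap O (v.adicCompletionIntegers K) a : v.adicCompletionIntegers K) :
      v.adicCompletion K) ↔ _
  rw [algebraMap_adicCompletionIntegers_apply, algebraMap_adicCompletionIntegers_apply,
    coe_eq_algebraMap, coe_eq_algebraMap, valued_algebraMap, valued_algebraMap]

/-- **Local-global principle for divisibility**: `a ∣ x` in a Dedekind domain as soon as `a ∣ x`
in the completions at the primes containing `a`. -/
theorem dvd_of_forall_completion (a x : O) (ha : a ≠ 0)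
    (h : ∀ v : HeightOneSpectrum O, a ∈ v.asIdeal →
      algebraMap O (v.adicCompletionIntegers K) a ∣ algebraMap O (v.adicCompletionIntegers K) x) :
    a ∣ x := by
  have haK : algebraMap O K a ≠ 0 := by
    rw [Ne, map_eq_zero_iff _ (IsFractionRing.injective O K)]
    exact ha
  have hy : ∀ v : HeightOneSpectrum O,
      v.valuation K (algebraMap O K x / algebraMap O K a) ≤ 1 := by
    intro v
    have hva : v.valuation K (algebraMap O K a) ≠ 0 := (Valuation.ne_zero_iff _).mpr haK
    rw [map_div₀, div_le_one₀ (zero_lt_iff.mpr hva)]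
    by_cases hv : a ∈ v.asIdeal
    · exact (algebraMap_dvd_algebraMap_iff K v a x).mp (h v hv)
    · have h1 : v.valuation K (algebraMap O K a) = 1 := by
        apply le_antisymm (v.valuation_le_one a)
        by_contra hlt
        exact hv ((v.valuation_lt_one_iff_mem a).mp (not_le.mp hlt))
      rw [h1]
      exact v.valuation_le_one x
  obtain ⟨z, hz⟩ := mem_integers_of_valuation_le_one K _ hy
  refine ⟨z, ?_⟩
  apply IsFractionRing.injective O K
  rw [map_mul, hz, mul_div_cancel₀ _ haK]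

end LocalGlobal

/-! ### Part 4: the separating family -/

section Family

open Fermat.Agent.ES.J7.CompleteDVR1 IsLocalRing

/-- an element outside the minimal prime `𝔭` lying in all the other minimal primes. -/
theorem exists_mem_others_notMem {R : Type*} [CommRing R] [IsNoetherianRing R] {𝔭 : Ideal R}
    (h𝔭 : 𝔭 ∈ minimalPrimes R) :
    ∃ t : R, t ∉ 𝔭 ∧ ∀ 𝔮 ∈ minimalPrimes R, 𝔮 ≠ 𝔭 → t ∈ 𝔮 := by
  classical
  have hfin : (minimalPrimes R).Finite := minimalPrimes.finite_of_isNoetherianRing R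
  haveI : 𝔭.IsPrime := Ideal.minimalPrimes_isPrime h𝔭
  have hnot : ¬ (hfin.toFinset.erase 𝔭).inf (fun 𝔮 => 𝔮) ≤ 𝔭 := by
    intro hle
    obtain ⟨𝔮, h𝔮, h𝔮𝔭⟩ := (Ideal.IsPrime.inf_le' ‹𝔭.IsPrime›).mp hle
    rw [Finset.mem_erase, Set.Finite.mem_toFinset] at h𝔮
    have h1 : 𝔭 ≤ 𝔮 := h𝔭.2 ⟨Ideal.minimalPrimes_isPrime h𝔮.2, bot_le⟩ h𝔮𝔭
    exact h𝔮.1 (le_antisymm h𝔮𝔭 h1)
  obtain ⟨t, ht, ht𝔭⟩ := SetLike.not_le_iff_exists.mp hnot
  refine ⟨t, ht𝔭, fun 𝔮 h𝔮 hne => ?_⟩
  rw [Submodule.mem_finsetInf] at ht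
  exact ht 𝔮 (by rw [Finset.mem_erase, Set.Finite.mem_toFinset]; exact ⟨hne, h𝔮⟩)

/-- **(SEP)** A reduced ring which is finite free over `ℤ` has its `p`-adic topology induced by
finitely many ring homs into complete discrete valuation rings of characteristic `0` with finite
residue fields (the completions of the rings of integers of its residue number fields at the
primes above `p`). -/
theorem exists_sep_family (R : Type) [CommRing R] [Module.Finite ℤ R] [Module.Free ℤ R]
    [IsReduced R] (p : ℕ) [hp : Fact p.Prime] :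
    ∃ (J : Type) (_ : Fintype J) (𝒪 : J → Type) (_ : ∀ j, CommRing (𝒪 j))
      (_ : ∀ j, IsDomain (𝒪 j)) (_ : ∀ j, IsDiscreteValuationRing (𝒪 j))
      (_ : ∀ j, IsAdicComplete (maximalIdeal (𝒪 j)) (𝒪 j))
      (_ : ∀ j, Finite (ResidueField (𝒪 j))) (_ : ∀ j, CharZero (𝒪 j))
      (χ : ∀ j, R →+* 𝒪 j),
      (∀ j, (p : 𝒪 j) ∈ maximalIdeal (𝒪 j)) ∧
      ∃ c : ℕ, ∀ (m : ℕ) (r : R), (∀ j, (p : 𝒪 j) ^ m ∣ χ j r) → (p : R) ^ (m - c) ∣ r := by
  classical
  haveI : IsNoetherianRing R :=
    isNoetherian_of_tower ℤ (isNoetherian_of_isNoetherianRing_of_finite ℤ R)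
  have hfin : (minimalPrimes R).Finite := minimalPrimes.finite_of_isNoetherianRing R
  haveI : Fintype ↥(minimalPrimes R) := hfin.fintype
  choose K hField hNF φ hker hsurj using
    fun i : ↥(minimalPrimes R) => exists_numberField_of_minimalPrime i.1 i.2
  letI : ∀ i, Field (K i) := hField
  haveI : ∀ i, NumberField (K i) := hNF
  -- joint injectivity
  have hinj : ∀ r : R, (∀ i, φ i r = 0) → r = 0 := by
    intro r hr
    have h1 : r ∈ sInf (minimalPrimes R) := by
      rw [Ideal.mem_sInf]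
      intro 𝔮 h𝔮
      have h := hker ⟨𝔮, h𝔮⟩
      change RingHom.ker (φ ⟨𝔮, h𝔮⟩) = 𝔮 at h
      rw [← h, RingHom.mem_ker]
      exact hr ⟨𝔮, h𝔮⟩
    have h2 : sInf (minimalPrimes R) = (⊥ : Ideal R) := by
      rw [minimalPrimes, Ideal.sInf_minimalPrimes]
      exact nilradical_eq_zero R
    rw [h2] at h1
    exact h1
  -- local surjectivity up to integers
  have hloc : ∀ (i : ↥(minimalPrimes R)) (y : 𝓞 (K i)), ∃ (s : R) (n : ℤ), n ≠ 0 ∧
      φ i s = n • y ∧ ∀ j, j ≠ i → φ j s = 0 := by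
    intro i y
    obtain ⟨t, hti, htj⟩ := exists_mem_others_notMem i.2
    have hφt : φ i t ≠ 0 := by
      intro h0
      apply hti
      rw [← hker i, RingHom.mem_ker]
      exact h0
    obtain ⟨u, n₁, hn₁, hu⟩ := exists_mul_eq_intCast hφt (RingOfIntegers.isIntegral (φ i t))
    obtain ⟨u', n₂, hn₂, hu'⟩ := hsurj i u
    obtain ⟨a, n₃, hn₃, ha⟩ := hsurj i y
    refine ⟨t * u' * a, n₂ * n₁ * n₃, mul_ne_zero (mul_ne_zero hn₂ hn₁) hn₃, ?_, ?_⟩
    · rw [map_mul, map_mul, hu', ha, zsmul_eq_mul, zsmul_eq_mul, zsmul_eq_mul]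
      push_cast
      linear_combination ((n₂ : 𝓞 (K i)) * (n₃ : 𝓞 (K i)) * y) * hu
    · intro j hj
      have htj' : t ∈ RingHom.ker (φ j) := by
        rw [hker j]
        exact htj j.1 j.2 (fun h => hj (Subtype.ext h))
      rw [map_mul, map_mul, (RingHom.mem_ker).mp htj', zero_mul, zero_mul]
  obtain ⟨d, hd, hcond⟩ := exists_conductor (fun i => 𝓞 (K i)) φ hloc
  obtain ⟨c, hc⟩ := sep_of_conductor (fun i => 𝓞 (K i)) φ hinj d hd hcond p hp.out
  -- the primes above `p`
  have hpK : ∀ i, ((p : ℕ) : 𝓞 (K i)) ≠ 0 := fun i => by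
    exact_mod_cast hp.out.ne_zero
  have hfinv : ∀ i, {v : HeightOneSpectrum (𝓞 (K i)) | ((p : ℕ) : 𝓞 (K i)) ∈ v.asIdeal}.Finite := by
    intro i
    have h1 : Ideal.span {((p : ℕ) : 𝓞 (K i))} ≠ 0 := by
      rw [Ne, Ideal.zero_eq_bot, Ideal.span_singleton_eq_bot]
      exact hpK i
    refine (Ideal.finite_factors h1).subset ?_
    intro v hv
    rw [Set.mem_setOf_eq, Ideal.dvd_iff_le, Ideal.span_singleton_le_iff_mem]
    exact hv
  haveI : ∀ i, Fintype ↥{v : HeightOneSpectrum (𝓞 (K i)) | ((p : ℕ) : 𝓞 (K i)) ∈ v.asIdeal} :=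
    fun i => (hfinv i).fintype
  refine ⟨Σ i : ↥(minimalPrimes R),
      ↥{v : HeightOneSpectrum (𝓞 (K i)) | ((p : ℕ) : 𝓞 (K i)) ∈ v.asIdeal},
    inferInstance, fun j => (j.2.1).adicCompletionIntegers (K j.1),
    fun j => inferInstance, fun j => inferInstance, fun j => inferInstance,
    fun j => isAdicComplete (K j.1) j.2.1, ?_, fun j => charZero (K j.1) j.2.1,
    fun j => (algebraMap (𝓞 (K j.1)) ((j.2.1).adicCompletionIntegers (K j.1))).comp (φ j.1),
    ?_, c, ?_⟩
  · intro j
    haveI : Finite (𝓞 (K j.1) ⧸ (j.2.1).asIdeal) :=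
      Ideal.finiteQuotientOfFreeOfNeBot _ (j.2.1).ne_bot
    exact finite_residueField (K j.1) j.2.1
  · intro j
    have h1 : ((p : ℕ) : (j.2.1).adicCompletionIntegers (K j.1)) =
        algebraMap (𝓞 (K j.1)) ((j.2.1).adicCompletionIntegers (K j.1)) ((p : ℕ) : 𝓞 (K j.1)) := by
      rw [map_natCast]
    rw [h1, algebraMap_mem_maximalIdeal_iff]
    exact j.2.2
  · intro m r hr
    apply hc m r
    intro i
    apply dvd_of_forall_completion (K i) _ _ (pow_ne_zero m (hpK i))
    intro v hv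
    have hpv : ((p : ℕ) : 𝓞 (K i)) ∈ v.asIdeal := v.isPrime.mem_of_pow_mem m hv
    have h2 := hr ⟨i, ⟨v, hpv⟩⟩
    rw [map_pow, map_natCast]
    exact h2

end Family

/-! ### Part 5: descent of divisibility along an extension of valuation rings -/

/-- Divisibility descends along an injective local homomorphism from a valuation ring to a
domain. -/
theorem dvd_of_algebraMap_dvd {A B : Type*} [CommRing A] [IsDomain A] [ValuationRing A]
    [IsLocalRing A] [CommRing B] [IsDomain B] [Algebra A B] [IsLocalHom (algebraMap A B)]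
    (hinj : Function.Injective (algebraMap A B)) {a x : A}
    (h : algebraMap A B a ∣ algebraMap A B x) : a ∣ x := by
  rcases ValuationRing.dvd_total a x with h1 | ⟨u, hu⟩
  · exact h1
  · by_cases ha : a = 0
    · obtain ⟨y, hy⟩ := h
      rw [ha, map_zero, zero_mul] at hy
      have hx : x = 0 := hinj (by rw [hy, map_zero])
      rw [ha, hx]
    · obtain ⟨y, hy⟩ := h
      have haB : algebraMap A B a ≠ 0 := fun h0 => ha (hinj (by rw [h0, map_zero]))
      have h2 : algebraMap A B a * (y * algebraMap A B u) = algebraMap A B a * 1 := by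
        rw [mul_one, ← mul_assoc, ← hy, ← map_mul, ← hu]
      have h3 : y * algebraMap A B u = 1 := mul_left_cancel₀ haB h2
      have h4 : IsUnit (algebraMap A B u) := IsUnit.of_mul_eq_one y (by rw [mul_comm]; exact h3)
      have h5 : IsUnit u := isUnit_of_map_unit (algebraMap A B) u h4
      obtain ⟨w, hw⟩ := h5.exists_right_inv
      exact ⟨w, by rw [hu, mul_assoc, hw, mul_one]⟩

/-- the form used with the extension `𝒪' → 𝒪''` of S30. -/
theorem natCast_pow_dvd_of_algebraMap {A B : Type*} [CommRing A] [IsDomain A]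
    [IsDiscreteValuationRing A] [CommRing B] [IsDomain B] [Algebra A B]
    [IsLocalHom (algebraMap A B)] (hinj : Function.Injective (algebraMap A B)) (p m : ℕ) {x : A}
    (h : (p : B) ^ m ∣ algebraMap A B x) : (p : A) ^ m ∣ x := by
  apply dvd_of_algebraMap_dvd hinj
  rw [map_pow, map_natCast]
  exact h

end Fermat.Agent.ES.ALG31.Sep3
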