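/-
Program S31 (plan `S31_PLAN27.md`), abstract core of step (D) (helper15): **TRACE-DENSE**.

Let `ρ : GaloisRepAdic T` have Frobenius characteristic polynomials `X² - π(t ℓ) X + ℓ` (`ℓ ∉ Sbad`)
for a ring homomorphism `π : R → T`, and let `(𝒪 j, χ j, ρ' j)` be a finite family of representations
with the same property for `χ j : R → 𝒪 j`, which *separates* `R` `p`-adically (`hsep`).  If
`ρ' j τ = 1` for all `j`, then `tr ρ (g τ) = tr ρ g` for all `g`.

Proof: Chebotarev in generator form (`ChebQbar23`) approximates `g` and `g τ` by powers of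
Frobenius lifts on a common finite level; Lucas (`Lucas15`) expresses the traces of these powers as
images of elements `r, r' ∈ R`; separation gives `r - r' ∈ p ^ n R`; Krull.
-/
import Mathlib
import Fermat.Prelude.Def_GaloisRep_Adic
import Fermat.Agent.ES.ALG31.Lucas15
import Fermat.Agent.ES.GAL.ChebQbar23

set_option autoImplicit false

noncomputable section

namespace Fermat.Agent.ES.ALG31.TraceDense15

open Polynomial Fermat.Agent.Lib.FrobeniusExists Fermat.Agent.ES.ALG31.Lucas15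

/-! ### Traces of endomorphisms with small image -/

section SmallImage

variable {A : Type*} [CommRing A] {V : Type*} [AddCommGroup V] [Module A V]

theorem repr_mem_of_mem_smul_top {ι : Type*} (b : Module.Basis ι A V) (I : Ideal A) {x : V}
    (hx : x ∈ I • (⊤ : Submodule A V)) (i : ι) : b.repr x i ∈ I := by
  refine Submodule.smul_induction_on (p := fun x => b.repr x i ∈ I) hx ?_ ?_
  · intro a ha w _
    rw [map_smul, Finsupp.smul_apply, smul_eq_mul]
    exact I.mul_mem_right _ ha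
  · intro x y hx hy
    rw [map_add, Finsupp.add_apply]
    exact I.add_mem hx hy

theorem map_mem_smul_top (f : V →ₗ[A] V) (I : Ideal A) {x : V}
    (hx : x ∈ I • (⊤ : Submodule A V)) : f x ∈ I • (⊤ : Submodule A V) := by
  refine Submodule.smul_induction_on (p := fun x => f x ∈ I • (⊤ : Submodule A V)) hx ?_ ?_
  · intro a ha w _
    rw [map_smul]
    exact Submodule.smul_mem_smul ha Submodule.mem_top
  · intro x y hx hy
    rw [map_add]
    exact Submodule.add_mem _ hx hy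

variable [Module.Free A V] [Module.Finite A V]

/-- an endomorphism of a finite free module with image in `I V` has trace in `I`. -/
theorem trace_mem_of_forall_mem_smul_top (I : Ideal A) (f : Module.End A V)
    (hf : ∀ v, f v ∈ I • (⊤ : Submodule A V)) : LinearMap.trace A V f ∈ I := by
  classical
  set b := Module.Free.chooseBasis A V
  rw [LinearMap.trace_eq_matrix_trace A b, Matrix.trace]
  refine I.sum_mem fun i _ => ?_
  rw [Matrix.diag_apply, LinearMap.toMatrix_apply]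
  exact repr_mem_of_mem_smul_top b I (hf _) i

end SmallImage

/-! ### Discrete valuation rings -/

/-- in a discrete valuation ring, a power of the maximal ideal is contained in `(p)` if
`p ≠ 0`. -/
theorem exists_pow_maximalIdeal_le_span {𝒪 : Type*} [CommRing 𝒪] [IsDomain 𝒪]
    [IsDiscreteValuationRing 𝒪] {x : 𝒪} (hx : x ≠ 0) :
    ∃ e : ℕ, IsLocalRing.maximalIdeal 𝒪 ^ e ≤ Ideal.span {x} := by
  obtain ⟨ϖ, hϖ⟩ := IsDiscreteValuationRing.exists_irreducible 𝒪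
  have hne : Ideal.span {x} ≠ ⊥ := by
    rw [Ne, Ideal.span_singleton_eq_bot]
    exact hx
  obtain ⟨e, he⟩ := IsDiscreteValuationRing.ideal_eq_span_pow_irreducible hne hϖ
  refine ⟨e, ?_⟩
  rw [he, hϖ.maximalIdeal_eq, Ideal.span_singleton_pow]

/-! ### One representation -/

section One

variable {T : Type} [CommRing T] [IsLocalRing T] (ρ : GaloisRepAdic T)

/-- if `h` fixes a level-`n` field of `ρ`, then `tr ρ (g h) ≡ tr ρ g` modulo `𝔪 ^ n`. -/
theorem trace_mul_sub_mem {n : ℕ} {L : IntermediateField ℚ Qbar}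
    (hL : ∀ σ : GQ, (∀ x ∈ L, σ x = x) →
      ∀ v : ρ.V, ρ.ρ σ v - v ∈ (IsLocalRing.maximalIdeal T ^ n) • (⊤ : Submodule T ρ.V))
    (g h : GQ) (hh : ∀ x ∈ L, h x = x) :
    LinearMap.trace T ρ.V (ρ.ρ (g * h)) - LinearMap.trace T ρ.V (ρ.ρ g) ∈
      IsLocalRing.maximalIdeal T ^ n := by
  rw [← map_sub]
  apply trace_mem_of_forall_mem_smul_top
  intro v
  rw [map_mul, LinearMap.sub_apply, Module.End.mul_apply, ← map_sub]
  exact map_mem_smul_top _ _ (hL h hh v)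

variable {R : Type*} [CommRing R] (π : R →+* T)

/-- the trace of a power of a Frobenius lift is the image of a Lucas element. -/
theorem trace_pow_frob {ℓ : ℕ} {φ : GQ} (tℓ : R)
    (hcp : (ρ.ρ φ).charpoly = X ^ 2 - C (π tℓ) * X + C ((ℓ : T))) (i : ℕ) :
    LinearMap.trace T ρ.V (ρ.ρ (φ ^ i)) = π (lucasV tℓ (ℓ : R) i) := by
  rw [map_pow, trace_pow_of_charpoly ρ.finrank_eq (ρ.ρ φ) hcp i, map_lucasV, map_natCast]

/-- approximation of `tr ρ g` by the image of a Lucas element. -/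
theorem lucas_sub_trace_mem {ℓ : ℕ} {φ g : GQ} (tℓ : R)
    (hcp : (ρ.ρ φ).charpoly = X ^ 2 - C (π tℓ) * X + C ((ℓ : T))) (i : ℕ)
    {n : ℕ} {L : IntermediateField ℚ Qbar}
    (hL : ∀ σ : GQ, (∀ x ∈ L, σ x = x) →
      ∀ v : ρ.V, ρ.ρ σ v - v ∈ (IsLocalRing.maximalIdeal T ^ n) • (⊤ : Submodule T ρ.V))
    (hfix : ∀ x ∈ L, (g⁻¹ * φ ^ i) x = x) :
    π (lucasV tℓ (ℓ : R) i) - LinearMap.trace T ρ.V (ρ.ρ g) ∈ IsLocalRing.maximalIdeal T ^ n := by
  rw [← trace_pow_frob ρ π tℓ hcp i]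
  have h := trace_mul_sub_mem ρ hL g (g⁻¹ * φ ^ i) hfix
  rwa [mul_inv_cancel_left] at h

end One

/-! ### The main statement -/

section Main

variable {R : Type*} [CommRing R] (p : ℕ) {T : Type} [CommRing T] [IsLocalRing T]
  (ρ : GaloisRepAdic T) (π : R →+* T)

/-- **(D-abs) TRACE-DENSE.** -/
theorem trace_mul_eq_of_family
    (hpT : (p : T) ∈ IsLocalRing.maximalIdeal T)
    (hKrull : ⨅ n : ℕ, IsLocalRing.maximalIdeal T ^ n = ⊥)
    (Sbad : Finset ℕ) (t : ℕ → R)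
    (hρ : ∀ ℓ : ℕ, ℓ.Prime → ℓ ∉ Sbad → ∀ A : ValuationSubring Qbar, A.LiesOverPrime ℓ →
      ∀ φ : GQ, A.IsFrobeniusAt φ ℓ →
        (ρ.ρ φ).charpoly = X ^ 2 - C (π (t ℓ)) * X + C ((ℓ : T)))
    {J : Type*} [Finite J] (𝒪 : J → Type) [∀ j, CommRing (𝒪 j)] [∀ j, IsLocalRing (𝒪 j)]
    (χ : ∀ j, R →+* 𝒪 j) (ρ' : ∀ j, GaloisRepAdic (𝒪 j))
    (hρ' : ∀ j, ∀ ℓ : ℕ, ℓ.Prime → ℓ ∉ Sbad → ∀ A : ValuationSubring Qbar, A.LiesOverPrime ℓ →
      ∀ φ : GQ, A.IsFrobeniusAt φ ℓ →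
        ((ρ' j).ρ φ).charpoly = X ^ 2 - C (χ j (t ℓ)) * X + C ((ℓ : 𝒪 j)))
    (hpe : ∀ j, ∃ e : ℕ, IsLocalRing.maximalIdeal (𝒪 j) ^ e ≤ Ideal.span {(p : 𝒪 j)})
    (hsep : ∃ c : ℕ, ∀ (m : ℕ) (r : R), (∀ j, (p : 𝒪 j) ^ m ∣ χ j r) → (p : R) ^ (m - c) ∣ r)
    (τ : GQ) (hτ : ∀ j, (ρ' j).ρ τ = 1) (g : GQ) :
    LinearMap.trace T ρ.V (ρ.ρ (g * τ)) = LinearMap.trace T ρ.V (ρ.ρ g) := by
  classical
  rw [← sub_eq_zero, ← Ideal.mem_bot, ← hKrull, Ideal.mem_iInf]
  intro n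
  obtain ⟨c, hc⟩ := hsep
  choose e he using hpe
  set m := n + c with hm
  -- levels
  obtain ⟨L0, hL0fd, hL0⟩ := ρ.isAdicContinuous n
  choose L' hL'fd hL' using fun j => (ρ' j).isAdicContinuous (e j * m)
  set L : IntermediateField ℚ Qbar := L0 ⊔ ⨆ j, L' j with hLdef
  have : FiniteDimensional ℚ L0 := hL0fd
  have : ∀ j, FiniteDimensional ℚ (L' j) := hL'fd
  have : FiniteDimensional ℚ (⨆ j, L' j : IntermediateField ℚ Qbar) :=
    IntermediateField.finiteDimensional_iSup_of_finite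
  have : FiniteDimensional ℚ L := IntermediateField.finiteDimensional_sup _ _
  have hL0L : L0 ≤ L := le_sup_left
  have hL'L : ∀ j, L' j ≤ L := fun j => (le_iSup L' j).trans le_sup_right
  -- Chebotarev, twice
  obtain ⟨ℓ, A, φ, i, hℓ, hℓS, hA, hφ, hfix⟩ :=
    Fermat.Agent.ES.GAL.ChebQbar23.exists_frobenius_inv_mul_pow_fixes L g Sbad
  obtain ⟨ℓ', A', φ', i', hℓ', hℓS', hA', hφ', hfix'⟩ :=
    Fermat.Agent.ES.GAL.ChebQbar23.exists_frobenius_inv_mul_pow_fixes L (g * τ) Sbad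
  set r : R := lucasV (t ℓ) (ℓ : R) i with hr
  set r' : R := lucasV (t ℓ') (ℓ' : R) i' with hr'
  -- approximation over `T`
  have h1 : π r - LinearMap.trace T ρ.V (ρ.ρ g) ∈ IsLocalRing.maximalIdeal T ^ n :=
    lucas_sub_trace_mem ρ π (t ℓ) (hρ ℓ hℓ hℓS A hA φ hφ) i hL0
      (fun x hx => hfix x (hL0L hx))
  have h1' : π r' - LinearMap.trace T ρ.V (ρ.ρ (g * τ)) ∈ IsLocalRing.maximalIdeal T ^ n :=
    lucas_sub_trace_mem ρ π (t ℓ') (hρ ℓ' hℓ' hℓS' A' hA' φ' hφ') i' hL0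
      (fun x hx => hfix' x (hL0L hx))
  -- approximation over the `𝒪 j`
  have h2 : ∀ j, (p : 𝒪 j) ^ m ∣ χ j (r - r') := by
    intro j
    have ha : χ j r - LinearMap.trace (𝒪 j) (ρ' j).V ((ρ' j).ρ g) ∈
        IsLocalRing.maximalIdeal (𝒪 j) ^ (e j * m) :=
      lucas_sub_trace_mem (ρ' j) (χ j) (t ℓ) (hρ' j ℓ hℓ hℓS A hA φ hφ) i (hL' j)
        (fun x hx => hfix x (hL'L j hx))
    have hb : χ j r' - LinearMap.trace (𝒪 j) (ρ' j).V ((ρ' j).ρ (g * τ)) ∈
        IsLocalRing.maximalIdeal (𝒪 j) ^ (e j * m) :=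
      lucas_sub_trace_mem (ρ' j) (χ j) (t ℓ') (hρ' j ℓ' hℓ' hℓS' A' hA' φ' hφ') i' (hL' j)
        (fun x hx => hfix' x (hL'L j hx))
    have hgτ : (ρ' j).ρ (g * τ) = (ρ' j).ρ g := by rw [map_mul, hτ j, mul_one]
    rw [hgτ] at hb
    have hsub : χ j (r - r') ∈ IsLocalRing.maximalIdeal (𝒪 j) ^ (e j * m) := by
      have := Ideal.sub_mem _ ha hb
      rwa [sub_sub_sub_cancel_right, ← map_sub] at this
    have hle : IsLocalRing.maximalIdeal (𝒪 j) ^ (e j * m) ≤ Ideal.span {(p : 𝒪 j) ^ m} := by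
      rw [pow_mul, ← Ideal.span_singleton_pow]
      exact Ideal.pow_right_mono (he j) m
    exact Ideal.mem_span_singleton.mp (hle hsub)
  -- separation
  obtain ⟨s, hs⟩ := hc m (r - r') h2
  have hmc : m - c = n := by omega
  rw [hmc] at hs
  have h3 : π r - π r' ∈ IsLocalRing.maximalIdeal T ^ n := by
    rw [← map_sub, hs, map_mul, map_pow, map_natCast]
    exact Ideal.mul_mem_right _ _ (Ideal.pow_mem_pow hpT n)
  -- conclusion
  have h4 : LinearMap.trace T ρ.V (ρ.ρ (g * τ)) - LinearMap.trace T ρ.V (ρ.ρ g) =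
      (π r - LinearMap.trace T ρ.V (ρ.ρ g)) - (π r' - LinearMap.trace T ρ.V (ρ.ρ (g * τ))) -
        (π r - π r') := by ring
  rw [h4]
  exact Ideal.sub_mem _ (Ideal.sub_mem _ h1 h1') h3

end Main

end Fermat.Agent.ES.ALG31.TraceDense15
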