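/-
Program S31 (plan `S31_PLAN27.md`), steps (B)+(D), instantiated (helper15): **the trace of a
Hecke–Galois datum is invariant under inertia at `q ∉ S`**, from

* `h30 : Skeleton4.S30Stmt` (the literal statement S30),
* a *separating family* of complete discrete valuation rings for `R := heckeAlgebra N 2 ↑S`
  (`SepFamily R p`, the output shape of chapter (SEP); it exists as soon as `R` is reduced).

The family of representations fed to `TraceDense15.trace_mul_eq_of_family` lives over the extensions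
`𝒪''_j` produced by S30, so that no ramification index bookkeeping is needed: divisibility by
`p ^ m` descends along injective local homomorphisms of discrete valuation rings
(`dvd_of_algebraMap_dvd`).
-/
import Mathlib
import Fermat.Prelude.Def_CuspForm_HeckeGaloisRepDatum
import Fermat.Agent.ES.ALG31.TraceDense15
import Fermat.Agent.ES.J7.Skeleton4

set_option autoImplicit false

noncomputable section

namespace Fermat.Agent.ES.ALG31.TraceInertia15

open Polynomial CuspForm Fermat.Agent.Lib.FrobeniusExists Fermat.Agent.ES.ALG31.TraceDense15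
  Fermat.Agent.ES.J7.Skeleton4

/-! ### Descent of divisibility -/

/-- divisibility descends along an injective local homomorphism of valuation rings. -/
theorem dvd_of_algebraMap_dvd {A B : Type*} [CommRing A] [IsDomain A] [ValuationRing A]
    [CommRing B] [IsDomain B] [Algebra A B] [IsLocalHom (algebraMap A B)]
    (hinj : Function.Injective (algebraMap A B)) {a x : A}
    (h : algebraMap A B a ∣ algebraMap A B x) : a ∣ x := by
  rcases ValuationRing.dvd_total a x with h1 | ⟨y, hy⟩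
  · exact h1
  · -- `a = x * y`
    by_cases hx : x = 0
    · rw [hx]; exact dvd_zero a
    by_cases hyu : IsUnit y
    · obtain ⟨u, rfl⟩ := hyu
      exact ⟨(u⁻¹ : Aˣ), by rw [hy, mul_assoc, Units.mul_inv, mul_one]⟩
    · exfalso
      obtain ⟨b, hb⟩ := h
      have hx' : algebraMap A B x ≠ 0 := fun h0 => hx (hinj (h0.trans (map_zero _).symm))
      rw [hy, map_mul, mul_assoc] at hb
      have h1 : algebraMap A B y * b = 1 := by
        have := mul_left_cancel₀ hx' (hb.symm.trans (mul_one _).symm)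
        exact this
      have hu : IsUnit (algebraMap A B y) := IsUnit.of_mul_eq_one _ h1
      exact hyu (isUnit_of_map_unit (algebraMap A B) y hu)

/-! ### The contract of chapter (SEP) -/

/-- **(SEP)**, output shape: a finite family of complete discrete valuation rings of characteristic
zero with finite residue fields and residue characteristic `p`, with characters `χ j : R → 𝒪 j` that
separate `R` `p`-adically. -/
def SepFamily (R : Type*) [CommRing R] (p : ℕ) : Prop :=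
  ∃ (J : Type) (_ : Fintype J) (𝒪 : J → Type) (_ : ∀ j, CommRing (𝒪 j)) (_ : ∀ j, IsDomain (𝒪 j))
    (_ : ∀ j, IsDiscreteValuationRing (𝒪 j))
    (_ : ∀ j, IsAdicComplete (IsLocalRing.maximalIdeal (𝒪 j)) (𝒪 j))
    (_ : ∀ j, Finite (IsLocalRing.ResidueField (𝒪 j))) (_ : ∀ j, CharZero (𝒪 j))
    (χ : ∀ j, R →+* 𝒪 j),
    (∀ j, (p : 𝒪 j) ∈ IsLocalRing.maximalIdeal (𝒪 j)) ∧
      ∃ c : ℕ, ∀ (m : ℕ) (r : R), (∀ j, (p : 𝒪 j) ^ m ∣ χ j r) → (p : R) ^ (m - c) ∣ r

/-! ### The Hecke operators as a function of `ℓ` -/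

section

variable {N : ℕ} [NeZero N] {S : Finset ℕ}

/-- `T_ℓ` for good `ℓ`, `0` otherwise. -/
def tOf (N : ℕ) [NeZero N] (S : Finset ℕ) (ℓ : ℕ) : heckeAlgebra N 2 (↑S : Set ℕ) :=
  if h : ℓ.Prime ∧ ¬ ℓ ∣ N ∧ ℓ ∉ (↑S : Set ℕ) then heckeAlgebra.T h.1 h.2.1 h.2.2 else 0

theorem tOf_eq {ℓ : ℕ} (hℓ : ℓ.Prime) (hℓN : ¬ ℓ ∣ N) (hℓS : ℓ ∉ (↑S : Set ℕ)) :
    tOf N S ℓ = heckeAlgebra.T hℓ hℓN hℓS := by
  unfold tOf
  rw [dif_pos ⟨hℓ, hℓN, hℓS⟩]

end

/-! ### The main statement -/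

variable {p : ℕ} {N : ℕ} [NeZero N] {S : Finset ℕ}
  {𝒪 : Type} [CommRing 𝒪] [IsDomain 𝒪] [IsDiscreteValuationRing 𝒪]
  [IsAdicComplete (IsLocalRing.maximalIdeal 𝒪) 𝒪]
  {θ : CuspForm.heckeAlgebra N 2 (↑S : Set ℕ) →+* IsLocalRing.ResidueField 𝒪}
  {T : Type} [CommRing T] [IsLocalRing T] [IsNoetherianRing T]
  [IsAdicComplete (IsLocalRing.maximalIdeal T) T] [Algebra 𝒪 T] [IsLocalHom (algebraMap 𝒪 T)]
  [Module.Finite 𝒪 T] [Module.Free 𝒪 T]

/-- **(B)+(D)**: the trace of `H.ρ` is invariant under right multiplication by elements `τ` on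
which all the S30 representations of a separating family are trivial — in particular by inertia at
`q ∉ S`. -/
theorem trace_mul_inertia (h30 : S30Stmt) (hp : p.Prime)
    (hp𝒪 : (p : 𝒪) ∈ IsLocalRing.maximalIdeal 𝒪) (hpS : p ∈ S)
    (hNS : ∀ q : ℕ, q.Prime → q ∣ N → q ∈ S)
    (hsep : SepFamily (heckeAlgebra N 2 (↑S : Set ℕ)) p)
    (H : CuspForm.HeckeGaloisRepDatum N (↑S : Set ℕ) 𝒪 θ T)
    (q : ℕ) (hq : q.Prime) (hqS : q ∉ S)
    (P : ValuationSubring Qbar) (hP : P.LiesOverPrime q) (τ : GQ)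
    (hτ : τ ∈ P.inertiaSubgroupIn ℚ) (g : GQ) :
    LinearMap.trace T H.ρ.V (H.ρ.ρ (g * τ)) = LinearMap.trace T H.ρ.V (H.ρ.ρ g) := by
  classical
  have : Fact p.Prime := ⟨hp⟩
  obtain ⟨J, iJ, 𝒪j, i1, i2, i3, i4, i5, i6, χj, hpj, hsepj⟩ := hsep
  -- S30 for every member of the family
  choose 𝒪'' k1 k2 k3 k4 k5 k6 k7 k8 k9 hinj ρ' hρ' hunr using fun j =>
    h30 p N S hpS hNS (𝒪j j) (hpj j) (χj j)
  -- good primes
  have hgood : ∀ ℓ : ℕ, ℓ.Prime → ℓ ∉ S → ¬ ℓ ∣ N ∧ ℓ ∉ (↑S : Set ℕ) :=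
    fun ℓ hℓ hℓS => ⟨fun hd => hℓS (hNS ℓ hℓ hd), fun h => hℓS (Finset.mem_coe.mp h)⟩
  have hqN : ¬ q ∣ N := (hgood q hq hqS).1
  have hqp : q ≠ p := fun h => hqS (h ▸ hpS)
  -- `p ∈ 𝔪_T`
  have hpT : (p : T) ∈ IsLocalRing.maximalIdeal T := by
    rw [IsLocalRing.mem_maximalIdeal, mem_nonunits_iff]
    intro hu
    have h1 : IsUnit (algebraMap 𝒪 T (p : 𝒪)) := by rwa [map_natCast]
    have h2 : IsUnit (p : 𝒪) := isUnit_of_map_unit (algebraMap 𝒪 T) _ h1
    exact (IsLocalRing.mem_maximalIdeal _).mp hp𝒪 h2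
  have hKrull : ⨅ n : ℕ, IsLocalRing.maximalIdeal T ^ n = ⊥ :=
    Ideal.iInf_pow_eq_bot_of_isLocalRing _ Ideal.IsPrime.ne_top'
  refine trace_mul_eq_of_family (R := heckeAlgebra N 2 (↑S : Set ℕ)) p H.ρ H.π hpT hKrull S
    (tOf N S) ?_ (J := J) 𝒪''
    (fun j => (algebraMap (𝒪j j) (𝒪'' j)).comp (χj j)) ρ' ?_ ?_ ?_ τ ?_ g
  · -- Frobenius characteristic polynomials of `H.ρ`
    intro ℓ hℓ hℓS A hA φ hφ
    obtain ⟨hℓN, hℓS'⟩ := hgood ℓ hℓ hℓS
    rw [tOf_eq hℓ hℓN hℓS']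
    exact H.charpoly_frob ℓ hℓ hℓN hℓS' A hA φ hφ
  · -- Frobenius characteristic polynomials of the family
    intro j ℓ hℓ hℓS A hA φ hφ
    obtain ⟨hℓN, hℓS'⟩ := hgood ℓ hℓ hℓS
    rw [tOf_eq hℓ hℓN hℓS']
    exact hρ' j ℓ hℓ hℓN hℓS' A hA φ hφ
  · -- powers of the maximal ideals
    intro j
    exact exists_pow_maximalIdeal_le_span (Nat.cast_ne_zero.mpr hp.ne_zero)
  · -- separation
    obtain ⟨c, hc⟩ := hsepj
    refine ⟨c, fun m r hr => hc m r fun j => ?_⟩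
    have h := hr j
    rw [RingHom.comp_apply, ← map_natCast (algebraMap (𝒪j j) (𝒪'' j)), ← map_pow] at h
    exact dvd_of_algebraMap_dvd (hinj j) h
  · -- triviality on inertia
    intro j
    exact hunr j q hq hqN hqp P hP τ hτ

/-- the same with `τ` on the left. -/
theorem trace_inertia_mul (h30 : S30Stmt) (hp : p.Prime)
    (hp𝒪 : (p : 𝒪) ∈ IsLocalRing.maximalIdeal 𝒪) (hpS : p ∈ S)
    (hNS : ∀ q : ℕ, q.Prime → q ∣ N → q ∈ S)
    (hsep : SepFamily (heckeAlgebra N 2 (↑S : Set ℕ)) p)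
    (H : CuspForm.HeckeGaloisRepDatum N (↑S : Set ℕ) 𝒪 θ T)
    (q : ℕ) (hq : q.Prime) (hqS : q ∉ S)
    (P : ValuationSubring Qbar) (hP : P.LiesOverPrime q) (τ : GQ)
    (hτ : τ ∈ P.inertiaSubgroupIn ℚ) (g : GQ) :
    LinearMap.trace T H.ρ.V (H.ρ.ρ (τ * g)) = LinearMap.trace T H.ρ.V (H.ρ.ρ g) := by
  rw [map_mul, LinearMap.trace_mul_comm, ← map_mul]
  exact trace_mul_inertia h30 hp hp𝒪 hpS hNS hsep H q hq hqS P hP τ hτ g

end Fermat.Agent.ES.ALG31.TraceInertia15
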