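/-
Program S31 (plan `S31_PLAN27.md`), step (L5) contract-first assembly (helper15):
**S31 from S30 and the reducedness of the anemic Hecke algebra** (chapter PET).

`s31_of_reduced : Skeleton4.S30Stmt → IsReduced (heckeAlgebra N 2 ↑S) → <the literal statement S31>`.

Inputs on main: `Sep3.exists_sep_family` (helper3), `TraceInertia15.trace_mul_inertia` (helper15;
Chebotarev + Lucas + separation), `TraceRigid13.eq_one_of_trace_mul_eq` (helper13; Burnside in
dimension two + Nakayama + trace pairing), `Fermat.Agent.S22.result` (finiteness over `ℤ`).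
-/
import Mathlib
import Fermat.Agent.ES.ALG31.TraceInertia15
import Fermat.Agent.ES.ALG31.TraceRigid13
import Fermat.Agent.ES.ALG31.Sep3
import Fermat.Agent.S22

set_option autoImplicit false

noncomputable section

namespace Fermat.Agent.ES.ALG31.S31OfReduced15

open CuspForm Fermat.Agent.Lib.FrobeniusExists Fermat.Agent.ES.J7.Skeleton4
  Fermat.Agent.ES.ALG31.TraceInertia15

variable {N : ℕ} [NeZero N]

/-- the Hecke algebra is a free `ℤ`-module (finitely generated by S22, torsion-free). -/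
theorem free_heckeAlgebra (S : Set ℕ) : Module.Free ℤ (heckeAlgebra N 2 S) := by
  have : Module.Finite ℤ (heckeAlgebra N 2 S) := Fermat.Agent.S22.result N 2 S
  infer_instance

/-- **(SEP)** for the anemic Hecke algebra, from reducedness. -/
theorem sepFamily_heckeAlgebra (S : Set ℕ) (hred : IsReduced (heckeAlgebra N 2 S))
    (p : ℕ) (hp : p.Prime) : SepFamily (heckeAlgebra N 2 S) p := by
  have : Module.Finite ℤ (heckeAlgebra N 2 S) := Fermat.Agent.S22.result N 2 S
  have : Module.Free ℤ (heckeAlgebra N 2 S) := free_heckeAlgebra S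
  have : Fact p.Prime := ⟨hp⟩
  exact Fermat.Agent.ES.ALG31.Sep3.exists_sep_family (heckeAlgebra N 2 S) p

variable {p : ℕ} {S : Finset ℕ}
  {𝒪 : Type} [CommRing 𝒪] [IsDomain 𝒪] [IsDiscreteValuationRing 𝒪]
  [IsAdicComplete (IsLocalRing.maximalIdeal 𝒪) 𝒪]
  {θ : CuspForm.heckeAlgebra N 2 (↑S : Set ℕ) →+* IsLocalRing.ResidueField 𝒪}
  {T : Type} [CommRing T] [IsLocalRing T] [IsNoetherianRing T]
  [IsAdicComplete (IsLocalRing.maximalIdeal T) T] [Algebra 𝒪 T] [IsLocalHom (algebraMap 𝒪 T)]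
  [Module.Finite 𝒪 T] [Module.Free 𝒪 T]

/-- **S31 from S30 and (PET)**. -/
theorem s31_of_reduced (h30 : S30Stmt)
    (hred : IsReduced (heckeAlgebra N 2 (↑S : Set ℕ)))
    (hp : p.Prime)
    (hp𝒪 : (p : 𝒪) ∈ IsLocalRing.maximalIdeal 𝒪) (hpS : p ∈ S)
    (hNS : ∀ q : ℕ, q.Prime → q ∣ N → q ∈ S)
    (H : CuspForm.HeckeGaloisRepDatum N (↑S : Set ℕ) 𝒪 θ T)
    (q : ℕ) (hq : q.Prime) (hqS : q ∉ S) :
    H.ρ.IsUnramifiedAt q := by
  intro P hP τ hτ
  exact Fermat.Agent.ES.ALG31.TraceRigid13.eq_one_of_trace_mul_eq H.ρ H.residual_absIrr τ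
    (trace_mul_inertia h30 hp hp𝒪 hpS hNS (sepFamily_heckeAlgebra _ hred p hp) H q hq hqS P hP τ hτ)

end Fermat.Agent.ES.ALG31.S31OfReduced15
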