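/-
Program K (S31), direct route of helper12, two Mathlib-only leaves (helper25).

(a) `exists_sat` — **saturation up to a bounded defect** (Artin–Rees over `ℤ`): for an injective additive
    map `f : R → E` into a finitely generated abelian group and `p : ℕ` there is `c` such that
    `f r ∈ p ^ m E` implies `r ∈ p ^ (m - c) R`.
(e) `exists_of_isBaseChange` — **`p`-divisibility descends along `ℤ → ℤ_p`**: if `ι₀ : Λ → M` is a base
    change `ℤ → ℤ_[p]` of a finite free `Λ` and `ι₀ y ∈ p ^ m M` then `y ∈ p ^ m Λ`.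
-/
import Mathlib

set_option autoImplicit false

open scoped TensorProduct

namespace Fermat.Agent.ES.ALG31.Sat25

/-! ### (a) Artin–Rees over `ℤ` -/

/-- **(a)** For an injective additive map into a finitely generated abelian group, divisibility by
`p ^ m` of the image implies divisibility by `p ^ (m - c)` of the source, `c` independent of `m`. -/
theorem exists_sat {R E : Type*} [AddCommGroup R] [AddCommGroup E] [Module.Finite ℤ E]
    (f : R →+ E) (hf : Function.Injective f) (p : ℕ) :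
    ∃ c : ℕ, ∀ (m : ℕ) (r : R) (e : E), f r = p ^ m • e → ∃ r' : R, r = p ^ (m - c) • r' := by
  set I : Ideal ℤ := Ideal.span {(p : ℤ)} with hI
  set Nf : Submodule ℤ E := LinearMap.range f.toIntLinearMap with hNf
  obtain ⟨c, hc⟩ := Ideal.exists_pow_inf_eq_pow_smul I Nf
  refine ⟨c, fun m r e hre => ?_⟩
  rcases Nat.lt_or_ge m c with hmc | hmc
  · refine ⟨r, ?_⟩
    rw [Nat.sub_eq_zero_of_le hmc.le, pow_zero, one_smul]
  · have hpow : ∀ n : ℕ, I ^ n = Ideal.span {((p : ℤ)) ^ n} := fun n => by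
      rw [hI, Ideal.span_singleton_pow]
    have h1 : f r ∈ I ^ m • (⊤ : Submodule ℤ E) ⊓ Nf := by
      refine ⟨?_, ⟨r, rfl⟩⟩
      rw [hre, hpow, Submodule.ideal_span_singleton_smul]
      refine ⟨e, Submodule.mem_top, ?_⟩
      show ((p : ℤ) ^ m) • e = p ^ m • e
      rw [← Nat.cast_pow, natCast_zsmul]
    rw [hc m hmc] at h1
    have h2 : f r ∈ I ^ (m - c) • Nf :=
      Submodule.smul_mono le_rfl inf_le_right h1
    rw [hpow, Submodule.ideal_span_singleton_smul] at h2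
    obtain ⟨x, ⟨r', rfl⟩, hx⟩ := h2
    refine ⟨r', hf ?_⟩
    have hx' : ((p : ℤ) ^ (m - c)) • f r' = f r := hx
    rw [map_nsmul, ← hx', ← Nat.cast_pow, natCast_zsmul]

/-- **(a), endomorphism form.**  `Λ` finite free over `ℤ`, `h : R → End_ℤ Λ` additive and injective:
if `h r` maps `Λ` into `p ^ m Λ` then `r ∈ p ^ (m - c) R`, with `c` independent of `m` and `r`. -/
theorem exists_sat_end {R Λ : Type*} [AddCommGroup R] [AddCommGroup Λ] [Module.Free ℤ Λ]
    [Module.Finite ℤ Λ] (h : R →+ Module.End ℤ Λ) (hh : Function.Injective h) (p : ℕ) :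
    ∃ c : ℕ, ∀ (m : ℕ) (r : R), (∀ x : Λ, ∃ y : Λ, h r x = p ^ m • y) →
      ∃ r' : R, r = p ^ (m - c) • r' := by
  classical
  obtain ⟨c, hc⟩ := exists_sat h hh p
  refine ⟨c, fun m r hr => ?_⟩
  let b : Module.Basis (Module.Free.ChooseBasisIndex ℤ Λ) ℤ Λ := Module.Free.chooseBasis ℤ Λ
  choose y hy using fun i => hr (b i)
  refine hc m r (b.constr ℤ y) ?_
  refine b.ext fun i => ?_
  rw [hy i, LinearMap.smul_apply, Module.Basis.constr_basis]

/-! ### (e) `p`-divisibility descends along `ℤ → ℤ_p` -/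

/-- **(e)** If `ι₀ : Λ → M` exhibits `M` as the base change `ℤ_[p] ⊗ Λ` of a finite free `ℤ`-module and
`ι₀ y ∈ p ^ m M`, then `y ∈ p ^ m Λ`. -/
theorem exists_of_isBaseChange {p : ℕ} [Fact p.Prime] {Λ M : Type*} [AddCommGroup Λ]
    [Module.Free ℤ Λ] [Module.Finite ℤ Λ] [AddCommGroup M] [Module ℤ_[p] M]
    (ι₀ : Λ →ₗ[ℤ] M) (h : IsBaseChange ℤ_[p] ι₀) (m : ℕ) (y : Λ) (z : M)
    (hyz : ι₀ y = (p : ℤ_[p]) ^ m • z) : ∃ y' : Λ, y = p ^ m • y' := by
  classical
  let b : Module.Basis (Module.Free.ChooseBasisIndex ℤ Λ) ℤ Λ := Module.Free.chooseBasis ℤ Λ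
  let b' : Module.Basis (Module.Free.ChooseBasisIndex ℤ Λ) ℤ_[p] M :=
    (Algebra.TensorProduct.basis ℤ_[p] b).map h.equiv
  have hb' : ∀ i, b' i = ι₀ (b i) := by
    intro i
    show h.equiv (Algebra.TensorProduct.basis ℤ_[p] b i) = ι₀ (b i)
    rw [Algebra.TensorProduct.basis_apply, IsBaseChange.equiv_tmul, one_smul]
  -- the coordinates of `ι₀ y`
  have hy : ι₀ y = ∑ j, ((b.repr y j : ℤ) : ℤ_[p]) • b' j := by
    conv_lhs => rw [← b.sum_repr y]
    rw [map_sum]
    refine Finset.sum_congr rfl fun j _ => ?_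
    rw [map_smul, hb', Int.cast_smul_eq_zsmul]
  have hrepr : ∀ i, ((b.repr y i : ℤ) : ℤ_[p]) = (p : ℤ_[p]) ^ m * b'.repr z i := by
    intro i
    have h1 : b'.repr (ι₀ y) i = ((b.repr y i : ℤ) : ℤ_[p]) := by
      rw [hy, Module.Basis.repr_sum_self]
    rw [← h1, hyz, map_smul, Finsupp.smul_apply, smul_eq_mul]
  have hdvd : ∀ i, ((p : ℤ) ^ m) ∣ b.repr y i := by
    intro i
    rw [← PadicInt.pow_p_dvd_int_iff]
    exact ⟨_, hrepr i⟩
  choose c hc using hdvd
  refine ⟨∑ i, c i • b i, ?_⟩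
  conv_lhs => rw [← b.sum_repr y]
  rw [Finset.smul_sum]
  refine Finset.sum_congr rfl fun i _ => ?_
  rw [hc i, mul_smul, ← Nat.cast_pow, natCast_zsmul]

end Fermat.Agent.ES.ALG31.Sat25
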