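/-
Saturation ("SAT") over `ℤ` by Artin–Rees.

If `f : R →+ E` is an injective additive map into a finitely generated `ℤ`-module `E`, then for
every `p : ℕ` there is a constant `c` such that `f r ∈ p ^ m E` forces `r ∈ p ^ (m - c) R`.
This is the Artin–Rees lemma `Ideal.exists_pow_inf_eq_pow_smul` for the ideal `(p) ⊆ ℤ` and the
submodule `f(R) ⊆ E`, pulled back along the injective `f`.

The `End` form specialises to `E = Module.End ℤ Λ` for a finite free `ℤ`-module `Λ`, where the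
hypothesis "`h r` maps `Λ` into `p ^ m Λ`" is turned into "`h r = p ^ m • e`" by choosing a basis.
-/
import Mathlib

namespace Fermat.Agent.ES.ALG31.Sat3

open Submodule

/-- Membership in `(p)^n • ⊤` for a `ℤ`-module is divisibility by `p ^ n`. -/
theorem mem_span_pow_smul_top_iff {E : Type*} [AddCommGroup E] (p : ℤ) (n : ℕ) (x : E) :
    x ∈ ((Ideal.span {p}) ^ n • (⊤ : Submodule ℤ E)) ↔ ∃ e : E, x = (p ^ n) • e := by
  rw [Ideal.span_singleton_pow, Submodule.ideal_span_singleton_smul,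
    Submodule.mem_smul_pointwise_iff_exists]
  constructor
  · rintro ⟨e, -, rfl⟩
    exact ⟨e, rfl⟩
  · rintro ⟨e, rfl⟩
    exact ⟨e, Submodule.mem_top, rfl⟩

/-- **SAT, `ℤ`-scalar form.**  Artin–Rees for `(p) ⊆ ℤ` pulled back along an injective additive
map into a finitely generated `ℤ`-module. -/
theorem exists_sat_int {R E F : Type*} [AddCommGroup R] [AddCommGroup E] [Module.Finite ℤ E]
    [FunLike F R E] [AddMonoidHomClass F R E] (f : F) (hf : Function.Injective f) (p : ℤ) :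
    ∃ c : ℕ, ∀ (m : ℕ) (r : R) (e : E), f r = (p ^ m) • e →
      ∃ r' : R, r = (p ^ (m - c)) • r' := by
  classical
  set g : R →ₗ[ℤ] E := (f : R →+ E).toIntLinearMap with hg
  have hgf : ∀ r, g r = f r := fun r => rfl
  obtain ⟨c, hc⟩ := Ideal.exists_pow_inf_eq_pow_smul (Ideal.span {p}) (LinearMap.range g)
  refine ⟨c, fun m r e hre => ?_⟩
  rcases le_total m c with hmc | hmc
  · refine ⟨r, ?_⟩
    rw [Nat.sub_eq_zero_of_le hmc, pow_zero, one_smul]
  · have h1 : f r ∈ (Ideal.span {p}) ^ m • (⊤ : Submodule ℤ E) ⊓ LinearMap.range g := by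
      refine ⟨?_, ⟨r, hgf r⟩⟩
      exact (mem_span_pow_smul_top_iff p m (f r)).2 ⟨e, hre⟩
    rw [hc m hmc, Ideal.span_singleton_pow, Submodule.ideal_span_singleton_smul,
      Submodule.mem_smul_pointwise_iff_exists] at h1
    obtain ⟨y, ⟨-, ⟨r', hr'⟩⟩, hy⟩ := h1
    refine ⟨r', hf ?_⟩
    rw [← hy, ← hr', hgf, map_zsmul]

/-- **SAT, `ℕ`-scalar form** (the shape used by the `S31` assembly). -/
theorem exists_sat {R E F : Type*} [AddCommGroup R] [AddCommGroup E] [Module.Finite ℤ E]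
    [FunLike F R E] [AddMonoidHomClass F R E] (f : F) (hf : Function.Injective f) (p : ℕ) :
    ∃ c : ℕ, ∀ (m : ℕ) (r : R) (e : E), f r = (p ^ m) • e →
      ∃ r' : R, r = (p ^ (m - c)) • r' := by
  obtain ⟨c, hc⟩ := exists_sat_int f hf (p : ℤ)
  refine ⟨c, fun m r e hre => ?_⟩
  obtain ⟨r', hr'⟩ := hc m r e (by rw [hre]; exact_mod_cast (natCast_zsmul e (p ^ m)).symm)
  refine ⟨r', ?_⟩
  rw [hr']
  exact_mod_cast natCast_zsmul r' (p ^ (m - c))

/-- In a finite free `ℤ`-module, an endomorphism with image in `n Λ` is `n` times an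
endomorphism. -/
theorem exists_end_eq_smul {Lam : Type*} [AddCommGroup Lam] [Module.Free ℤ Lam]
    (n : ℤ) (φ : Module.End ℤ Lam) (hφ : ∀ x, ∃ y, φ x = n • y) :
    ∃ e : Module.End ℤ Lam, φ = n • e := by
  classical
  let b := Module.Free.chooseBasis ℤ Lam
  choose y hy using hφ
  refine ⟨b.constr ℤ fun i => y (b i), b.ext fun i => ?_⟩
  rw [LinearMap.smul_apply, Module.Basis.constr_basis, hy]

/-- **SAT, `End` form with `ℤ`-scalars.** -/
theorem exists_sat_end_int {R Lam F : Type*} [AddCommGroup R] [AddCommGroup Lam]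
    [Module.Free ℤ Lam] [Module.Finite ℤ Lam]
    [FunLike F R (Module.End ℤ Lam)] [AddMonoidHomClass F R (Module.End ℤ Lam)]
    (h : F) (hh : Function.Injective h) (p : ℤ) :
    ∃ c : ℕ, ∀ (m : ℕ) (r : R), (∀ x : Lam, ∃ y : Lam, h r x = (p ^ m) • y) →
      ∃ r' : R, r = (p ^ (m - c)) • r' := by
  obtain ⟨c, hc⟩ := exists_sat_int h hh p
  refine ⟨c, fun m r hr => ?_⟩
  obtain ⟨e, he⟩ := exists_end_eq_smul (p ^ m) (h r) hr
  exact hc m r e he

/-- **SAT, `End` form with `ℕ`-scalars** (the shape used by the `S31` assembly):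
if `h : R → End_ℤ Λ` is injective and additive, `Λ` finite free over `ℤ`, then there is `c` such
that `h r Λ ⊆ p ^ m Λ` implies `r ∈ p ^ (m - c) R`. -/
theorem exists_sat_end {R Lam F : Type*} [AddCommGroup R] [AddCommGroup Lam]
    [Module.Free ℤ Lam] [Module.Finite ℤ Lam]
    [FunLike F R (Module.End ℤ Lam)] [AddMonoidHomClass F R (Module.End ℤ Lam)]
    (h : F) (hh : Function.Injective h) (p : ℕ) :
    ∃ c : ℕ, ∀ (m : ℕ) (r : R), (∀ x : Lam, ∃ y : Lam, h r x = (p ^ m) • y) →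
      ∃ r' : R, r = (p ^ (m - c)) • r' := by
  obtain ⟨c, hc⟩ := exists_sat_end_int h hh (p : ℤ)
  refine ⟨c, fun m r hr => ?_⟩
  obtain ⟨r', hr'⟩ := hc m r (fun x => by
    obtain ⟨y, hy⟩ := hr x
    exact ⟨y, by rw [hy]; exact_mod_cast (natCast_zsmul y (p ^ m)).symm⟩)
  refine ⟨r', ?_⟩
  rw [hr']
  exact_mod_cast natCast_zsmul r' (p ^ (m - c))

/-- **SAT for a ring `R`** acting faithfully on a finite free `ℤ`-module: the conclusion as
divisibility `(p : R) ^ (m - c) ∣ r`. -/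
theorem exists_sat_end_dvd {R Lam F : Type*} [Ring R] [AddCommGroup Lam]
    [Module.Free ℤ Lam] [Module.Finite ℤ Lam]
    [FunLike F R (Module.End ℤ Lam)] [AddMonoidHomClass F R (Module.End ℤ Lam)]
    (h : F) (hh : Function.Injective h) (p : ℕ) :
    ∃ c : ℕ, ∀ (m : ℕ) (r : R), (∀ x : Lam, ∃ y : Lam, h r x = (p ^ m) • y) →
      ((p : R) ^ (m - c)) ∣ r := by
  obtain ⟨c, hc⟩ := exists_sat_end h hh p
  refine ⟨c, fun m r hr => ?_⟩
  obtain ⟨r', hr'⟩ := hc m r hr
  refine ⟨r', ?_⟩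
  rw [hr', nsmul_eq_mul, Nat.cast_pow]

end Fermat.Agent.ES.ALG31.Sat3
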