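/-
S31, route C, leaf (C-b) (helper13): the `M`-side level on the Tate module `M = TJ p N` of `J₀(N)`.

`W σ := ρ_M(σ) + ε(σ) • ρ_M(σ⁻¹) ∈ End_{ℤ_p}(M)` where `ρ_M = rhoT p N` and `ε = cyclo p` is the
`p`-adic cyclotomic character.

* `W_frobenius`     : `W φ = tT ℓ` for a Frobenius element `φ` at `ℓ ∤ N p` (Eichler–Shimura);
* `W_pow_frobenius` : `W (φ ^ j) = ρ_M(φ) ^ j + ℓ ^ j • ρ_M(φ⁻¹) ^ j`;
* `W_mul_inertia`, `W_inertia_mul` : `W (g τ) = W g = W (τ g)` for `τ` in an inertia group at `q ∤ N p`;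
* `exists_level_W`  : for every `m` there is a finite level `L` such that `W s ≡ W g mod p ^ m`
  (pointwise on `M`) whenever `g⁻¹ * s` fixes `L`;
* `exists_level_W_inertia` : the two combined.

The algebra is done for an abstract pair `(ρ, ε)` (section `Abstract`) and then instantiated.
-/
import Mathlib
import Fermat.Agent.ES.J.TateJZero13
import Fermat.Agent.ES.J.CycloChar8

set_option autoImplicit false
set_option synthInstance.maxHeartbeats 400000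
set_option linter.unusedSectionVars false

noncomputable section

open AlgebraicCurve ModularCurve

namespace Fermat.Agent.ES.ALG31.TateLevelW13

/-! ### abstract algebra -/

section Abstract

variable {R : Type*} [CommRing R] {M : Type*} [AddCommGroup M] [Module R M]
  {G : Type*} [Group G] (ρ : G →* Module.End R M) (ε : G →* Rˣ)

/-- `W σ = ρ(σ) + ε(σ) • ρ(σ⁻¹)`. -/
def Wabs (σ : G) : Module.End R M := ρ σ + (ε σ : R) • ρ σ⁻¹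

theorem Wabs_apply (σ : G) (x : M) : Wabs ρ ε σ x = ρ σ x + (ε σ : R) • ρ σ⁻¹ x := rfl

theorem rho_mul_inv (σ : G) : ρ σ * ρ σ⁻¹ = 1 := by
  rw [← map_mul, mul_inv_cancel, map_one]

theorem rho_inv_mul (σ : G) : ρ σ⁻¹ * ρ σ = 1 := by
  rw [← map_mul, inv_mul_cancel, map_one]

/-- from the quadratic relation `F² − t F + ℓ = 0` to `F + ℓ F⁻¹ = t`. -/
theorem rho_add_smul_inv {φ : G} {t : Module.End R M} {ℓ : R}
    (h : ρ φ * ρ φ - t * ρ φ + ℓ • (1 : Module.End R M) = 0) :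
    ρ φ + ℓ • ρ φ⁻¹ = t := by
  have h2 := congrArg (· * ρ φ⁻¹) h
  simp only [add_mul, sub_mul, zero_mul, mul_assoc, rho_mul_inv, mul_one, smul_mul_assoc,
    one_mul] at h2
  have h3 : ρ φ + ℓ • ρ φ⁻¹ - t = 0 := by
    rw [← h2]; abel
  exact sub_eq_zero.mp h3

theorem Wabs_pow {φ : G} {ℓ : R} (hε : (ε φ : R) = ℓ) (j : ℕ) :
    Wabs ρ ε (φ ^ j) = ρ φ ^ j + ℓ ^ j • ρ φ⁻¹ ^ j := by
  unfold Wabs
  rw [map_pow, map_pow, Units.val_pow_eq_pow_val, hε, ← inv_pow, map_pow]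

theorem Wabs_mul_of_eq_one {τ : G} (h1 : ρ τ = 1) (h2 : ε τ = 1) (g : G) :
    Wabs ρ ε (g * τ) = Wabs ρ ε g := by
  have h1' : ρ τ⁻¹ = 1 := by
    have := rho_inv_mul ρ τ
    rwa [h1, mul_one] at this
  unfold Wabs
  rw [mul_inv_rev, map_mul, map_mul, map_mul, h1, h1', h2, mul_one, mul_one, one_mul]

theorem Wabs_of_eq_one_mul {τ : G} (h1 : ρ τ = 1) (h2 : ε τ = 1) (g : G) :
    Wabs ρ ε (τ * g) = Wabs ρ ε g := by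
  have h1' : ρ τ⁻¹ = 1 := by
    have := rho_inv_mul ρ τ
    rwa [h1, mul_one] at this
  unfold Wabs
  rw [mul_inv_rev, map_mul, map_mul, map_mul, h1, h1', h2, mul_one, one_mul, one_mul]

/-- if `ρ h ≡ 1`, `ρ h⁻¹ ≡ 1` and `ε h ≡ 1` modulo `a`, then `W (g h) ≡ W g` modulo `a`. -/
theorem Wabs_mul_congr (a : R) (g h : G)
    (H1 : ∀ x : M, ∃ y : M, ρ h x - x = a • y)
    (H2 : ∀ x : M, ∃ y : M, ρ h⁻¹ x - x = a • y)
    (hu : ∃ u : R, (ε h : R) - 1 = a * u) (x : M) :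
    ∃ y : M, Wabs ρ ε (g * h) x - Wabs ρ ε g x = a • y := by
  obtain ⟨u, hu⟩ := hu
  obtain ⟨y₁, hy₁⟩ := H1 x
  obtain ⟨y₂, hy₂⟩ := H2 (ρ g⁻¹ x)
  refine ⟨ρ g y₁ + ((ε g : R) * u) • ρ h⁻¹ (ρ g⁻¹ x) + (ε g : R) • y₂, ?_⟩
  have e1 : ρ (g * h) x = ρ g x + a • ρ g y₁ := by
    rw [map_mul, Module.End.mul_apply, ← map_smul, ← hy₁, map_sub, add_sub_cancel]
  have e2 : ρ (g * h)⁻¹ x = ρ h⁻¹ (ρ g⁻¹ x) := by
    rw [mul_inv_rev, map_mul, Module.End.mul_apply]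
  have e3 : ρ h⁻¹ (ρ g⁻¹ x) = ρ g⁻¹ x + a • y₂ := by
    rw [← hy₂, add_sub_cancel]
  have e4 : (ε (g * h) : R) = (ε g : R) + a * ((ε g : R) * u) := by
    rw [map_mul, Units.val_mul]
    have : (ε h : R) = 1 + a * u := by rw [← hu]; ring
    rw [this]; ring
  have e5 : (ε g : R) • ρ h⁻¹ (ρ g⁻¹ x) = (ε g : R) • ρ g⁻¹ x + a • ((ε g : R) • y₂) := by
    rw [e3, smul_add, smul_comm]
  rw [Wabs_apply, Wabs_apply, e1, e2, e4, add_smul, mul_smul, e5, smul_add, smul_add]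
  abel

end Abstract

/-! ### the Tate module of `J₀(N)` -/

open Fermat.Agent.ES.J.TateModule13 Fermat.Agent.ES.J.TateJZero13 Fermat.Agent.ES.J.CycloChar8

/-- `ℚbar`. -/
local notation "Qb" => AlgebraicClosure ℚ

variable (p : ℕ) [hp : Fact p.Prime] (N : ℕ) [NeZero N]

/-- `W σ = ρ_M(σ) + ε(σ) • ρ_M(σ⁻¹)`: the "trace" of `σ` on the Tate module, as an endomorphism. -/
def W (σ : Qb ≃ₐ[ℚ] Qb) : Module.End ℤ_[p] (TJ p N) := Wabs (rhoT p N) (cyclo p) σ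

variable {p N}

theorem W_def (σ : Qb ≃ₐ[ℚ] Qb) :
    W p N σ = rhoT p N σ + (cyclo p σ : ℤ_[p]) • rhoT p N σ⁻¹ := rfl

theorem W_apply (σ : Qb ≃ₐ[ℚ] Qb) (x : TJ p N) :
    W p N σ x = rhoT p N σ x + (cyclo p σ : ℤ_[p]) • rhoT p N σ⁻¹ x := rfl

theorem rhoT_mul_inv (σ : Qb ≃ₐ[ℚ] Qb) : rhoT p N σ * rhoT p N σ⁻¹ = 1 := rho_mul_inv _ σ

theorem rhoT_inv_mul (σ : Qb ≃ₐ[ℚ] Qb) : rhoT p N σ⁻¹ * rhoT p N σ = 1 := rho_inv_mul _ σ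

/-- `ρ_M(φ) + ℓ ρ_M(φ)⁻¹ = T_ℓ` (Eichler–Shimura, divided by `ρ_M(φ)`). -/
theorem rhoT_add_smul_inv {ℓ : ℕ} (hℓ : ℓ.Prime) (hℓN : ¬ ℓ ∣ N) (hℓp : ℓ ≠ p)
    {A : ValuationSubring Qb} (hA : A.LiesOverPrime ℓ) {φ : Qb ≃ₐ[ℚ] Qb}
    (hφ : A.IsFrobeniusAt φ ℓ) :
    rhoT p N φ + (ℓ : ℤ_[p]) • rhoT p N φ⁻¹ = tT p N ⟨ℓ, hℓ⟩ :=
  rho_add_smul_inv (rhoT p N) (rhoT_frobenius (p := p) (N := N) hℓ hℓN hℓp hA hφ)

/-- **`W φ = T_ℓ`** for a Frobenius element at `ℓ ∤ N p`. -/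
theorem W_frobenius {ℓ : ℕ} (hℓ : ℓ.Prime) (hℓN : ¬ ℓ ∣ N) (hℓp : ℓ ≠ p)
    {A : ValuationSubring Qb} (hA : A.LiesOverPrime ℓ) {φ : Qb ≃ₐ[ℚ] Qb}
    (hφ : A.IsFrobeniusAt φ ℓ) : W p N φ = tT p N ⟨ℓ, hℓ⟩ := by
  rw [W_def, cyclo_of_isFrobeniusAt p hℓ hℓp A hA hφ]
  exact rhoT_add_smul_inv hℓ hℓN hℓp hA hφ

/-- **`W (φ ^ j) = ρ_M(φ) ^ j + ℓ ^ j • ρ_M(φ⁻¹) ^ j`** for a Frobenius element at `ℓ ≠ p`. -/
theorem W_pow_frobenius {ℓ : ℕ} (hℓ : ℓ.Prime) (hℓp : ℓ ≠ p)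
    {A : ValuationSubring Qb} (hA : A.LiesOverPrime ℓ) {φ : Qb ≃ₐ[ℚ] Qb}
    (hφ : A.IsFrobeniusAt φ ℓ) (j : ℕ) :
    W p N (φ ^ j) = rhoT p N φ ^ j + (ℓ : ℤ_[p]) ^ j • rhoT p N φ⁻¹ ^ j :=
  Wabs_pow (rhoT p N) (cyclo p) (cyclo_of_isFrobeniusAt p hℓ hℓp A hA hφ) j

/-- **`W (g τ) = W g`** for `τ` in an inertia group at `q ∤ N p`. -/
theorem W_mul_inertia {q : ℕ} (hq : q.Prime) (hqN : ¬ q ∣ N) (hqp : q ≠ p)
    {A : ValuationSubring Qb} (hA : A.LiesOverPrime q) {τ : Qb ≃ₐ[ℚ] Qb}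
    (hτ : τ ∈ A.inertiaSubgroupIn ℚ) (g : Qb ≃ₐ[ℚ] Qb) : W p N (g * τ) = W p N g :=
  Wabs_mul_of_eq_one (rhoT p N) (cyclo p) (rhoT_inertia hq hqN hqp hA hτ)
    (cyclo_of_mem_inertia p hq hqp A hA hτ) g

/-- **`W (τ g) = W g`** for `τ` in an inertia group at `q ∤ N p`. -/
theorem W_inertia_mul {q : ℕ} (hq : q.Prime) (hqN : ¬ q ∣ N) (hqp : q ≠ p)
    {A : ValuationSubring Qb} (hA : A.LiesOverPrime q) {τ : Qb ≃ₐ[ℚ] Qb}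
    (hτ : τ ∈ A.inertiaSubgroupIn ℚ) (g : Qb ≃ₐ[ℚ] Qb) : W p N (τ * g) = W p N g :=
  Wabs_of_eq_one_mul (rhoT p N) (cyclo p) (rhoT_inertia hq hqN hqp hA hτ)
    (cyclo_of_mem_inertia p hq hqp A hA hτ) g

/-! ### the level -/

/-- the common level of `ρ_M mod p ^ m` and `ε mod p ^ m`. -/
theorem exists_level (hfin : {y : JZero N | p • y = 0}.Finite) (m : ℕ) :
    ∃ L : IntermediateField ℚ Qb, FiniteDimensional ℚ L ∧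
      ∀ h : Qb ≃ₐ[ℚ] Qb, (∀ a ∈ L, h a = a) →
        (∀ x : TJ p N, ∃ y : TJ p N, rhoT p N h x - x = ((p : ℤ_[p]) ^ m) • y) ∧
        (∀ x : TJ p N, ∃ y : TJ p N, rhoT p N h⁻¹ x - x = ((p : ℤ_[p]) ^ m) • y) ∧
        ∃ u : ℤ_[p], (cyclo p h : ℤ_[p]) - 1 = (p : ℤ_[p]) ^ m * u := by
  obtain ⟨L₁, hL₁, H₁⟩ := rhoT_continuous (p := p) (N := N) hfin m
  obtain ⟨L₂, hL₂, H₂⟩ := cyclo_sub_one_mem p m
  refine ⟨L₁ ⊔ L₂, IntermediateField.finiteDimensional_sup L₁ L₂, ?_⟩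
  intro h hh
  have h1 : ∀ a ∈ L₁, h a = a := fun a ha => hh a ((le_sup_left : L₁ ≤ L₁ ⊔ L₂) ha)
  have h2 : ∀ a ∈ L₂, h a = a := fun a ha => hh a ((le_sup_right : L₂ ≤ L₁ ⊔ L₂) ha)
  have h1' : ∀ a ∈ L₁, h⁻¹ a = a := by
    intro a ha
    have e : h⁻¹ (h a) = a := h.symm_apply_apply a
    rw [h1 a ha] at e
    exact e
  refine ⟨H₁ h h1, H₁ h⁻¹ h1', ?_⟩
  have := H₂ h h2
  rw [Ideal.mem_span_singleton'] at this
  obtain ⟨u, hu⟩ := this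
  exact ⟨u, by rw [← hu, mul_comm]⟩

/-- **`W s ≡ W g mod p ^ m`** whenever `g⁻¹ * s` fixes the level `L` (pointwise on the Tate
module). -/
theorem exists_level_W (hfin : {y : JZero N | p • y = 0}.Finite) (m : ℕ) :
    ∃ L : IntermediateField ℚ Qb, FiniteDimensional ℚ L ∧
      ∀ g s : Qb ≃ₐ[ℚ] Qb, (∀ a ∈ L, (g⁻¹ * s) a = a) →
        ∀ x : TJ p N, ∃ y : TJ p N, W p N s x - W p N g x = ((p : ℤ_[p]) ^ m) • y := by
  obtain ⟨L, hL, H⟩ := exists_level (p := p) (N := N) hfin m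
  refine ⟨L, hL, ?_⟩
  intro g s hs x
  obtain ⟨H1, H2, hu⟩ := H (g⁻¹ * s) hs
  have hsg : s = g * (g⁻¹ * s) := by rw [mul_inv_cancel_left]
  have key := Wabs_mul_congr (rhoT p N) (cyclo p) ((p : ℤ_[p]) ^ m) g (g⁻¹ * s) H1 H2 hu x
  rw [← hsg] at key
  exact key

/-- **the `M`-side input of route C**: if `g⁻¹ * s` and `(g * τ)⁻¹ * s'` fix the level `L` and `τ`
lies in an inertia group at `q ∤ N p`, then `W s ≡ W s' mod p ^ m`. -/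
theorem exists_level_W_inertia (hfin : {y : JZero N | p • y = 0}.Finite) (m : ℕ) :
    ∃ L : IntermediateField ℚ Qb, FiniteDimensional ℚ L ∧
      ∀ {q : ℕ} (_ : q.Prime) (_ : ¬ q ∣ N) (_ : q ≠ p) {A : ValuationSubring Qb}
        (_ : A.LiesOverPrime q) {τ : Qb ≃ₐ[ℚ] Qb} (_ : τ ∈ A.inertiaSubgroupIn ℚ)
        (g s s' : Qb ≃ₐ[ℚ] Qb), (∀ a ∈ L, (g⁻¹ * s) a = a) →
        (∀ a ∈ L, ((g * τ)⁻¹ * s') a = a) →
        ∀ x : TJ p N, ∃ y : TJ p N, W p N s x - W p N s' x = ((p : ℤ_[p]) ^ m) • y := by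
  obtain ⟨L, hL, H⟩ := exists_level_W (p := p) (N := N) hfin m
  refine ⟨L, hL, ?_⟩
  intro q hq hqN hqp A hA τ hτ g s s' hs hs' x
  obtain ⟨y₁, hy₁⟩ := H g s hs x
  obtain ⟨y₂, hy₂⟩ := H (g * τ) s' hs' x
  rw [W_mul_inertia hq hqN hqp hA hτ g] at hy₂
  refine ⟨y₁ - y₂, ?_⟩
  have e : W p N s x - W p N s' x = (W p N s x - W p N g x) - (W p N s' x - W p N g x) := by
    abel
  rw [e, hy₁, hy₂]
  exact (smul_sub ((p : ℤ_[p]) ^ m) y₁ y₂).symm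

end Fermat.Agent.ES.ALG31.TateLevelW13
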