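/-
S31, route C, leaf (C-b) (helper13): `TateLevelW13` with the finiteness hypothesis
`{y : J₀(N) | p • y = 0}.Finite` discharged by `FiniteTorsion15.finite_setOf_nsmul_eq_zero`.
-/
import Mathlib
import Fermat.Agent.ES.ALG31.TateLevelW13
import Fermat.Agent.ES.KUM.FiniteTorsion15

set_option autoImplicit false
set_option synthInstance.maxHeartbeats 400000
set_option linter.unusedSectionVars false

noncomputable section

open AlgebraicCurve ModularCurve

namespace Fermat.Agent.ES.ALG31.TateLevelWFinal13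

open Fermat.Agent.ES.J.TateModule13 Fermat.Agent.ES.J.TateJZero13 Fermat.Agent.ES.J.CycloChar8
open Fermat.Agent.ES.ALG31.TateLevelW13

/-- `ℚbar`. -/
local notation "Qb" => AlgebraicClosure ℚ

variable (p : ℕ) [hp : Fact p.Prime] (N : ℕ) [NeZero N]

/-- `J₀(N)[p]` is finite. -/
theorem finite_p_torsion : {y : JZero N | p • y = 0}.Finite :=
  haveI : NeZero p := ⟨hp.out.ne_zero⟩
  Fermat.Agent.ES.KUM.FiniteTorsion15.finite_setOf_nsmul_eq_zero N p

/-- the Tate module of `J₀(N)` is finite free over `ℤ_p`. -/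
theorem finite_free_TJ : Module.Finite ℤ_[p] (TJ p N) ∧ Module.Free ℤ_[p] (TJ p N) :=
  finite_free (finite_p_torsion p N)

/-- the common level of `ρ_M mod p ^ m` and `ε mod p ^ m`. -/
theorem exists_level' (m : ℕ) :
    ∃ L : IntermediateField ℚ Qb, FiniteDimensional ℚ L ∧
      ∀ h : Qb ≃ₐ[ℚ] Qb, (∀ a ∈ L, h a = a) →
        (∀ x : TJ p N, ∃ y : TJ p N, rhoT p N h x - x = ((p : ℤ_[p]) ^ m) • y) ∧
        (∀ x : TJ p N, ∃ y : TJ p N, rhoT p N h⁻¹ x - x = ((p : ℤ_[p]) ^ m) • y) ∧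
        ∃ u : ℤ_[p], (cyclo p h : ℤ_[p]) - 1 = (p : ℤ_[p]) ^ m * u :=
  exists_level (finite_p_torsion p N) m

/-- **`W s ≡ W g mod p ^ m`** whenever `g⁻¹ * s` fixes the level `L`. -/
theorem exists_level_W' (m : ℕ) :
    ∃ L : IntermediateField ℚ Qb, FiniteDimensional ℚ L ∧
      ∀ g s : Qb ≃ₐ[ℚ] Qb, (∀ a ∈ L, (g⁻¹ * s) a = a) →
        ∀ x : TJ p N, ∃ y : TJ p N, W p N s x - W p N g x = ((p : ℤ_[p]) ^ m) • y :=
  exists_level_W (finite_p_torsion p N) m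

/-- **the `M`-side input of route C**, unconditional. -/
theorem exists_level_W_inertia' (m : ℕ) :
    ∃ L : IntermediateField ℚ Qb, FiniteDimensional ℚ L ∧
      ∀ {q : ℕ} (_ : q.Prime) (_ : ¬ q ∣ N) (_ : q ≠ p) {A : ValuationSubring Qb}
        (_ : A.LiesOverPrime q) {τ : Qb ≃ₐ[ℚ] Qb} (_ : τ ∈ A.inertiaSubgroupIn ℚ)
        (g s s' : Qb ≃ₐ[ℚ] Qb), (∀ a ∈ L, (g⁻¹ * s) a = a) →
        (∀ a ∈ L, ((g * τ)⁻¹ * s') a = a) →
        ∀ x : TJ p N, ∃ y : TJ p N, W p N s x - W p N s' x = ((p : ℤ_[p]) ^ m) • y :=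
  exists_level_W_inertia (finite_p_torsion p N) m

end Fermat.Agent.ES.ALG31.TateLevelWFinal13
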