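import Mathlib
import Fermat.Agent.ES.ALG31.RankTwo1
import Fermat.Agent.ES.ALG31.TraceRigid13

/-!
# S31, K-E core: a pseudo-character trivial at `σ` forces `ρ σ = 1` (helper1)

Combination of `RankTwo1.trace_mul_eq_of_pseudoChar` (K-C) and
`TraceRigid13.eq_one_of_trace_mul_eq` (K-D / (E)).
-/

namespace Fermat.Agent.ES.ALG31.UnramPseudo1

open Fermat.Agent.ES.ALG31

/-- Let `ρ : GaloisRepAdic A` be residually absolutely irreducible, with `det ρ = dT`, and
suppose its pseudo-character `ρ g + dT g • ρ g⁻¹ = π (t g) • 1` comes from a `B`-valued function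
`t` which is also the pseudo-character of a representation `ρM` on a faithful `B`-module `M`.
If `σ` acts trivially on `M` and on the character `dB`, then `ρ σ = 1`. -/
theorem eq_one_of_pseudoChar {A : Type} [CommRing A] [IsLocalRing A] (ρ : GaloisRepAdic A)
    (habs : ρ.residual.IsAbsolutelyIrreducible)
    {B : Type*} [CommRing B] {M : Type*} [AddCommGroup M] [Module B M]
    (hfaith : ∀ b : B, (∀ m : M, b • m = 0) → b = 0) (π : B →+* A)
    (ρM : (AlgebraicClosure ℚ ≃ₐ[ℚ] AlgebraicClosure ℚ) →* Module.End B M)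
    (dB t : (AlgebraicClosure ℚ ≃ₐ[ℚ] AlgebraicClosure ℚ) → B)
    (dT : (AlgebraicClosure ℚ ≃ₐ[ℚ] AlgebraicClosure ℚ) → A)
    (hM : ∀ g, ρM g + dB g • ρM g⁻¹ = t g • (1 : Module.End B M))
    (hV : ∀ g, ρ.ρ g + dT g • ρ.ρ g⁻¹ = π (t g) • (1 : Module.End A ρ.V))
    (hdet : ∀ g, LinearMap.det (ρ.ρ g) = dT g)
    (σ : AlgebraicClosure ℚ ≃ₐ[ℚ] AlgebraicClosure ℚ) (hσ : ρM σ = 1)
    (hdσ : ∀ g, dB (g * σ) = dB g) : ρ.ρ σ = 1 :=
  TraceRigid13.eq_one_of_trace_mul_eq ρ habs σ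
    (RankTwo1.trace_mul_eq_of_pseudoChar ρ.finrank_eq hfaith π ρM ρ.ρ dB dT t hM hV hdet σ hσ hdσ)

end Fermat.Agent.ES.ALG31.UnramPseudo1
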